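/-
S40 (`moonshots` row 62 §M4 / row 63 T4′), leaf (M4-LG) (helper18): **(LG) for the pair `(f, D)`,
`div f = e D`, at the closed points of the special fibre that are NOT crossing points** (and at
crossing points carrying no point of `D`).

In S33 the pair was `(σ'f / f, σ'D − D)` and the local generator `β = ∏ (σ' b_P / b_P) ^ {D P}` was a
unit of both vertical valuation rings for free (first differences).  For `(f, D)` itself the product
`β₀ = ∏ b_P ^ {D P}` of local equations (Loc-P) has uncontrolled vertical valuations; they are repaired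
by a factor `c` which is a unit at the closed point `𝔫`:

* at the vertical ring `V_i` THROUGH `𝔫`: multiply by a power of the uniformiser `ϖ` (a constant);
* at the vertical ring `V_j` NOT through `𝔫`: multiply by `(ϖ ^ n + y ^ (n + 1)) ^ {±1}`, `y ∈ 𝔪_{V_j} ∩ R`,
  `y ∉ 𝔫` — a unit at `𝔫` of `V_j`-valuation `v_j(ϖ) ^ {±n}`.

Then `f / (β₀ c) ^ e` has no horizontal part through `𝔫` and is a unit of `V₁`, `V₂`, hence a unit at
`𝔫` by the unit criterion (normality; `P3G/UCrit.hcrit_strong`).  Output = `S33/L/Skeleton.LGAt`.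
At a crossing point this is impossible in general (the obstruction is `p ∣ m_s`, see board #3049).
-/
import Mathlib
import Fermat.Agent.S33.L.Skeleton
import Fermat.Agent.S33.New.FirstDiffLevel
import Fermat.Agent.S33.L.BOutGood

set_option autoImplicit false
set_option linter.unusedSectionVars false
set_option linter.dupNamespace false
set_option linter.style.haveILetI false
set_option linter.style.longLine false

open AlgebraicCurve

noncomputable section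

namespace Fermat.Agent.S40.M4.LGUnit

open Fermat.Agent.P4.TwistRoots Fermat.Agent.P3G.UCrit Fermat.Agent.P3G.SecondDiff
  Fermat.Agent.S33.L.Skeleton

/-! ### The vertical correction -/

section Correction

variable {O F R : Type*} [CommRing O] [Field F] [Algebra O F]
  [CommRing R] [IsDomain R] [Algebra R F] [IsFractionRing R F] [Algebra O R] [IsScalarTower O R F]

/-- At a prime `𝔫 ∋ ϖ` through which the valuation ring `V ⊇ R` does NOT pass, there are units at `𝔫`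
of every `V`-valuation `v(ϖ) ^ m`, `m : ℤ`. -/
theorem exists_isUnitAt_valuation_zpow (V : ValuationSubring F)
    (ϖ : O) (hϖV : algebraMap O F ϖ ∈ V.nonunits) (hϖ0 : algebraMap O F ϖ ≠ 0)
    (hunif : ∀ x : F, V.valuation x < 1 → V.valuation x ≤ V.valuation (algebraMap O F ϖ))
    (𝔫 : Ideal R) [h𝔫 : 𝔫.IsPrime] (hϖ𝔫 : algebraMap O R ϖ ∈ 𝔫) (hnt : ¬ Through V 𝔫) (m : ℤ) :
    ∃ c : F, IsUnitAt 𝔫 c ∧ V.valuation c = V.valuation (algebraMap O F ϖ) ^ m := by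
  obtain ⟨y, hyV, hy𝔫⟩ := not_through_iff.1 hnt
  have hv1 : V.valuation (algebraMap O F ϖ) < 1 := (V.mem_nonunits_iff).1 hϖV
  have hv0 : V.valuation (algebraMap O F ϖ) ≠ 0 := (Valuation.ne_zero_iff _).2 hϖ0
  have hvy : V.valuation (algebraMap R F y) ≤ V.valuation (algebraMap O F ϖ) :=
    hunif _ ((V.mem_nonunits_iff).1 hyV)
  -- natural exponents
  have key : ∀ n : ℕ, ∃ c : F, IsUnitAt 𝔫 c ∧
      V.valuation c = V.valuation (algebraMap O F ϖ) ^ n := by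
    intro n
    rcases n with _ | n
    · exact ⟨1, isUnitAt_one, by simp⟩
    · set r : R := algebraMap O R ϖ ^ (n + 1) + y ^ (n + 2) with hr
      have hr𝔫 : r ∉ 𝔫 := by
        intro hmem
        have h1 : algebraMap O R ϖ ^ (n + 1) ∈ 𝔫 := Ideal.pow_mem_of_mem _ hϖ𝔫 _ (Nat.succ_pos n)
        have h2 : y ^ (n + 2) ∈ 𝔫 := by
          have : y ^ (n + 2) = r - algebraMap O R ϖ ^ (n + 1) := by rw [hr]; ring
          rw [this]
          exact 𝔫.sub_mem hmem h1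
        exact hy𝔫 (h𝔫.mem_of_pow_mem _ h2)
      refine ⟨algebraMap R F r, isUnitAt_algebraMap hr𝔫, ?_⟩
      have hmap : algebraMap R F r =
          algebraMap O F ϖ ^ (n + 1) + algebraMap R F y ^ (n + 2) := by
        rw [hr, map_add, map_pow, map_pow, ← IsScalarTower.algebraMap_apply]
      rw [hmap]
      have hlt : V.valuation (algebraMap R F y ^ (n + 2)) <
          V.valuation (algebraMap O F ϖ ^ (n + 1)) := by
        rw [map_pow, map_pow]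
        calc V.valuation (algebraMap R F y) ^ (n + 2)
            ≤ V.valuation (algebraMap O F ϖ) ^ (n + 2) := pow_le_pow_left' hvy _
          _ = V.valuation (algebraMap O F ϖ) ^ (n + 1) * V.valuation (algebraMap O F ϖ) :=
              pow_succ _ _
          _ < V.valuation (algebraMap O F ϖ) ^ (n + 1) * 1 := by
              have hpos : 0 < V.valuation (algebraMap O F ϖ) ^ (n + 1) :=
                zero_lt_iff.2 (pow_ne_zero _ hv0)
              exact mul_lt_mul_of_pos_left hv1 hpos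
          _ = V.valuation (algebraMap O F ϖ) ^ (n + 1) := mul_one _
      rw [Valuation.map_add_eq_of_lt_left _ hlt, map_pow]
  obtain ⟨n, rfl | rfl⟩ := m.eq_nat_or_neg
  · obtain ⟨c, hc, hvc⟩ := key n
    exact ⟨c, hc, by rw [hvc, zpow_natCast]⟩
  · obtain ⟨c, hc, hvc⟩ := key n
    exact ⟨c⁻¹, hc.inv, by rw [map_inv₀, hvc, zpow_neg, zpow_natCast]⟩

/-- One of two valuation rings `V₁ V₂ ⊇ R` passes through a prime `𝔫 ∋ ϖ`, if every element of `R`
that is a nonunit of both is divisible by `ϖ`. -/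
theorem through_or_through (V₁ V₂ : ValuationSubring F)
    (hV₁ : ∀ r : R, algebraMap R F r ∈ V₁) (hV₂ : ∀ r : R, algebraMap R F r ∈ V₂) (ϖ : O)
    (hsat : ∀ r : R, algebraMap R F r ∈ V₁.nonunits → algebraMap R F r ∈ V₂.nonunits →
      algebraMap O R ϖ ∣ r)
    (𝔫 : Ideal R) [h𝔫 : 𝔫.IsPrime] (hϖ𝔫 : algebraMap O R ϖ ∈ 𝔫) :
    Through V₁ 𝔫 ∨ Through V₂ 𝔫 := by
  by_contra hcon
  rw [not_or] at hcon
  obtain ⟨r₁, hr₁, hn₁⟩ := not_through_iff.1 hcon.1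
  obtain ⟨r₂, hr₂, hn₂⟩ := not_through_iff.1 hcon.2
  have h1 : algebraMap R F (r₁ * r₂) ∈ V₁.nonunits := by
    rw [map_mul, V₁.mem_nonunits_iff, map_mul]
    have ha : V₁.valuation (algebraMap R F r₁) < 1 := (V₁.mem_nonunits_iff).1 hr₁
    have hb : V₁.valuation (algebraMap R F r₂) ≤ 1 := (V₁.valuation_le_one_iff _).2 (hV₁ r₂)
    calc V₁.valuation (algebraMap R F r₁) * V₁.valuation (algebraMap R F r₂)
        ≤ V₁.valuation (algebraMap R F r₁) * 1 := mul_le_mul_right hb _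
      _ < 1 := by rw [mul_one]; exact ha
  have h2 : algebraMap R F (r₁ * r₂) ∈ V₂.nonunits := by
    rw [map_mul, V₂.mem_nonunits_iff, map_mul]
    have ha : V₂.valuation (algebraMap R F r₂) < 1 := (V₂.mem_nonunits_iff).1 hr₂
    have hb : V₂.valuation (algebraMap R F r₁) ≤ 1 := (V₂.valuation_le_one_iff _).2 (hV₂ r₁)
    calc V₂.valuation (algebraMap R F r₁) * V₂.valuation (algebraMap R F r₂)
        ≤ 1 * V₂.valuation (algebraMap R F r₂) := mul_le_mul_left hb _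
      _ < 1 := by rw [one_mul]; exact ha
  obtain ⟨t, ht⟩ := hsat _ h1 h2
  have hmem : r₁ * r₂ ∈ 𝔫 := by
    rw [ht]; exact Ideal.mul_mem_right _ _ hϖ𝔫
  exact (h𝔫.mem_or_mem hmem).elim hn₁ hn₂

/-- **The vertical correction at a point on the branch `V₁` only**: for every `β₀ ≠ 0` there is a
factor `c`, a product of a power of `ϖ` and a unit at `𝔫`, such that `β₀ c` is a unit of `V₁` and
`V₂`. -/
theorem exists_correction_of_through (V₁ V₂ : ValuationSubring F)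
    (hV₁ : ∀ r : R, algebraMap R F r ∈ V₁) (ϖ : O)
    (hϖ₂ : algebraMap O F ϖ ∈ V₂.nonunits) (hϖ0 : algebraMap O F ϖ ≠ 0)
    (hdisc₁ : ∀ b : F, b ≠ 0 → ∃ n : ℤ, V₁.valuation b = V₁.valuation (algebraMap O F ϖ) ^ n)
    (hdisc₂ : ∀ b : F, b ≠ 0 → ∃ n : ℤ, V₂.valuation b = V₂.valuation (algebraMap O F ϖ) ^ n)
    (hunif₂ : ∀ x : F, V₂.valuation x < 1 → V₂.valuation x ≤ V₂.valuation (algebraMap O F ϖ))
    (𝔫 : Ideal R) [h𝔫 : 𝔫.IsPrime] (hϖ𝔫 : algebraMap O R ϖ ∈ 𝔫)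
    (ht₁ : Through V₁ 𝔫) (hnt₂ : ¬ Through V₂ 𝔫) {β₀ : F} (hβ₀ : β₀ ≠ 0) :
    ∃ (k : ℤ) (c : F), IsUnitAt 𝔫 c ∧
      V₁.valuation (β₀ * (algebraMap O F ϖ ^ k * c)) = 1 ∧
      V₂.valuation (β₀ * (algebraMap O F ϖ ^ k * c)) = 1 := by
  obtain ⟨n₁, hn₁⟩ := hdisc₁ β₀ hβ₀
  have hβ₁ : β₀ * algebraMap O F ϖ ^ (-n₁) ≠ 0 := mul_ne_zero hβ₀ (zpow_ne_zero _ hϖ0)
  obtain ⟨m, hm⟩ := hdisc₂ _ hβ₁
  obtain ⟨c, hc, hvc⟩ := exists_isUnitAt_valuation_zpow V₂ ϖ hϖ₂ hϖ0 hunif₂ 𝔫 hϖ𝔫 hnt₂ (-m)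
  have hv0₁ : V₁.valuation (algebraMap O F ϖ) ≠ 0 := (Valuation.ne_zero_iff _).2 hϖ0
  have hv0₂ : V₂.valuation (algebraMap O F ϖ) ≠ 0 := (Valuation.ne_zero_iff _).2 hϖ0
  refine ⟨-n₁, c, hc, ?_, ?_⟩
  · rw [← mul_assoc, map_mul, hc.valuation_eq_one hV₁ ht₁, mul_one, map_mul, map_zpow₀, hn₁,
      ← zpow_add₀ hv0₁, add_neg_cancel, zpow_zero]
  · rw [← mul_assoc, map_mul, hm, hvc, ← zpow_add₀ hv0₂, add_neg_cancel, zpow_zero]

end Correction

/-! ### (LG) for `(h, D)` at a closed point, abstract chart -/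

section Main

open Fermat.Agent.P3G.LocalRootsAt (fam)

variable {O K F R : Type*}
  [CommRing O] [IsDomain O] [IsDiscreteValuationRing O]
  [Field K] [Algebra O K] [IsFractionRing O K]
  [Field F] [Algebra K F] [Algebra O F] [IsScalarTower O K F]
  [CommRing R] [IsDomain R] [IsNoetherianRing R]
  [Algebra R F] [IsFractionRing R F] [Algebra O R] [IsScalarTower O R F]

omit [IsDiscreteValuationRing O] [IsNoetherianRing R] [CommRing R] [IsDomain R] [Algebra R F]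
  [IsFractionRing R F] [Algebra O R] [IsScalarTower O R F] in
/-- Nonzero constants of `O` have order zero at every place of `F / K`. -/
theorem ord_algebraMap_base' (Q : Place K F) {c : O} (hc : c ≠ 0) :
    Q.ord (algebraMap O F c) = 0 := by
  have hc' : algebraMap O K c ≠ 0 := fun h0 =>
    hc (IsFractionRing.injective O K (by rw [h0, map_zero]))
  rw [IsScalarTower.algebraMap_apply O K F]
  have hu : IsUnit (⟨algebraMap K F (algebraMap O K c), Q.algebraMap_mem' _⟩ :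
      Q.toValuationSubring) := by
    refine isUnit_iff_exists_inv.mpr ⟨⟨algebraMap K F (algebraMap O K c)⁻¹,
      Q.algebraMap_mem' _⟩, ?_⟩
    apply Subtype.ext
    show algebraMap K F (algebraMap O K c) * algebraMap K F (algebraMap O K c)⁻¹ = 1
    rw [← map_mul, mul_inv_cancel₀ hc', map_one]
  exact Q.ord_coe_unit hu.unit

omit [IsDomain O] [IsDiscreteValuationRing O] [IsNoetherianRing R] [Algebra O R]
  [IsScalarTower O R F] [Algebra O F] [IsScalarTower O K F] [Algebra O K] [IsFractionRing O K] in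
/-- The product of the local equations has the prescribed orders at the places centred at `𝔫`. -/
theorem ord_prod_zpow_localEqs (𝔫 : Ideal R) (S : Finset (Place K F)) (D : Place K F → ℤ)
    (hD : ∀ P ∈ centredSet K 𝔫, P ∉ S → D P = 0) (b : Place K F → F)
    (hb0 : ∀ P ∈ S, b P ≠ 0) (hb1 : ∀ P ∈ S, P.ord (b P) = 1)
    (hb2 : ∀ P ∈ S, ∀ Q ∈ centredSet K 𝔫, Q ≠ P → Q.ord (b P) = 0)
    {Q : Place K F} (hQ : Q ∈ centredSet K 𝔫) :
    Q.ord (∏ P ∈ S, b P ^ D P) = D Q := by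
  classical
  have hord : OrdMul (fun (Q : Place K F) (x : F) => Q.ord x) := fun Q _ _ hf hg =>
    Q.ord_mul hf hg
  have h0 : Q.ord (∏ P ∈ S, b P ^ D P) = ∑ P ∈ S, D P * Q.ord (b P) :=
    hord.prod_zpow Q S b D hb0
  rw [h0]
  have h1 : ∑ P ∈ S, D P * Q.ord (b P) = ∑ P ∈ S, if Q = P then D P else 0 := by
    refine Finset.sum_congr rfl fun P hP => ?_
    split_ifs with hQP
    · rw [hQP, hb1 P hP, mul_one]
    · rw [hb2 P hP Q hQ hQP, mul_zero]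
  rw [h1, Finset.sum_ite_eq]
  split_ifs with hmem
  · rfl
  · exact (hD Q hQ hmem).symm

/-- In a valuation ring whose values are the integral powers of `v(ϖ) < 1`, every element of the
maximal ideal has value at most `v(ϖ)`. -/
theorem le_valuation_unif_of_disc {O F : Type*} [CommRing O] [Field F] [Algebra O F]
    (V : ValuationSubring F) (ϖ : O) (hϖV : algebraMap O F ϖ ∈ V.nonunits)
    (hϖ0 : algebraMap O F ϖ ≠ 0)
    (hdisc : ∀ b : F, b ≠ 0 → ∃ n : ℤ, V.valuation b = V.valuation (algebraMap O F ϖ) ^ n)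
    (x : F) (hx : V.valuation x < 1) : V.valuation x ≤ V.valuation (algebraMap O F ϖ) := by
  by_cases hx0 : x = 0
  · rw [hx0, map_zero]; exact zero_le
  obtain ⟨n, hn⟩ := hdisc x hx0
  have hv1 : V.valuation (algebraMap O F ϖ) < 1 := (V.mem_nonunits_iff).1 hϖV
  have hv0 : V.valuation (algebraMap O F ϖ) ≠ 0 := (Valuation.ne_zero_iff _).2 hϖ0
  have hpos : 0 < V.valuation (algebraMap O F ϖ) := zero_lt_iff.2 hv0
  rw [hn] at hx ⊢
  obtain ⟨k, rfl | rfl⟩ := n.eq_nat_or_neg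
  · rw [zpow_natCast] at hx ⊢
    rcases k with _ | k
    · rw [pow_zero] at hx; exact absurd hx (lt_irrefl _)
    · calc V.valuation (algebraMap O F ϖ) ^ (k + 1)
          = V.valuation (algebraMap O F ϖ) ^ k * V.valuation (algebraMap O F ϖ) := pow_succ _ _
        _ ≤ 1 * V.valuation (algebraMap O F ϖ) :=
            mul_le_mul_left (pow_le_one' hv1.le k) _
        _ = V.valuation (algebraMap O F ϖ) := one_mul _
  · exfalso
    rw [zpow_neg, zpow_natCast] at hx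
    have h1 : V.valuation (algebraMap O F ϖ) ^ k ≤ 1 := pow_le_one' hv1.le k
    have h2 : 0 < V.valuation (algebraMap O F ϖ) ^ k := zero_lt_iff.2 (pow_ne_zero _ hv0)
    have h3 : 1 ≤ (V.valuation (algebraMap O F ϖ) ^ k)⁻¹ := (one_le_inv₀ h2).2 h1
    exact absurd hx (not_lt.2 h3)

variable [IsIntegrallyClosed R]

/-- **The unit criterion at `𝔫` for two vertical valuation rings** (`P3G/UCrit.hcrit_strong` for the
family `fam V₁ V₂`). -/
theorem isUnitAt_of_ord_eq_zero (V₁ V₂ : ValuationSubring F)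
    (hV₁ : ∀ r : R, algebraMap R F r ∈ V₁) (hV₂ : ∀ r : R, algebraMap R F r ∈ V₂)
    {ϖ : O} (hϖ : Irreducible ϖ)
    (hϖ₁ : algebraMap O F ϖ ∈ V₁.nonunits) (hϖ₂ : algebraMap O F ϖ ∈ V₂.nonunits)
    (hsat : ∀ r : R, algebraMap R F r ∈ V₁.nonunits → algebraMap R F r ∈ V₂.nonunits →
      algebraMap O R ϖ ∣ r)
    (𝔫 : Ideal R) [h𝔫 : 𝔫.IsPrime] {x : F} (hx0 : x ≠ 0)
    (hxC : ∀ Q ∈ centredSet K 𝔫, Q.ord x = 0) (hx₁ : V₁.valuation x = 1)
    (hx₂ : V₂.valuation x = 1) : IsUnitAt 𝔫 x := by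
  have hV : ∀ (i : Bool) (r : R), algebraMap R F r ∈ fam V₁ V₂ i := by
    intro i r; cases i
    · exact hV₂ r
    · exact hV₁ r
  have hϖV : ∀ i : Bool, algebraMap R F (algebraMap O R ϖ) ∈ (fam V₁ V₂ i).nonunits := by
    intro i
    rw [← IsScalarTower.algebraMap_apply]
    cases i
    · exact hϖ₂
    · exact hϖ₁
  have hsat' : ∀ r : R, (∀ i : Bool, algebraMap R F r ∈ (fam V₁ V₂ i).nonunits) →
      algebraMap O R ϖ ∣ r := fun r hr => hsat r (hr true) (hr false)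
  exact hcrit_strong (K := K) (fam V₁ V₂) hV hϖ hϖV hsat' 𝔫 x hx0 hxC
    (fun i => by cases i; exacts [hx₂, hx₁])

/-- **(LG) at a closed point carrying no point of `D`** (in particular at such a crossing point):
`β = 1`. -/
theorem lgAt_of_forall_eq_zero (V₁ V₂ : ValuationSubring F)
    (hV₁ : ∀ r : R, algebraMap R F r ∈ V₁) (hV₂ : ∀ r : R, algebraMap R F r ∈ V₂)
    {ϖ : O} (hϖ : Irreducible ϖ)
    (hϖ₁ : algebraMap O F ϖ ∈ V₁.nonunits) (hϖ₂ : algebraMap O F ϖ ∈ V₂.nonunits)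
    (hsat : ∀ r : R, algebraMap R F r ∈ V₁.nonunits → algebraMap R F r ∈ V₂.nonunits →
      algebraMap O R ϖ ∣ r)
    (𝔫 : Ideal R) [h𝔫 : 𝔫.IsPrime] (D : Place K F → ℤ)
    (hD0 : ∀ Q ∈ centredSet K 𝔫, D Q = 0) {e : ℕ} {h : F} (hh0 : h ≠ 0)
    (hhC : ∀ Q ∈ centredSet K 𝔫, Q.ord h = e * D Q)
    (hhV₁ : V₁.valuation h = 1) (hhV₂ : V₂.valuation h = 1) :
    LGAt K 𝔫 V₁ V₂ D h e := by
  refine ⟨1, one_ne_zero, map_one _, map_one _, fun Q hQ => ?_, ?_⟩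
  · rw [hD0 Q hQ]; exact Q.ord_one
  · obtain ⟨a, r, ha, hr, har⟩ := isUnitAt_of_ord_eq_zero (K := K) V₁ V₂ hV₁ hV₂ hϖ hϖ₁ hϖ₂ hsat 𝔫
      hh0 (fun Q hQ => by rw [hhC Q hQ, hD0 Q hQ, mul_zero]) hhV₁ hhV₂
    exact ⟨a, r, ha, hr, by rw [one_pow, one_mul]; exact har⟩

/-- **(LG) for `(h, D)` at a closed point `𝔫 ∋ ϖ` that is NOT a crossing point**, from local
equations (Loc-P) of the points of `D` centred at `𝔫`: if `h` is a unit of `V₁`, `V₂` with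
`ord_Q h = e · D Q` at the places centred at `𝔫`, there is `β`, unit of `V₁` and `V₂`, with
`ord_Q β = D Q` at those places and `h = u β ^ e`, `u` a unit at `𝔫`. -/
theorem lgAt_of_localEqs (V₁ V₂ : ValuationSubring F)
    (hV₁ : ∀ r : R, algebraMap R F r ∈ V₁) (hV₂ : ∀ r : R, algebraMap R F r ∈ V₂)
    {ϖ : O} (hϖ : Irreducible ϖ)
    (hϖ₁ : algebraMap O F ϖ ∈ V₁.nonunits) (hϖ₂ : algebraMap O F ϖ ∈ V₂.nonunits)
    (hsat : ∀ r : R, algebraMap R F r ∈ V₁.nonunits → algebraMap R F r ∈ V₂.nonunits →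
      algebraMap O R ϖ ∣ r)
    (hdisc₁ : ∀ b : F, b ≠ 0 → ∃ n : ℤ, V₁.valuation b = V₁.valuation (algebraMap O F ϖ) ^ n)
    (hdisc₂ : ∀ b : F, b ≠ 0 → ∃ n : ℤ, V₂.valuation b = V₂.valuation (algebraMap O F ϖ) ^ n)
    (𝔫 : Ideal R) [h𝔫 : 𝔫.IsPrime] (hϖ𝔫 : algebraMap O R ϖ ∈ 𝔫)
    (hnode : ¬ (Through V₁ 𝔫 ∧ Through V₂ 𝔫))
    (S : Finset (Place K F)) (D : Place K F → ℤ)
    (hD : ∀ P ∈ centredSet K 𝔫, P ∉ S → D P = 0) (b : Place K F → F)
    (hb0 : ∀ P ∈ S, b P ≠ 0) (hb1 : ∀ P ∈ S, P.ord (b P) = 1)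
    (hb2 : ∀ P ∈ S, ∀ Q ∈ centredSet K 𝔫, Q ≠ P → Q.ord (b P) = 0)
    {e : ℕ} {h : F} (hh0 : h ≠ 0) (hhC : ∀ Q ∈ centredSet K 𝔫, Q.ord h = e * D Q)
    (hhV₁ : V₁.valuation h = 1) (hhV₂ : V₂.valuation h = 1) :
    LGAt K 𝔫 V₁ V₂ D h e := by
  classical
  have hϖ0 : algebraMap O F ϖ ≠ 0 := by
    intro h0
    have : algebraMap O F ϖ ∈ V₁.nonunits := hϖ₁
    rw [V₁.mem_nonunits_iff, h0, map_zero] at this
    have hK0 : algebraMap O K ϖ = 0 := by
      have h1 : algebraMap K F (algebraMap O K ϖ) = 0 := by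
        rw [← IsScalarTower.algebraMap_apply]; exact h0
      exact (map_eq_zero _).1 h1
    exact hϖ.ne_zero (IsFractionRing.injective O K (by rw [hK0, map_zero]))
  set β₀ : F := ∏ P ∈ S, b P ^ D P with hβ₀def
  have hβ₀ : β₀ ≠ 0 := Finset.prod_ne_zero_iff.2 fun P hP => zpow_ne_zero _ (hb0 P hP)
  have hβ₀C : ∀ Q ∈ centredSet K 𝔫, Q.ord β₀ = D Q := fun Q hQ =>
    ord_prod_zpow_localEqs 𝔫 S D hD b hb0 hb1 hb2 hQ
  -- the correction
  have hcorr : ∃ (k : ℤ) (c : F), IsUnitAt 𝔫 c ∧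
      V₁.valuation (β₀ * (algebraMap O F ϖ ^ k * c)) = 1 ∧
      V₂.valuation (β₀ * (algebraMap O F ϖ ^ k * c)) = 1 := by
    rcases through_or_through V₁ V₂ hV₁ hV₂ ϖ hsat 𝔫 hϖ𝔫 with ht₁ | ht₂
    · have hnt₂ : ¬ Through V₂ 𝔫 := fun ht₂ => hnode ⟨ht₁, ht₂⟩
      exact exists_correction_of_through V₁ V₂ hV₁ ϖ hϖ₂ hϖ0 hdisc₁ hdisc₂
        (le_valuation_unif_of_disc V₂ ϖ hϖ₂ hϖ0 hdisc₂) 𝔫 hϖ𝔫 ht₁ hnt₂ hβ₀
    · by_cases ht₁ : Through V₁ 𝔫
      · exact absurd ⟨ht₁, ht₂⟩ hnode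
      · obtain ⟨k, c, hc, h2, h1⟩ := exists_correction_of_through V₂ V₁ hV₂ ϖ hϖ₁ hϖ0 hdisc₂ hdisc₁
          (le_valuation_unif_of_disc V₁ ϖ hϖ₁ hϖ0 hdisc₁) 𝔫 hϖ𝔫 ht₂ ht₁ hβ₀
        exact ⟨k, c, hc, h1, h2⟩
  obtain ⟨k, c, hc, hβ₁, hβ₂⟩ := hcorr
  have hϖk0 : algebraMap O F ϖ ^ k ≠ 0 := zpow_ne_zero _ hϖ0
  have hc0 : c ≠ 0 := hc.ne_zero
  have hcorr0 : algebraMap O F ϖ ^ k * c ≠ 0 := mul_ne_zero hϖk0 hc0
  set β : F := β₀ * (algebraMap O F ϖ ^ k * c) with hβdef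
  have hβ0 : β ≠ 0 := mul_ne_zero hβ₀ hcorr0
  have hϖK : (ϖ : O) ≠ 0 := hϖ.ne_zero
  have hβC : ∀ Q ∈ centredSet K 𝔫, Q.ord β = D Q := by
    intro Q hQ
    rw [hβdef, Q.ord_mul hβ₀ hcorr0, Q.ord_mul hϖk0 hc0, Q.ord_zpow,
      ord_algebraMap_base' Q hϖK, mul_zero, zero_add,
      hc.ord_eq_zero hQ, add_zero, hβ₀C Q hQ]
  refine ⟨β, hβ0, hβ₁, hβ₂, hβC, ?_⟩
  have hβe0 : β ^ e ≠ 0 := pow_ne_zero e hβ0
  have hord : OrdMul (fun (Q : Place K F) (x : F) => Q.ord x) := fun Q _ _ hf hg =>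
    Q.ord_mul hf hg
  obtain ⟨a, r, ha, hr, har⟩ := isUnitAt_of_ord_eq_zero (K := K) V₁ V₂ hV₁ hV₂ hϖ hϖ₁ hϖ₂ hsat 𝔫
    (div_ne_zero hh0 hβe0)
    (fun Q hQ => by
      have h1 : Q.ord (h / β ^ e) = Q.ord h - Q.ord (β ^ e) := hord.div Q hh0 hβe0
      have h2 : Q.ord (β ^ e) = e * Q.ord β := hord.pow Q hβ0 e
      rw [h1, h2, hβC Q hQ, hhC Q hQ, sub_self])
    (by rw [map_div₀, map_pow, hβ₁, one_pow, div_one, hhV₁])
    (by rw [map_div₀, map_pow, hβ₂, one_pow, div_one, hhV₂])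
  refine ⟨a, r, ha, hr, ?_⟩
  rw [← har]
  field_simp

end Main

/-! ### (LG) for `(f, div f / e)` on a chart, in the `TwoVal` / `IsSemiGaussRing` language -/

section Chart

open Fermat.Agent.N4.Chart Fermat.Agent.P3G.Cover.Lift Fermat.Agent.P3G.Assembly.PowCover
open Fermat.Agent.S24.PlaceDeriv (ResidueTrivial)

universe u

variable {O K₀ : Type*} [CommRing O] [IsDomain O] [IsDiscreteValuationRing O]
  [Field K₀] [Algebra O K₀] [IsFractionRing O K₀]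
variable {F₀ : Type u} [Field F₀] [Algebra K₀ F₀] [Algebra O F₀] [IsScalarTower O K₀ F₀]
variable {π : O} {W : Subring F₀} {V₁ V₂ : ValuationSubring F₀}
variable (s : F₀)
  [IsNoetherianRing (chartAlg O F₀ {s})] [IsFractionRing (chartAlg O F₀ {s}) F₀]
  [IsIntegrallyClosed (chartAlg O F₀ {s})]

/-- **(LG) for `(f, div f / e)` at a closed point of the special fibre of a chart** which is not a
crossing point, or which carries no zero or pole of `f`: from the vertical data (`TwoVal`, semilocal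
Gauss ring, discreteness of `V₁ V₂` with respect to `π`) and (Loc-P) at `𝔫`.  `f` is a unit of `V₁`,
`V₂`, `e ∣ ord_Q f` everywhere, and the zeros and poles of `f` are rational. -/
theorem lgAt_chart (hπ : Irreducible π) (hT : TwoVal π W V₁ V₂)
    (hW : IsSemiGaussRing W (algebraMap O (chartAlg O F₀ {s}) π))
    (hdisc₁ : ∀ b : F₀, b ≠ 0 → ∃ n : ℤ, V₁.valuation b = V₁.valuation (algebraMap O F₀ π) ^ n)
    (hdisc₂ : ∀ b : F₀, b ≠ 0 → ∃ n : ℤ, V₂.valuation b = V₂.valuation (algebraMap O F₀ π) ^ n)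
    (𝔫 : Ideal (chartAlg O F₀ {s})) (h𝔫 : 𝔫.IsMaximal)
    (hπ𝔫 : algebraMap O (chartAlg O F₀ {s}) π ∈ 𝔫)
    (hloc : ∀ P ∈ centredSet K₀ 𝔫, ResidueTrivial P →
      ∃ b : F₀, b ≠ 0 ∧ P.ord b = 1 ∧ ∀ Q ∈ centredSet K₀ 𝔫, Q ≠ P → Q.ord b = 0)
    {f : F₀} (hf : f ≠ 0) {e : ℕ} (he : e ≠ 0)
    (hdiv : ∀ Q : Place K₀ F₀, (e : ℤ) ∣ Q.ord f)
    (hfV₁ : V₁.valuation f = 1) (hfV₂ : V₂.valuation f = 1)
    (S : Finset (Place K₀ F₀)) (hS : ∀ Q : Place K₀ F₀, Q.ord f ≠ 0 → Q ∈ S)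
    (hSrat : ∀ Q ∈ S, ResidueTrivial Q)
    (hnode : ¬ (Through V₁ 𝔫 ∧ Through V₂ 𝔫) ∨ ∀ Q ∈ centredSet K₀ 𝔫, Q.ord f = 0) :
    LGAt K₀ 𝔫 V₁ V₂ (fun Q => Q.ord f / (e : ℤ)) f e := by
  classical
  haveI : 𝔫.IsPrime := h𝔫.isPrime
  have he' : (e : ℤ) ≠ 0 := Nat.cast_ne_zero.mpr he
  set D : Place K₀ F₀ → ℤ := fun Q => Q.ord f / (e : ℤ) with hD
  have hDmul : ∀ Q : Place K₀ F₀, Q.ord f = (e : ℤ) * D Q := fun Q =>
    (Int.mul_ediv_cancel' (hdiv Q)).symm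
  have hV₁ : ∀ r : chartAlg O F₀ {s}, algebraMap (chartAlg O F₀ {s}) F₀ r ∈ V₁ := fun r =>
    hT.mem₁ (hW.le r)
  have hV₂ : ∀ r : chartAlg O F₀ {s}, algebraMap (chartAlg O F₀ {s}) F₀ r ∈ V₂ := fun r =>
    hT.mem₂ (hW.le r)
  have hsat : ∀ r : chartAlg O F₀ {s},
      algebraMap (chartAlg O F₀ {s}) F₀ r ∈ V₁.nonunits →
      algebraMap (chartAlg O F₀ {s}) F₀ r ∈ V₂.nonunits →
      algebraMap O (chartAlg O F₀ {s}) π ∣ r := by
    intro r h1 h2
    obtain ⟨w, hw, hrw⟩ := hT.exists_eq_mul h1 h2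
    exact hW.sat r ⟨w, hw, by rw [hrw]; rfl⟩
  rcases hnode with hnode | hzero
  · -- local equations, chosen for all places at once
    have hb : ∀ P : Place K₀ F₀, ∃ b : F₀,
        P ∈ centredSet K₀ 𝔫 → ResidueTrivial P →
          b ≠ 0 ∧ P.ord b = 1 ∧ ∀ Q ∈ centredSet K₀ 𝔫, Q ≠ P → Q.ord b = 0 := by
      intro P
      by_cases h1 : P ∈ centredSet K₀ 𝔫 ∧ ResidueTrivial P
      · obtain ⟨b, hb⟩ := hloc P h1.1 h1.2
        exact ⟨b, fun _ _ => hb⟩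
      · exact ⟨1, fun h2 h3 => absurd ⟨h2, h3⟩ h1⟩
    choose b hb using hb
    refine lgAt_of_localEqs (K := K₀) V₁ V₂ hV₁ hV₂ hπ hT.pi_mem₁ hT.pi_mem₂ hsat hdisc₁ hdisc₂ 𝔫
      hπ𝔫 hnode (S.filter (fun Q => Q ∈ centredSet K₀ 𝔫)) D ?_ b ?_ ?_ ?_ hf
      (fun Q _ => hDmul Q) hfV₁ hfV₂
    · intro P hPC hPS
      have h0 : P.ord f = 0 := by
        by_contra hne
        exact hPS (Finset.mem_filter.mpr ⟨hS P hne, hPC⟩)
      simp only [hD, h0, Int.zero_ediv]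
    · intro P hP
      obtain ⟨h1, h2⟩ := Finset.mem_filter.mp hP
      exact (hb P h2 (hSrat P h1)).1
    · intro P hP
      obtain ⟨h1, h2⟩ := Finset.mem_filter.mp hP
      exact (hb P h2 (hSrat P h1)).2.1
    · intro P hP
      obtain ⟨h1, h2⟩ := Finset.mem_filter.mp hP
      exact (hb P h2 (hSrat P h1)).2.2
  · refine lgAt_of_forall_eq_zero (K := K₀) V₁ V₂ hV₁ hV₂ hπ hT.pi_mem₁ hT.pi_mem₂ hsat 𝔫 D
      (fun Q hQ => ?_) hf (fun Q _ => hDmul Q) hfV₁ hfV₂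
    simp only [hD, hzero Q hQ, Int.zero_ediv]

end Chart

/-! ### The level instance: `V₁ = gaussVS`, `V₂ = S₂.V` at a good level -/

section Level

open ModularCurve IntermediateField
open Fermat.Agent.N4.Setting Fermat.Agent.N4.Chart Fermat.Agent.N4.BigDVR
  Fermat.Agent.P3G.Assembly.LevelStep Fermat.Agent.P3G.Assembly.LevelGeomOfPoints
  Fermat.Agent.P3G.Gamma Fermat.Agent.P3G.GammaAut
  Fermat.Agent.N4F.C Fermat.Agent.N4F.C.Levels Fermat.Agent.N4F.C.Galois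
  Fermat.Agent.N4F.E.GaussDVR Fermat.Agent.N4.FibreEmbedding Fermat.Agent.S28.Gauss
  Fermat.Agent.P3G.Cover.Lift Fermat.Agent.P3G.Assembly.PowCover
open Fermat.Agent.S24.PlaceDeriv (ResidueTrivial)

local notation "Qbar" => AlgebraicClosure ℚ
local notation "Γ" => (AlgebraicClosure ℚ ≃ₐ[ℚ] AlgebraicClosure ℚ)

variable (M q : ℕ) [NeZero M] [Fact q.Prime] (hqM : ¬ q ∣ M)
  (A : ValuationSubring Qbar)
  (K : IntermediateField ℚ Qbar)
  [IsDiscreteValuationRing ↥(baseRing A K)] [IsFractionRing ↥(baseRing A K) (Lvl K)]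
  (S₂ : Fermat.Agent.P3G.FibreTwo.SecondVal (Lvl K) M q (baseRing A K))
  (ϖ : ↥(baseRing A K)) (hϖ : Irreducible ϖ)

include hϖ in
/-- The value group of `V₁ = gaussVS` is generated by `v₁(ϖ)`. -/
theorem exists_zpow_valuation_gaussVS {b : FF (Lvl K) (M * q)} (hb : b ≠ 0) :
    ∃ n : ℤ, (gaussVS (Lvl K) (M * q) (baseRing A K)).valuation b =
      (gaussVS (Lvl K) (M * q) (baseRing A K)).valuation
        (algebraMap ↥(baseRing A K) (FF (Lvl K) (M * q)) ϖ) ^ n := by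
  haveI : IsDiscreteValuationRing ↥(gaussVS (Lvl K) (M * q) (baseRing A K)) :=
    isDiscreteValuationRing_gauss (Lvl K) (M * q) (baseRing A K)
  exact Fermat.Agent.S33.L.BaseCase.exists_zpow_valuation_of_dvr
    (Fermat.Agent.P3G.GammaVert.unif_mem_nonunits_gaussVS K A (M * q) hϖ)
    (Fermat.Agent.P3G.GammaV2.algebraMap_unif_ne_zero K M q hϖ)
    (fun x hx => Fermat.Agent.P3G.GammaV2.mul_inv_mem_gaussVS K (M * q) hϖ hx) hb

include hqM hϖ in
/-- The value group of `V₂ = S₂.V` is generated by `v₂(ϖ)`. -/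
theorem exists_zpow_valuation_secondVal' {b : FF (Lvl K) (M * q)} (hb : b ≠ 0) :
    ∃ n : ℤ, S₂.V.valuation b =
      S₂.V.valuation (algebraMap ↥(baseRing A K) (FF (Lvl K) (M * q)) ϖ) ^ n :=
  Fermat.Agent.P3G.GammaV2.exists_zpow_valuation_secondVal K M q S₂ hqM hϖ hb

include hqM in
/-- **(LG) for `(f_K, div f_K / e)` at a good level**, in the vocabulary of `S33/L/Main`
(`VertLevel` + `LocPChart` of `PointsUniform.levelData_of_secondVal`, for ANY element `σ` of the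
decomposition group — only `irr`, `twoVal`, the semilocal Gauss ring of the chart and the local
equations are used): at a closed point `𝔫` of the special fibre of the chart `chartAlg O_K F_K {s}`
which is not a crossing point, or which carries no zero or pole of `f_K`. -/
theorem lgAt_level {hKs : ∀ (τ : Γ) (x : Qbar), x ∈ K → τ x ∈ K} {σ : Γ}
    {W : Subring (FF (Lvl K) (M * q))}
    (hV : VertLevel A K hKs (M * q) σ ϖ W (gaussVS (Lvl K) (M * q) (baseRing A K)) S₂.V)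
    (s : FF (Lvl K) (M * q))
    [IsNoetherianRing (chartAlg ↥(baseRing A K) (FF (Lvl K) (M * q)) {s})]
    [IsFractionRing (chartAlg ↥(baseRing A K) (FF (Lvl K) (M * q)) {s}) (FF (Lvl K) (M * q))]
    [IsIntegrallyClosed (chartAlg ↥(baseRing A K) (FF (Lvl K) (M * q)) {s})]
    (hsemi : IsSemiGaussRing W
      (algebraMap ↥(baseRing A K) (chartAlg ↥(baseRing A K) (FF (Lvl K) (M * q)) {s}) ϖ))
    (hP : LocPChart A K hKs (M * q) σ ϖ s)
    {f : FF (Lvl K) (M * q)} (hf : f ≠ 0) {e : ℕ} (he : e ≠ 0)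
    (hdiv : ∀ Q : Place (Lvl K) (FF (Lvl K) (M * q)), (e : ℤ) ∣ Q.ord f)
    (hfV₁ : (gaussVS (Lvl K) (M * q) (baseRing A K)).valuation f = 1)
    (hfV₂ : S₂.V.valuation f = 1)
    (S : Finset (Place (Lvl K) (FF (Lvl K) (M * q))))
    (hS : ∀ Q : Place (Lvl K) (FF (Lvl K) (M * q)), Q.ord f ≠ 0 → Q ∈ S)
    (hSrat : ∀ Q ∈ S, ResidueTrivial Q)
    (𝔫 : Ideal (chartAlg ↥(baseRing A K) (FF (Lvl K) (M * q)) {s})) (h𝔫 : 𝔫.IsMaximal)
    (hϖ𝔫 : algebraMap ↥(baseRing A K) (chartAlg ↥(baseRing A K) (FF (Lvl K) (M * q)) {s}) ϖ ∈ 𝔫)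
    (hnode : ¬ (Through (gaussVS (Lvl K) (M * q) (baseRing A K)) 𝔫 ∧ Through S₂.V 𝔫) ∨
      ∀ Q ∈ centredSet (F := FF (Lvl K) (M * q)) (Lvl K) 𝔫, Q.ord f = 0) :
    LGAt (Lvl K) 𝔫 (gaussVS (Lvl K) (M * q) (baseRing A K)) S₂.V
      (fun Q => Q.ord f / (e : ℤ)) f e :=
  lgAt_chart (K₀ := Lvl K) s hV.irr hV.twoVal hsemi
    (fun _ hb => exists_zpow_valuation_gaussVS M q A K ϖ hV.irr hb)
    (fun _ hb => exists_zpow_valuation_secondVal' M q hqM A K S₂ ϖ hV.irr hb)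
    𝔫 h𝔫 hϖ𝔫 (hP 𝔫 h𝔫 hϖ𝔫).2 hf he hdiv hfV₁ hfV₂ S hS hSrat hnode

end Level

end Fermat.Agent.S40.M4.LGUnit
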