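/-
S40 (`moonshots` row 62 §M4 / row 63 T4′), leaf (M4-B) (helper18): **(B-out) at a good level for a
GENERIC function `h`**, unit at both vertical valuation rings `V₁ = gaussVS`, `V₂ = S₂.V` of
`F = FF (Lvl K) (M * q)`, whose two norms along `α`, `β` are `e`-th powers and which is an `e`-th power
modulo `ϖ` at `V₁` and at `V₂` (the BASE CASE is a hypothesis).

This is `S33/L/BOutGood.{exists_pair_level, bOut_level}` with `h` generic instead of the first
difference `σ'_K f / f` (for which the base case came from the triviality of inertia on the residue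
fields).  In S40 it is used with `h = f_K`, `div f = p D`, the base case being `Λ_∞ = Λ_0 = 0`.

Ingredients (all kernel-checked in the S33 closure, imported, not modified):
`L/PingPongAbs.exists_pair`, `L/BOutGood.{nrAlpha_level, nrBeta_level, isArch_gaussVS,
isArch_secondVal}`, `L/TwoValCRT.forall_exists_bOutAt_of_div`.
-/
import Mathlib
import Fermat.Agent.S33.L.BOutGood

set_option autoImplicit false
set_option linter.unusedSectionVars false
set_option linter.dupNamespace false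
set_option linter.style.haveILetI false
set_option linter.style.longLine false

open ModularCurve AlgebraicCurve IntermediateField

noncomputable section

namespace Fermat.Agent.S40.M4.BOutBase

open Fermat.Agent.N4.Setting Fermat.Agent.N4.BigDVR
  Fermat.Agent.P3G.Assembly.LevelStep
  Fermat.Agent.P3G.Gamma Fermat.Agent.P3G.GammaAut
  Fermat.Agent.N4F.C Fermat.Agent.N4F.C.Levels Fermat.Agent.N4F.C.Galois
  Fermat.Agent.N4F.E.GaussDVR Fermat.Agent.N4F.E.DegreeLevelRaise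
  Fermat.Agent.P4.FrobLevelStep Fermat.Agent.P4.TwoValApprox
  Fermat.Agent.S33.L.Skeleton Fermat.Agent.N4.FibreEmbedding
  Fermat.Agent.S28.Gauss

local notation "Qbar" => AlgebraicClosure ℚ
local notation "Γ" => (AlgebraicClosure ℚ ≃ₐ[ℚ] AlgebraicClosure ℚ)

variable (M q : ℕ) [NeZero M] [Fact q.Prime] (hqM : ¬ q ∣ M)
  (A : ValuationSubring Qbar) (hA : A.LiesOverPrime q)
  (K : IntermediateField ℚ Qbar) (hK : IsGoodLevel A q K)
  [IsDiscreteValuationRing ↥(baseRing A K)] [IsFractionRing ↥(baseRing A K) (Lvl K)]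
  (S₂ : Fermat.Agent.P3G.FibreTwo.SecondVal (Lvl K) M q (baseRing A K))
  (ϖ : ↥(baseRing A K)) (hϖ : Irreducible ϖ)

include hqM hA hK hϖ in
/-- **The ping-pong at a good level, generic `h`**: if the norms of `h` along `α` and `β` are `e`-th
powers and `h` is an `e`-th power modulo `ϖ` at both vertical valuations, then it is an `e`-th power
modulo `ϖ ^ m` at both vertical valuations, for every `m ≥ 1`. -/
theorem exists_pair_of_base {e : ℕ} (he : e ≠ 0) {h : FF (Lvl K) (M * q)} (hh : h ≠ 0)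
    (hnα : ∃ a' : FF (Lvl K) M, normAlphaK K M q h = a' ^ e)
    (hnβ : ∃ b' : FF (Lvl K) M, normBetaK K M q h = b' ^ e)
    (hb₁ : ∃ g₁ : FF (Lvl K) (M * q), g₁ ≠ 0 ∧
      CongrMod (gaussVS (Lvl K) (M * q) (baseRing A K)) ϖ 1 (h / g₁ ^ e) 1)
    (hb₂ : ∃ g₂ : FF (Lvl K) (M * q), g₂ ≠ 0 ∧ CongrMod S₂.V ϖ 1 (h / g₂ ^ e) 1)
    (m : ℕ) (hm : 1 ≤ m) :
    (∃ g₁ : FF (Lvl K) (M * q), g₁ ≠ 0 ∧
      CongrMod (gaussVS (Lvl K) (M * q) (baseRing A K)) ϖ m (h / g₁ ^ e) 1) ∧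
    (∃ g₂ : FF (Lvl K) (M * q), g₂ ≠ 0 ∧ CongrMod S₂.V ϖ m (h / g₂ ^ e) 1) := by
  have hq : q.Prime := Fact.out
  haveI : NeZero q := ⟨hq.ne_zero⟩
  exact Fermat.Agent.S33.L.PingPongAbs.exists_pair
    (gaussVS (Lvl K) (M * q) (baseRing A K)) S₂.V ϖ
    (alphaF (Lvl K) M q : FF (Lvl K) M →+* FF (Lvl K) (M * q))
    (betaF (Lvl K) M q : FF (Lvl K) M →+* FF (Lvl K) (M * q))
    (normAlphaK K M q) (normBetaK K M q) e
    (Fermat.Agent.P3G.GammaVert.unif_mem_nonunits_gaussVS K A (M * q) hϖ)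
    (Fermat.Agent.P3G.GammaV2.unif_mem_nonunits_secondVal K M q S₂ hϖ)
    (Fermat.Agent.S33.L.BOutGood.nrAlpha_level M q hqM A hA K hK S₂ ϖ hϖ)
    (Fermat.Agent.S33.L.BOutGood.nrBeta_level M q hqM A hA K hK S₂ ϖ hϖ) he hh hnα hnβ hb₁ hb₂ m hm

include hqM hA hK hϖ in
/-- **(B-out) at a good level for a generic `h`** = the contract `S33/L/Skeleton.BOut` for
`V₁ = gaussVS`, `V₂ = S₂.V`: if `h ≠ 0` is a unit at both vertical valuations, its norms along `α`, `β`
are `e`-th powers, and it is an `e`-th power modulo `ϖ` at `V₁` and at `V₂` (base case), then for every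
`m` there is a single `G ≠ 0`, unit at both vertical valuations, with `h / G ^ e ≡ 1` modulo
`ϖ ^ m (V₁ ∩ V₂)`. -/
theorem bOut_of_base {e : ℕ} (he : e ≠ 0) {h : FF (Lvl K) (M * q)} (hh : h ≠ 0)
    (hv₁ : (gaussVS (Lvl K) (M * q) (baseRing A K)).valuation h = 1)
    (hv₂ : S₂.V.valuation h = 1)
    (hnα : ∃ a' : FF (Lvl K) M, normAlphaK K M q h = a' ^ e)
    (hnβ : ∃ b' : FF (Lvl K) M, normBetaK K M q h = b' ^ e)
    (hb₁ : ∃ g₁ : FF (Lvl K) (M * q), g₁ ≠ 0 ∧
      CongrMod (gaussVS (Lvl K) (M * q) (baseRing A K)) ϖ 1 (h / g₁ ^ e) 1)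
    (hb₂ : ∃ g₂ : FF (Lvl K) (M * q), g₂ ≠ 0 ∧ CongrMod S₂.V ϖ 1 (h / g₂ ^ e) 1) :
    BOut (gaussVS (Lvl K) (M * q) (baseRing A K)) S₂.V ϖ h e := by
  intro m
  exact Fermat.Agent.S33.L.TwoValCRT.forall_exists_bOutAt_of_div
    (fun h' => S₂.ne_gauss h'.symm) (Fermat.Agent.S33.L.BOutGood.isArch_gaussVS M q A K)
    (Fermat.Agent.S33.L.BOutGood.isArch_secondVal M q hqM A K S₂ ϖ hϖ)
    (Fermat.Agent.P3G.GammaV2.algebraMap_unif_ne_zero K M q hϖ)
    (Fermat.Agent.P3G.GammaVert.unif_mem_nonunits_gaussVS K A (M * q) hϖ)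
    (Fermat.Agent.P3G.GammaV2.unif_mem_nonunits_secondVal K M q S₂ hϖ) he hv₁ hv₂
    (fun m hm => by
      obtain ⟨⟨g₁, hg₁, h₁⟩, ⟨g₂, hg₂, h₂⟩⟩ :=
        exists_pair_of_base M q hqM A hA K hK S₂ ϖ hϖ he hh hnα hnβ hb₁ hb₂ m hm
      exact ⟨g₁, g₂, hg₁, hg₂, h₁, h₂⟩) m

/-- The base case in quotient shape from the difference shape: `h - g ^ e ∈ ϖ V` with `g` a unit of
`V` gives `h / g ^ e ≡ 1 (mod ϖ V)`. -/
theorem congrMod_div_of_sub_pow {F : Type*} [Field F] {O : Type*} [CommRing O] [Algebra O F]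
    (V : ValuationSubring F) (π : O) {h g w : F} {e : ℕ} (hg : V.valuation g = 1) (hw : w ∈ V)
    (heq : h - g ^ e = algebraMap O F π * w) : g ≠ 0 ∧ CongrMod V π 1 (h / g ^ e) 1 := by
  have hg0 : g ≠ 0 := by
    rintro rfl
    rw [map_zero] at hg
    exact zero_ne_one hg
  refine ⟨hg0, Fermat.Agent.S33.L.BOutGood.congrMod_div_of_sub V π (pow_ne_zero e hg0) ?_ hw heq⟩
  rw [← ValuationSubring.valuation_le_one_iff, map_inv₀, map_pow, hg, one_pow, inv_one]

end Fermat.Agent.S40.M4.BOutBase
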