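/-
S40 (`moonshots` rows 62–64), block [M4]/(FT), leaf M4-DESC (helper23): **THE DESCENT FOR ONE TWIST.**

Row 61 (S33) proved `(τ − a)(σ' − 1) x = 0` through the function `τ h / h ^ a`, `h = σ' f / f`.
For (FT) the pair `(E, h)` is `(D, f)` itself: `x = [D]`, `div f = p D`, and the target is
`(τ − a) x = 0`, i.e. `τ f / f ^ a = c' g ^ p`.  This file is the single-twist clone of
`S33/New/NewStep` + `S33/L/Descent` + `S33/L/LevelOrd` + `S33/L/TwOrd`:

* `ops1 M τ a = [(gal M τ, a)]`, `twFnL (ops1 …) f = τ f / f ^ a`, `twPicL (ops1 …) x = τ x − a x`;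
* `twK K hK M τ a f_K = τ_K f_K / f_K ^ a` at a Galois-stable level, `levK_twK`, `twK_eq_tw`
  (`= FirstDiff.tw τ_K a f_K`, the `ρ`-twist of `L/Skeleton` applied to `h := f_K`);
* `E1Div f e Q = ord_Q f / e`, `Ez1Div … Q = E (τ_K⁻¹ Q) − a E Q` (`hEz` of `Skeleton.exists_section` is
  `fun _ => rfl`), `ord_twK_eq : ord_Q (twK … f) = e · E_z Q`, finite supports, `exists_ord_twK_le`;
* ★ `smul_eq_of_level` : ONE stable level `K`, a model `f_K` of `f`, a nonzero `g ∈ F_K` with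
  `div (τ_K f_K / f_K ^ a) ≤ p · div g`  ⇒  `τ • [D] = a • [D]`  (`div f = p D`);
* `FTLevelOrdAt`, `FTLevelKOrdAt` (the "all good levels `K ⊇ K₁`" forms, the second with the
  provider-friendly binder block of `LevelOrd.NewLevelKOrdAt`: level models, EXACT level norm equations,
  `p ∣ ord_Q f_K`, rational zeros and poles) and `smul_eq_of_ftLevelOrdAt`, `smul_eq_of_ftLevelKOrdAt`;
* `galTors_apply_eq_chi_smul` : the conclusion in the shape of `S40/Top/Final` (`hnew`, right disjunct):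
  `galTors N p τ x = χ_p(τ) • x`.
-/
import Mathlib
import Fermat.Agent.S33.L.TwOrd
import Fermat.Agent.N4F.Res.Interface
import Fermat.Agent.S14.GaloisModule

set_option autoImplicit false
set_option linter.unusedSectionVars false
set_option linter.dupNamespace false
set_option linter.style.haveILetI false

open ModularCurve AlgebraicCurve IntermediateField

noncomputable section

namespace Fermat.Agent.S40.M4.Descent

open Fermat.Agent.N4.Setting
  Fermat.Agent.P3G.Assembly.LevelStep Fermat.Agent.P3G.Assembly.LevelGeomOfPoints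
  Fermat.Agent.P3G.GammaDict Fermat.Agent.P3G.GeomStep Fermat.Agent.P3G.AuxPrime
  Fermat.Agent.P3G.Gamma Fermat.Agent.P3G.GammaAut Fermat.Agent.P3G.SecondDiff
  Fermat.Agent.N4F.C Fermat.Agent.N4F.C.Levels Fermat.Agent.N4F.C.Galois
  Fermat.Agent.P4.FrobStep Fermat.Agent.P4.LevelFrobStep Fermat.Agent.P4.FrobLevelStep
  Fermat.Agent.S33.New.FirstDiff
  Fermat.Agent.S33.L.TwOrd Fermat.Agent.S33.L.LevelOrd

local notation "Qbar" => AlgebraicClosure ℚ
local notation "Γ" => (AlgebraicClosure ℚ ≃ₐ[ℚ] AlgebraicClosure ℚ)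

/-! ### The operator `τ − a` over `Q̄` -/

section Ops

variable (M : ℕ) [NeZero M]

/-- The one-element list of operators `[(τ, a)]` on the function field of level `M`. -/
def ops1 (τ : Γ) (a : ℤ) : List (SemilinearAut Qb (Fb M) × ℤ) := [(gal M τ, a)]

/-- `twFnL [(τ, a)] f = τ f / f ^ a`. -/
theorem twFnL_ops1 (τ : Γ) (a : ℤ) (f : Fb M) :
    twFnL (ops1 M τ a) f = (gal M τ • f) / f ^ a := rfl

/-- `twPicL [(τ, a)] x = τ x − a x`. -/
theorem twPicL_ops1 (τ : Γ) (a : ℤ) (x : JZero M) :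
    twPicL (ops1 M τ a) x = τ • x - a • x := rfl

end Ops

/-! ### The function `τ_K f / f ^ a` at a Galois-stable level -/

section TwK

variable (K : IntermediateField ℚ Qbar) (hK : ∀ (τ : Γ) (x : Qbar), x ∈ K → τ x ∈ K)
  (M : ℕ) [NeZero M]

/-- `τ_K f / f ^ a` at the stable level `K`. -/
def twK (τ : Γ) (a : ℤ) (f : FF (Lvl K) M) : FF (Lvl K) M :=
  twFnL [(levelFF K hK M τ, a)] f

theorem twK_eq (τ : Γ) (a : ℤ) (f : FF (Lvl K) M) :
    twK K hK M τ a f = (levelFF K hK M τ • f) / f ^ a := rfl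

/-- The level map carries `twK` to `τ f / f ^ a` over `Q̄`. -/
theorem levK_twK (τ : Γ) (a : ℤ) (f : FF (Lvl K) M) :
    levK M K (twK K hK M τ a f) = twFnL (ops1 M τ a) (levK M K f) := by
  rw [twK_eq, twFnL_ops1, map_div₀, map_zpow₀, levK_levelFF_smul]

/-- `twK` is the twist `FirstDiff.tw τ_K a` of `L/Skeleton` (natural exponent). -/
theorem twK_eq_tw (τ : Γ) (a : ℕ) (f : FF (Lvl K) M) :
    twK K hK M τ (a : ℤ) f = tw (tauRE K hK M τ) a f := by
  rw [twK_eq, zpow_natCast]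
  rfl

theorem twK_ne_zero (τ : Γ) (a : ℤ) {f : FF (Lvl K) M} (hf : f ≠ 0) : twK K hK M τ a f ≠ 0 :=
  twFnL_ne_zero _ hf

/-! ### The divisors `E = div f / e` and `E_z = (τ_K − a) E` -/

/-- `E = div f / e` as a function on the places. -/
def E1Div (f : FF (Lvl K) M) (e : ℕ) : Place (Lvl K) (FF (Lvl K) M) → ℤ :=
  fun Q => Q.ord f / (e : ℤ)

/-- `E_z = (τ_K − a) E`. -/
def Ez1Div (τ : Γ) (a : ℕ) (f : FF (Lvl K) M) (e : ℕ) : Place (Lvl K) (FF (Lvl K) M) → ℤ :=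
  fun Q => E1Div K M f e ((tauPl K hK M τ).symm Q) - (a : ℤ) * E1Div K M f e Q

theorem Ez1Div_apply (τ : Γ) (a : ℕ) (f : FF (Lvl K) M) (e : ℕ)
    (Q : Place (Lvl K) (FF (Lvl K) M)) :
    Ez1Div K hK M τ a f e Q =
      E1Div K M f e ((tauPl K hK M τ).symm Q) - (a : ℤ) * E1Div K M f e Q := rfl

variable {K hK M}

/-- `ord_Q f = e · E Q`. -/
theorem ord_eq_mul_E1Div {f : FF (Lvl K) M} {e : ℕ}
    (hdiv : ∀ Q : Place (Lvl K) (FF (Lvl K) M), (e : ℤ) ∣ Q.ord f)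
    (Q : Place (Lvl K) (FF (Lvl K) M)) : Q.ord f = (e : ℤ) * E1Div K M f e Q := by
  unfold E1Div
  rw [Int.mul_ediv_cancel' (hdiv _)]

/-- `ord_Q (τ_K f / f ^ a) = e · E_z Q`. -/
theorem ord_twK_eq (τ : Γ) (a : ℕ) {f : FF (Lvl K) M} (hf : f ≠ 0) {e : ℕ}
    (hdiv : ∀ Q : Place (Lvl K) (FF (Lvl K) M), (e : ℤ) ∣ Q.ord f)
    (Q : Place (Lvl K) (FF (Lvl K) M)) :
    Q.ord (twK K hK M τ (a : ℤ) f) = (e : ℤ) * Ez1Div K hK M τ a f e Q := by
  rw [twK_eq_tw]
  have h := ord_tw (ordMul_lvl K M) (compat_tauPl K hK M τ) Q a hf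
  rw [h, ord_eq_mul_E1Div hdiv, ord_eq_mul_E1Div hdiv Q, Ez1Div_apply]
  ring

/-- `E` has finite support. -/
theorem finite_E1Div_ne_zero {f : FF (Lvl K) M} (hf : f ≠ 0) (e : ℕ) :
    {Q : Place (Lvl K) (FF (Lvl K) M) | E1Div K M f e Q ≠ 0}.Finite := by
  obtain ⟨S₀, hS₀⟩ := Fermat.Agent.P3G.Glue.LevelDict.exists_finset_ord_ne_zero M K f hf
  refine S₀.finite_toSet.subset (fun Q hQ => ?_)
  refine hS₀ Q (fun h0 => hQ ?_)
  unfold E1Div
  rw [h0, Int.zero_ediv]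

/-- `E_z` has finite support. -/
theorem finite_Ez1Div_ne_zero (τ : Γ) (a : ℕ) {f : FF (Lvl K) M} (hf : f ≠ 0) {e : ℕ}
    (hdiv : ∀ Q : Place (Lvl K) (FF (Lvl K) M), (e : ℤ) ∣ Q.ord f) :
    {Q : Place (Lvl K) (FF (Lvl K) M) | Ez1Div K hK M τ a f e Q ≠ 0}.Finite := by
  obtain ⟨S₀, hS₀⟩ := Fermat.Agent.P3G.Glue.LevelDict.exists_finset_ord_ne_zero M K
    (twK K hK M τ (a : ℤ) f) (twK_ne_zero K hK M τ _ hf)
  refine S₀.finite_toSet.subset (fun Q hQ => ?_)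
  refine hS₀ Q ?_
  rw [ord_twK_eq τ a hf hdiv]
  intro h0
  rcases mul_eq_zero.1 h0 with h1 | h1
  · have he : e = 0 := by exact_mod_cast h1
    subst he
    apply hQ
    rw [Ez1Div_apply]
    unfold E1Div
    simp
  · exact hQ h1

/-- **The output of `Skeleton.exists_section` (for `h := f_K`, `E := E1Div`) is the level hypothesis
of `smul_eq_of_level`**: a nonzero `g` with `E_z ≤ div g` satisfies `div (twK … f) ≤ e · div g`. -/
theorem exists_ord_twK_le (τ : Γ) (a : ℕ) {f : FF (Lvl K) M} (hf : f ≠ 0) {e : ℕ}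
    (hdiv : ∀ Q : Place (Lvl K) (FF (Lvl K) M), (e : ℤ) ∣ Q.ord f)
    (h : ∃ g : FF (Lvl K) M, g ≠ 0 ∧
      ∀ Q : Place (Lvl K) (FF (Lvl K) M), Ez1Div K hK M τ a f e Q ≤ Q.ord g) :
    ∃ g : FF (Lvl K) M, g ≠ 0 ∧
      ∀ Q : Place (Lvl K) (FF (Lvl K) M),
        Q.ord (twK K hK M τ (a : ℤ) f) ≤ (e : ℤ) * Q.ord g := by
  obtain ⟨g, hg0, hg⟩ := h
  refine ⟨g, hg0, fun Q => ?_⟩
  rw [ord_twK_eq τ a hf hdiv]
  exact mul_le_mul_of_nonneg_left (hg Q) (Int.natCast_nonneg e)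

end TwK

/-! ### The descent at ONE level -/

section OneLevel

variable {N : ℕ} [NeZero N]

/-- **(FT), descent at one level.**  `x = [D]`, `div f = m D` (`m ≠ 0`); at ONE Galois-stable level
`K` a model `f_K` of `f` and a nonzero `g ∈ F_K` with `div (τ_K f_K / f_K ^ a) ≤ m · div g`.
Then `τ x = a x`. -/
theorem smul_eq_of_level {m : ℕ} (hm : m ≠ 0) {τ : Γ} {a : ℤ}
    (D : Divisor.degZero (K := Qb) (F := Fb N)) {f : Fb N}
    (hf : IsDivOf f (m • (D : Divisor Qb (Fb N))))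
    (K : IntermediateField ℚ Qbar) (hK : ∀ (τ : Γ) (x : Qbar), x ∈ K → τ x ∈ K)
    {fK : FF (Lvl K) N} (hfK : levK N K fK = f)
    {g : FF (Lvl K) N} (hg : g ≠ 0)
    (hle : ∀ Q : Place (Lvl K) (FF (Lvl K) N),
      Q.ord (twK K hK N τ a fK) ≤ (m : ℤ) * Q.ord g) :
    τ • (Pic0.mk D : JZero N) = a • (Pic0.mk D : JZero N) := by
  have hfK0 : fK ≠ 0 := by
    rintro rfl
    rw [map_zero] at hfK
    exact hf.1 hfK.symm
  obtain ⟨c', hc', hc⟩ := exists_const_of_forall_ord_le N K (twK_ne_zero K hK N τ a hfK0) hg m hle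
  rw [levK_twK, hfK] at hc
  have h0 := twPicL_eq_zero_of_root (ops1 N τ a) hm D hf hc' hc
  rw [twPicL_ops1] at h0
  exact sub_eq_zero.1 h0

end OneLevel

/-! ### The "all good levels" forms -/

/-- **(FT) at good levels, regularity form, for ONE function `f`** (`q` the residue characteristic
of the place `A`, `m` the exponent): there is a number field `K₁` such that at every good level
`K ⊇ K₁` and for every model `f_K` of `f` there is a nonzero `g ∈ F_K` with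
`div (τ_K f_K / f_K ^ a) ≤ m · div g`. -/
def FTLevelOrdAt (N q m : ℕ) [NeZero N] (A : ValuationSubring Qbar) (τ : Γ) (a : ℤ)
    (f : Fb N) : Prop :=
  ∃ K₁ : IntermediateField ℚ Qbar, FiniteDimensional ℚ K₁ ∧
    ∀ (K : IntermediateField ℚ Qbar) (hK : IsGoodLevel A q K), K₁ ≤ K →
      ∀ fK : FF (Lvl K) N, levK N K fK = f →
        ∃ g : FF (Lvl K) N, g ≠ 0 ∧
          ∀ Q : Place (Lvl K) (FF (Lvl K) N),
            Q.ord (twK K hK.stable N τ a fK) ≤ (m : ℤ) * Q.ord g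

/-- **(FT) at good levels, regularity form, provider-friendly** (level `M q`, `q ∤ M`): the binder
block of `LevelOrd.NewLevelKOrdAt` — level models `f_K, h_{A,K}, h_{B,K} ≠ 0`, the two EXACT level
norm equations, `m ∣ ord_Q f_K`, `K`-rational zeros and poles — with the regularity conclusion for
`τ_K f_K / f_K ^ a`. -/
def FTLevelKOrdAt (M q m : ℕ) [NeZero M] [NeZero q] (A : ValuationSubring Qbar) (τ : Γ) (a : ℤ)
    (f : Fb (M * q)) (hA hB : Fb M) : Prop :=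
  ∃ K₁ : IntermediateField ℚ Qbar, FiniteDimensional ℚ K₁ ∧
    ∀ (K : IntermediateField ℚ Qbar) (hK : IsGoodLevel A q K), K₁ ≤ K →
      ∀ (fK : FF (Lvl K) (M * q)) (hAK hBK : FF (Lvl K) M),
        levK (M * q) K fK = f → levK M K hAK = hA → levK M K hBK = hB →
        fK ≠ 0 → hAK ≠ 0 → hBK ≠ 0 →
        normAlphaK K M q fK = hAK ^ m →
        normBetaK K M q fK = hBK ^ m →
        (∀ Q : Place (Lvl K) (FF (Lvl K) (M * q)), (m : ℤ) ∣ Q.ord fK) →
        (∀ Q : Place (Lvl K) (FF (Lvl K) (M * q)), Q.ord fK ≠ 0 →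
          Function.Bijective (algebraMap (Lvl K) Q.ResidueField)) →
        ∃ g : FF (Lvl K) (M * q), g ≠ 0 ∧
          ∀ Q : Place (Lvl K) (FF (Lvl K) (M * q)),
            Q.ord (twK K hK.stable (M * q) τ a fK) ≤ (m : ℤ) * Q.ord g

section AllLevels

/-- **(FT): from good levels to `Q̄`.** -/
theorem smul_eq_of_ftLevelOrdAt {N q m : ℕ} [NeZero N] {A : ValuationSubring Qbar} {τ : Γ} {a : ℤ}
    (hq : q.Prime) (hA : A.LiesOverPrime q) (hm : m ≠ 0)
    (D : Divisor.degZero (K := Qb) (F := Fb N)) {f : Fb N}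
    (hf : IsDivOf f (m • (D : Divisor Qb (Fb N))))
    (h : FTLevelOrdAt N q m A τ a f) :
    τ • (Pic0.mk D : JZero N) = a • (Pic0.mk D : JZero N) := by
  classical
  obtain ⟨K₁, hK₁fin, hK₁⟩ := h
  obtain ⟨K₂, hK₂fin, hK₂⟩ := exists_finiteDimensional_level N {f} ∅
  haveI := hK₁fin
  haveI := hK₂fin
  haveI : FiniteDimensional ℚ ↥(K₁ ⊔ K₂) := IntermediateField.finiteDimensional_sup K₁ K₂
  obtain ⟨K, hle, hK⟩ := exists_isGoodLevel_ge hq hA (K₁ ⊔ K₂)
  have h1 : K₁ ≤ K := le_sup_left.trans hle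
  have h2 : K₂ ≤ K := le_sup_right.trans hle
  obtain ⟨fK, hfK⟩ := (hK₂ K h2).1 f (by simp)
  obtain ⟨g, hg0, hg⟩ := hK₁ K hK h1 fK hfK
  exact smul_eq_of_level hm D hf K hK.stable hfK hg0 hg

variable {M q : ℕ} [NeZero M] [NeZero q]

/-- The provider-friendly form implies `FTLevelOrdAt`. -/
theorem ftLevelOrdAt_of_levelK (hq : q.Prime) (hqM : ¬ q ∣ M) {m : ℕ} (hm : m ≠ 0)
    {A : ValuationSubring Qbar} {τ : Γ} {a : ℤ} {f : Fb (M * q)} {hA' hB' : Fb M} (hf : f ≠ 0)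
    (hdiv : ∀ P : Place Qb (Fb (M * q)), (m : ℤ) ∣ P.ord f)
    (hnA : normAlpha M q f = hA' ^ m) (hnB : normBeta M q f = hB' ^ m)
    (h : FTLevelKOrdAt M q m A τ a f hA' hB') : FTLevelOrdAt (M * q) q m A τ a f := by
  classical
  obtain ⟨K₁, hK₁fin, hK₁⟩ := h
  obtain ⟨K₂, hK₂fin, hK₂⟩ := exists_finiteDimensional_level M {hA', hB'} ∅
  haveI := Fermat.Agent.N4F.A.LevelMaps.hasPrincipalDivisors_bar (M * q)
  obtain ⟨D, hD, -⟩ := HasPrincipalDivisors.exists_divisor (K := Qb) f hf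
  obtain ⟨K₃, hK₃fin, hK₃⟩ := exists_finiteDimensional_level (M * q) ∅ D.support
  haveI := hK₁fin
  haveI := hK₂fin
  haveI := hK₃fin
  haveI : FiniteDimensional ℚ ↥(K₁ ⊔ K₂) := IntermediateField.finiteDimensional_sup K₁ K₂
  refine ⟨K₁ ⊔ K₂ ⊔ K₃, IntermediateField.finiteDimensional_sup _ K₃, fun K hK hle fK hfK => ?_⟩
  have h1 : K₁ ≤ K := (le_sup_left.trans le_sup_left).trans hle
  have h2 : K₂ ≤ K := (le_sup_right.trans le_sup_left).trans hle
  have h3 : K₃ ≤ K := le_sup_right.trans hle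
  obtain ⟨hAK, hhAK⟩ := (hK₂ K h2).1 hA' (by simp)
  obtain ⟨hBK, hhBK⟩ := (hK₂ K h2).1 hB' (by simp)
  have hfK0 : fK ≠ 0 := by
    rintro rfl
    rw [map_zero] at hfK
    exact hf hfK.symm
  have hA0 : hA' ≠ 0 := by
    rintro rfl
    rw [zero_pow hm] at hnA
    exact normAlpha_ne_zero hf hnA
  have hB0 : hB' ≠ 0 := by
    rintro rfl
    rw [zero_pow hm] at hnB
    exact normBeta_ne_zero hf hnB
  have hAK0 : hAK ≠ 0 := by
    rintro rfl
    rw [map_zero] at hhAK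
    exact hA0 hhAK.symm
  have hBK0 : hBK ≠ 0 := by
    rintro rfl
    rw [map_zero] at hhBK
    exact hB0 hhBK.symm
  have hnα : normAlphaK K M q fK = hAK ^ m := by
    have := normAlphaK_eq_of_lev K M q hq hqM (fK := fK) (hAK := hAK) (cAK := 1) (e := m)
      (by rw [map_one, map_one, one_mul, hfK, hhAK]; exact hnA)
    rwa [map_one, one_mul] at this
  have hnβ : normBetaK K M q fK = hBK ^ m := by
    have := normBetaK_eq_of_lev K M q hq hqM (fK := fK) (hBK := hBK) (cBK := 1) (e := m)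
      (by rw [map_one, map_one, one_mul, hfK, hhBK]; exact hnB)
    rwa [map_one, one_mul] at this
  have hdivK : ∀ Q : Place (Lvl K) (FF (Lvl K) (M * q)), (m : ℤ) ∣ Q.ord fK :=
    Fermat.Agent.P3G.Glue.LevelDict.dvd_ord_of_dvd_ord_bar (M * q) K fK _ (by
      rw [hfK]
      exact hdiv)
  have hratK : ∀ Q : Place (Lvl K) (FF (Lvl K) (M * q)), Q.ord fK ≠ 0 →
      Function.Bijective (algebraMap (Lvl K) Q.ResidueField) :=
    Fermat.Agent.P3G.Glue.LevelDict.bijective_of_ord_ne_zero (M * q) K fK (fun P hP =>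
      (hK₃ K h3).2 P (by
        rw [Finsupp.mem_support_iff, hD P, ← hfK]
        exact hP))
  exact hK₁ K hK h1 fK hAK hBK hfK hhAK hhBK hfK0 hAK0 hBK0 hnα hnβ hdivK hratK

/-- **(FT) on the `q`-new part, from the provider-friendly input.**  `x = [D]` in the `q`-new part of
`J_0(M q)`, `div f = m D`.  Both norms of `f` are then `m`-th powers `h_A ^ m`, `h_B ^ m` over `Q̄`
(after normalising the constants), and it suffices to give `FTLevelKOrdAt` for every such pair. -/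
theorem smul_eq_of_ftLevelKOrdAt (hq : q.Prime) (hqM : ¬ q ∣ M) {m : ℕ} (hm : m ≠ 0)
    {A : ValuationSubring Qbar} (hA : A.LiesOverPrime q) {τ : Γ} {a : ℤ}
    (D : Divisor.degZero (K := Qb) (F := Fb (M * q))) {f : Fb (M * q)}
    (hf : IsDivOf f (m • (D : Divisor Qb (Fb (M * q)))))
    (hxn : (Pic0.mk D : JZero (M * q)) ∈ Fermat.Agent.P4.Push.newPart M q)
    (h : ∀ hA' hB' : Fb M, normAlpha M q f = hA' ^ m → normBeta M q f = hB' ^ m →
      FTLevelKOrdAt M q m A τ a f hA' hB') :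
    τ • (Pic0.mk D : JZero (M * q)) = a • (Pic0.mk D : JZero (M * q)) := by
  have hm0 : 0 < m := Nat.pos_of_ne_zero hm
  obtain ⟨hα, hβ⟩ := Fermat.Agent.P4.Push.mem_newPart_iff.mp hxn
  obtain ⟨hA₀, hhA⟩ := (Fermat.Agent.P4.Push.alphaPush_mk_eq_zero_iff D).mp hα
  obtain ⟨hB₀, hhB⟩ := (Fermat.Agent.P4.Push.betaPush_mk_eq_zero_iff D).mp hβ
  have hdiv : ∀ P : Place Qb (Fb (M * q)), (m : ℤ) ∣ P.ord f := by
    intro P
    rw [← hf.2 P, Finsupp.smul_apply, nsmul_eq_mul]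
    exact Dvd.intro _ rfl
  have h1 := isDivOf_normAlpha M q hf
  rw [map_nsmul] at h1
  obtain ⟨cA, hcA, hnA⟩ := IsDivOf.eq_const_mul M h1 (hhA.pow m)
  have h2 := isDivOf_normBeta M q hf
  rw [map_nsmul] at h2
  obtain ⟨cB, hcB, hnB⟩ := IsDivOf.eq_const_mul M h2 (hhB.pow m)
  obtain ⟨rA, hrA⟩ := IsAlgClosed.exists_pow_nat_eq cA hm0
  obtain ⟨rB, hrB⟩ := IsAlgClosed.exists_pow_nat_eq cB hm0
  have hnA' : normAlpha M q f = (algebraMap Qb (Fb M) rA * hA₀) ^ m := by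
    rw [mul_pow, ← map_pow, hrA]
    exact hnA
  have hnB' : normBeta M q f = (algebraMap Qb (Fb M) rB * hB₀) ^ m := by
    rw [mul_pow, ← map_pow, hrB]
    exact hnB
  exact smul_eq_of_ftLevelOrdAt hq hA hm D hf
    (ftLevelOrdAt_of_levelK hq hqM hm hf.1 hdiv hnA' hnB' (h _ _ hnA' hnB'))

end AllLevels

/-! ### The conclusion in the shape of `S40/Top/Final` -/

section Chi

open Fermat.Agent.N4F.Res Fermat.Agent.S14.GaloisModule ExtCitation

/-- `τ x = a x` in `J_0(N)` with `a = cycloExp p τ` is `galTors N p τ x = χ_p(τ) • x` on the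
`p`-torsion (the right disjunct of `hnew` in `S40/Top/Final.s40_of_blocks`). -/
theorem galTors_apply_eq_chi_smul (N p : ℕ) [NeZero N] [Fact p.Prime] (τ : Γ) (x : Jtors N p)
    (h : τ • (x : JZero N) = ((cycloExp p τ : ℕ) : ℤ) • (x : JZero N)) :
    galTors N p τ x = ((chi p τ : (ZMod p)ˣ) : ZMod p) • x := by
  rw [← cast_cycloExp, Nat.cast_smul_eq_nsmul]
  apply Subtype.ext
  rw [coe_galTors_apply, h, natCast_zsmul]
  rfl

/-- **(FT), one level, `Jtors`/`χ_p` form**: `x ∈ J_0(N)[p]`, `x = [D]`, `div f = p D`; at ONE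
Galois-stable level a model `f_K` and a nonzero `g` with
`div (τ_K f_K / f_K ^ a) ≤ p · div g`, `a = cycloExp p τ` (so that `τ μ = μ ^ a` on `μ_p`:
`S14.GaloisModule.apply_of_pow_eq_one`).  Then `galTors N p τ x = χ_p(τ) • x`. -/
theorem galTors_apply_eq_chi_smul_of_level (N p : ℕ) [NeZero N] [Fact p.Prime] (τ : Γ)
    (x : Jtors N p) (D : Divisor.degZero (K := Qb) (F := Fb N)) {f : Fb N}
    (hD : (Pic0.mk D : JZero N) = (x : JZero N))
    (hf : IsDivOf f (p • (D : Divisor Qb (Fb N))))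
    (K : IntermediateField ℚ Qbar) (hK : ∀ (τ : Γ) (x : Qbar), x ∈ K → τ x ∈ K)
    {fK : FF (Lvl K) N} (hfK : levK N K fK = f) {g : FF (Lvl K) N} (hg : g ≠ 0)
    (hle : ∀ Q : Place (Lvl K) (FF (Lvl K) N),
      Q.ord (twK K hK N τ ((cycloExp p τ : ℕ) : ℤ) fK) ≤ (p : ℤ) * Q.ord g) :
    galTors N p τ x = ((chi p τ : (ZMod p)ˣ) : ZMod p) • x := by
  refine galTors_apply_eq_chi_smul N p τ x ?_
  rw [← hD]
  exact smul_eq_of_level (Fact.out : p.Prime).ne_zero D hf K hK hfK hg hle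

/-- **(FT) on the `p`-new part, `Jtors`/`χ_p` form, from the provider-friendly input at good
levels.** -/
theorem galTors_apply_eq_chi_smul_of_ftLevelKOrdAt (M p : ℕ) [NeZero M] [NeZero p] [Fact p.Prime]
    (hpM : ¬ p ∣ M) {A : ValuationSubring Qbar} (hA : A.LiesOverPrime p) (τ : Γ)
    (x : Jtors (M * p) p) (D : Divisor.degZero (K := Qb) (F := Fb (M * p))) {f : Fb (M * p)}
    (hD : (Pic0.mk D : JZero (M * p)) = (x : JZero (M * p)))
    (hf : IsDivOf f (p • (D : Divisor Qb (Fb (M * p)))))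
    (hxn : (x : JZero (M * p)) ∈ Fermat.Agent.P4.Push.newPart M p)
    (h : ∀ hA' hB' : Fb M, normAlpha M p f = hA' ^ p → normBeta M p f = hB' ^ p →
      FTLevelKOrdAt M p p A τ ((cycloExp p τ : ℕ) : ℤ) f hA' hB') :
    galTors (M * p) p τ x = ((chi p τ : (ZMod p)ˣ) : ZMod p) • x := by
  refine galTors_apply_eq_chi_smul (M * p) p τ x ?_
  rw [← hD]
  have hpp : p.Prime := Fact.out
  exact smul_eq_of_ftLevelKOrdAt hpp hpM hpp.ne_zero hA D hf (by rw [hD]; exact hxn) h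

end Chi

end Fermat.Agent.S40.M4.Descent
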