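/-
S40 (`moonshots` rows 62–64), block [M4]/(FT), leaf M4-CORE (helper23): **THE CHAIN AT ONE GOOD LEVEL FOR
`h := f_K` ITSELF.**

Clone of `S33/L/Main.exists_ord_twNewK_le` with the pair `(E, h) = (div(σ'f/f) / p ^ k, σ'_K f_K / f_K)`
replaced by `(div f_K / e, f_K)`: `Skeleton.exists_section` instantiated at a good level `K` (place
`A ∣ p`), level `M p`, `p ∤ M`, with the vertical data of `PointsUniform.levelData_of_secondVal`
(`V₁ = gaussVS`, `V₂ = S₂.V`), the two charts `jF`, `jF⁻¹`, `τ = levelFF K _ (M p) τ`, `h = f_K`,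
`E = Descent.E1Div … f_K e`, `E_z = Descent.Ez1Div …` (any exponent `e ≠ 0`).

In S33 the local generators (LG) came from `FirstDiffLevel.exists_localGen_fdK` (first differences
kill the vertical part); for `h = f_K` they are HYPOTHESES here (`hLGp`, `hLGm`: `Skeleton.LGAt` at every
closed point of the special fibres of the two charts; providers: `S40/M4/LGUnit`, `S40/M4/LGNodeLevel`).

* `exists_section_tw` : (B-out) for `f_K` + (LG) + (K-out) + (G-out) ⇒ `∃ g ≠ 0, ∀ Q, E_z Q ≤ ord_Q g`;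
* ★ `exists_ord_twK_le_of_chain` : … ⇒ `∃ g ≠ 0, ∀ Q, ord_Q (τ_K f_K / f_K ^ a) ≤ e · ord_Q g`
  (= hypothesis `hle` of `Descent.smul_eq_of_level`).
-/
import Mathlib
import Fermat.Agent.S33.L.Main
import Fermat.Agent.S40.M4.Descent

set_option autoImplicit false
set_option linter.unusedSectionVars false
set_option linter.dupNamespace false
set_option linter.style.haveILetI false

open ModularCurve AlgebraicCurve IntermediateField

noncomputable section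

namespace Fermat.Agent.S40.M4.Chain

open Fermat.Agent.N4.Setting Fermat.Agent.N4.Chart Fermat.Agent.N4.S18Glue Fermat.Agent.N4.BigDVR
  Fermat.Agent.P3G.Cover.Lift Fermat.Agent.P3G.Assembly.PowCover
  Fermat.Agent.P3G.Assembly.LevelStep Fermat.Agent.P3G.Assembly.LevelGeomOfPoints
  Fermat.Agent.P3G.Gamma Fermat.Agent.P3G.GammaAut
  Fermat.Agent.P3G.SecondDiff Fermat.Agent.P3G.UCrit
  Fermat.Agent.N4F.C Fermat.Agent.N4F.C.Levels Fermat.Agent.N4F.C.Galois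
  Fermat.Agent.N4F.E.GaussDVR
  Fermat.Agent.P4.TwistRoots Fermat.Agent.P4.FrobStep Fermat.Agent.P4.FrobLevelStep
  Fermat.Agent.G.Points Fermat.Agent.G.PointsLoc
  Fermat.Agent.S33.New.FirstDiff Fermat.Agent.S33.New.FirstDiffLevel Fermat.Agent.S33.New.ChartTwist
  Fermat.Agent.S33.L.Skeleton Fermat.Agent.S33.L.Contracts Fermat.Agent.S33.L.Descent
  Fermat.Agent.S33.L.TwOrd Fermat.Agent.S33.L.Main
  Fermat.Agent.S40.M4.Descent

local notation "Qbar" => AlgebraicClosure ℚ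
local notation "Γ" => (AlgebraicClosure ℚ ≃ₐ[ℚ] AlgebraicClosure ℚ)

section Core

variable (M p : ℕ) [NeZero M] [Fact p.Prime]
  (A : ValuationSubring Qbar)
  (K : IntermediateField ℚ Qbar) (hK : IsGoodLevel A p K)
  [IsDiscreteValuationRing ↥(baseRing A K)]
  (S₂ : Fermat.Agent.P3G.FibreTwo.SecondVal (Lvl K) M p (baseRing A K))
  (ϖ : ↥(baseRing A K))

set_option maxHeartbeats 1600000 in
set_option synthInstance.maxHeartbeats 400000 in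
/-- **The chain at one good level for `h := f_K`, section form.**  From (B-out) for `f_K`, (LG) for
`(f_K, div f_K / e)` at every closed point of the two special fibres, (K-out) and (G-out) at the level:
`𝒪(-E_z)`, `E_z = (τ_K − a)(div f_K / e)`, has a nonzero global section. -/
theorem exists_section_tw (hpM : ¬ p ∣ M) (hA : A.LiesOverPrime p) (hϖ : Irreducible ϖ)
    {τ : Γ} (hτ : τ ∈ A.inertiaSubgroupIn ℚ) (a e : ℕ) (he : e ≠ 0)
    (hτμ : ∀ μ : Qbar, μ ^ e = 1 → τ μ = μ ^ a)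
    {fK : FF (Lvl K) (M * p)} (hfK : fK ≠ 0)
    (hdiv : ∀ Q : Place (Lvl K) (FF (Lvl K) (M * p)), (e : ℤ) ∣ Q.ord fK)
    (hB : BOut (gaussVS (Lvl K) (M * p) (baseRing A K)) S₂.V ϖ fK e)
    (hLGp : ∀ 𝔫 : Ideal (chartAlg ↥(baseRing A K) (FF (Lvl K) (M * p)) {jF (Lvl K) (M * p)}),
      𝔫.IsMaximal →
      algebraMap ↥(baseRing A K)
        (chartAlg ↥(baseRing A K) (FF (Lvl K) (M * p)) {jF (Lvl K) (M * p)}) ϖ ∈ 𝔫 →
      LGAt (Lvl K) 𝔫 (gaussVS (Lvl K) (M * p) (baseRing A K)) S₂.V (E1Div K (M * p) fK e) fK e)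
    (hLGm : ∀ 𝔫 : Ideal (chartAlg ↥(baseRing A K) (FF (Lvl K) (M * p)) {(jF (Lvl K) (M * p))⁻¹}),
      𝔫.IsMaximal →
      algebraMap ↥(baseRing A K)
        (chartAlg ↥(baseRing A K) (FF (Lvl K) (M * p)) {(jF (Lvl K) (M * p))⁻¹}) ϖ ∈ 𝔫 →
      LGAt (Lvl K) 𝔫 (gaussVS (Lvl K) (M * p) (baseRing A K)) S₂.V (E1Div K (M * p) fK e) fK e)
    (hKo : ∃ k₀ : ℕ, KOutLevel A K (M * p) (gaussVS (Lvl K) (M * p) (baseRing A K)) S₂.V ϖ e k₀)
    (hG : GOutLevel A K (M * p) (gaussVS (Lvl K) (M * p) (baseRing A K)) S₂.V ϖ) :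
    ∃ g : FF (Lvl K) (M * p), g ≠ 0 ∧ ∀ Q : Place (Lvl K) (FF (Lvl K) (M * p)),
      Ez1Div K hK.stable (M * p) τ a fK e Q ≤ Q.ord g := by
  classical
  obtain ⟨iIC, iFR, hdata⟩ :=
    Fermat.Agent.S33.L.PointsUniform.levelData_of_secondVal M p hpM A hA K hK S₂ ϖ hϖ
  obtain ⟨hVτ, hPpτ, hPmτ⟩ := hdata τ hτ
  have hτD : τ ∈ A.decompositionSubgroup ℚ := mem_decompositionSubgroup_of_mem_inertia hτ
  set gτ := levelFF K hK.stable (M * p) τ with hgτ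
  -- the vertical data
  have hVp₁ : ∀ r : chartAlg ↥(baseRing A K) (FF (Lvl K) (M * p)) {jF (Lvl K) (M * p)},
      algebraMap _ (FF (Lvl K) (M * p)) r ∈ gaussVS (Lvl K) (M * p) (baseRing A K) := fun r =>
    hVτ.twoVal.mem₁ (hVτ.semiP.le r)
  have hVp₂ : ∀ r : chartAlg ↥(baseRing A K) (FF (Lvl K) (M * p)) {jF (Lvl K) (M * p)},
      algebraMap _ (FF (Lvl K) (M * p)) r ∈ S₂.V := fun r =>
    hVτ.twoVal.mem₂ (hVτ.semiP.le r)
  have hVm₁ : ∀ r : chartAlg ↥(baseRing A K) (FF (Lvl K) (M * p)) {(jF (Lvl K) (M * p))⁻¹},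
      algebraMap _ (FF (Lvl K) (M * p)) r ∈ gaussVS (Lvl K) (M * p) (baseRing A K) := fun r =>
    hVτ.twoVal.mem₁ (hVτ.semiM.le r)
  have hVm₂ : ∀ r : chartAlg ↥(baseRing A K) (FF (Lvl K) (M * p)) {(jF (Lvl K) (M * p))⁻¹},
      algebraMap _ (FF (Lvl K) (M * p)) r ∈ S₂.V := fun r =>
    hVτ.twoVal.mem₂ (hVτ.semiM.le r)
  have hO₁ : ∀ x : ↥(baseRing A K), algebraMap ↥(baseRing A K) (FF (Lvl K) (M * p)) x ∈
      gaussVS (Lvl K) (M * p) (baseRing A K) := fun x => by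
    rw [IsScalarTower.algebraMap_apply ↥(baseRing A K)
      (chartAlg ↥(baseRing A K) (FF (Lvl K) (M * p)) {jF (Lvl K) (M * p)}) (FF (Lvl K) (M * p))]
    exact hVp₁ _
  have hO₂ : ∀ x : ↥(baseRing A K), algebraMap ↥(baseRing A K) (FF (Lvl K) (M * p)) x ∈
      S₂.V := fun x => by
    rw [IsScalarTower.algebraMap_apply ↥(baseRing A K)
      (chartAlg ↥(baseRing A K) (FF (Lvl K) (M * p)) {jF (Lvl K) (M * p)}) (FF (Lvl K) (M * p))]
    exact hVp₂ _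
  have hEzfin : (Function.support (Ez1Div K hK.stable (M * p) τ a fK e)).Finite :=
    finite_Ez1Div_ne_zero τ a hfK hdiv
  obtain ⟨k₀, hKp, hKm⟩ := hKo
  exact exists_section (Lvl K)
    (chartAlg ↥(baseRing A K) (FF (Lvl K) (M * p)) {jF (Lvl K) (M * p)})
    (chartAlg ↥(baseRing A K) (FF (Lvl K) (M * p)) {(jF (Lvl K) (M * p))⁻¹})
    (gaussVS (Lvl K) (M * p) (baseRing A K)) S₂.V ϖ hVp₁ hVp₂ hVm₁ hVm₂
    hVτ.twoVal.pi_mem₁ hVτ.twoVal.pi_mem₂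
    (SemilinearAut.toRingAut gτ) hVτ.val₁ hVτ.val₂
    (exists_smul_unif hτD hϖ _ _ hO₁ hO₂)
    (fun 𝔫 _ hϖ𝔫 x hx => isUnitAt_smul hτD hVτ (jF (Lvl K) (M * p))
      (levelFF_smul_jF K hK.stable (M * p) τ) hVτ.semiP 𝔫 hϖ𝔫 hx)
    (fun 𝔫 _ hϖ𝔫 x hx => isUnitAt_smul hτD hVτ (jF (Lvl K) (M * p))⁻¹
      (levelFF_smul_jF_inv K hK.stable (M * p) τ) hVτ.semiM 𝔫 hϖ𝔫 hx)
    a e (fun η hη => smul_rootOfUnity τ a e hτμ η hη) he
    (tauPerm gτ) (compat_tauPerm gτ)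
    (fun 𝔫 h𝔫 hϖ𝔫 => (hPpτ 𝔫 h𝔫 hϖ𝔫).1) (fun 𝔫 h𝔫 hϖ𝔫 => (hPmτ 𝔫 h𝔫 hϖ𝔫).1)
    (E1Div K (M * p) fK e) (Ez1Div K hK.stable (M * p) τ a fK e) (fun Q => rfl) fK k₀ hB
    hLGp hLGm hKp hKm (hG _ hEzfin)

/-- ★ **The chain at one good level for `h := f_K`** (M4-CORE): from (B-out) for `f_K`, (LG), (K-out)
and (G-out) at the level, `div (τ_K f_K / f_K ^ a) ≤ e · div g` for a nonzero `g ∈ F_K`
(= hypothesis `hle` of `Descent.smul_eq_of_level`, with `m = e`). -/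
theorem exists_ord_twK_le_of_chain (hpM : ¬ p ∣ M) (hA : A.LiesOverPrime p) (hϖ : Irreducible ϖ)
    {τ : Γ} (hτ : τ ∈ A.inertiaSubgroupIn ℚ) (a e : ℕ) (he : e ≠ 0)
    (hτμ : ∀ μ : Qbar, μ ^ e = 1 → τ μ = μ ^ a)
    {fK : FF (Lvl K) (M * p)} (hfK : fK ≠ 0)
    (hdiv : ∀ Q : Place (Lvl K) (FF (Lvl K) (M * p)), (e : ℤ) ∣ Q.ord fK)
    (hB : BOut (gaussVS (Lvl K) (M * p) (baseRing A K)) S₂.V ϖ fK e)
    (hLGp : ∀ 𝔫 : Ideal (chartAlg ↥(baseRing A K) (FF (Lvl K) (M * p)) {jF (Lvl K) (M * p)}),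
      𝔫.IsMaximal →
      algebraMap ↥(baseRing A K)
        (chartAlg ↥(baseRing A K) (FF (Lvl K) (M * p)) {jF (Lvl K) (M * p)}) ϖ ∈ 𝔫 →
      LGAt (Lvl K) 𝔫 (gaussVS (Lvl K) (M * p) (baseRing A K)) S₂.V (E1Div K (M * p) fK e) fK e)
    (hLGm : ∀ 𝔫 : Ideal (chartAlg ↥(baseRing A K) (FF (Lvl K) (M * p)) {(jF (Lvl K) (M * p))⁻¹}),
      𝔫.IsMaximal →
      algebraMap ↥(baseRing A K)
        (chartAlg ↥(baseRing A K) (FF (Lvl K) (M * p)) {(jF (Lvl K) (M * p))⁻¹}) ϖ ∈ 𝔫 →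
      LGAt (Lvl K) 𝔫 (gaussVS (Lvl K) (M * p) (baseRing A K)) S₂.V (E1Div K (M * p) fK e) fK e)
    (hKo : ∃ k₀ : ℕ, KOutLevel A K (M * p) (gaussVS (Lvl K) (M * p) (baseRing A K)) S₂.V ϖ e k₀)
    (hG : GOutLevel A K (M * p) (gaussVS (Lvl K) (M * p) (baseRing A K)) S₂.V ϖ) :
    ∃ g : FF (Lvl K) (M * p), g ≠ 0 ∧ ∀ Q : Place (Lvl K) (FF (Lvl K) (M * p)),
      Q.ord (twK K hK.stable (M * p) τ (a : ℤ) fK) ≤ (e : ℤ) * Q.ord g :=
  exists_ord_twK_le τ a hfK hdiv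
    (exists_section_tw M p A K hK S₂ ϖ hpM hA hϖ hτ a e he hτμ hfK hdiv hB hLGp hLGm hKo hG)

end Core

end Fermat.Agent.S40.M4.Chain
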