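/-
S40 (`moonshots` rows 62–64), block [M4]/(FT), leaf M4-MAIN (helper23): **THE FINAL WRAPPER OF [M4].**

At ONE good level `K` (place `A ∣ p`, level `M p`, `p ∤ M`) with its vertical data `S₂`, `ϖ`, a
representative `f_K` of the `p`-torsion class `x` (`x = [D]`, `div f = p D`, `f = levK f_K`) which is

* (n1) at a level containing a primitive `p`-th root of unity (in `O_K = baseRing A K`),
* (n2) a unit of both vertical valuation rings `V₁ = gaussVS`, `V₂ = S₂.V`,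
* (n3) with EXACT level norms `N_α f_K = a' ^ p`, `N_β f_K = b' ^ p`,
* (n4) with local generators (LG) at every closed point of the special fibres of the two charts
  (`Skeleton.LGAt` for `(div f_K / p, f_K)`; providers `S40/M4/LGUnit`, `S40/M4/LGNodeLevel`),
* (Λ = 0) a `p`-th power modulo `ϖ` at `V₁` and at `V₂` (base cases),

satisfies `τ x = χ_p(τ) x` for every `τ` in the inertia group of `A`:

(B-out) `BOutBase.bOut_of_base`  +  (K-out) `KProvRef.kProv … 1`  +  (G-out) `GProv.gProv`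
  ⟹ `Chain.exists_ord_twK_le_of_chain`  ⟹ `Descent.galTors_apply_eq_chi_smul_of_level`.

* `LGLevel`, `M4Hyp` : the named hypotheses at a level;
* ★ `galTors_eq_of_level` : the statement above;
* ★ `t4Out_of_imp` : `New/Pack.T4Out Norm LamZ` for ANY pair of level predicates with
  `Norm ∧ LamZ ⇒ M4Hyp`;  `t4Out` : the same for the canonical pair `m4Norm`, `m4LamZ`.
-/
import Mathlib
import Fermat.Agent.S40.M4.Chain
import Fermat.Agent.S40.M4.BOutBase
import Fermat.Agent.S33.L.KProvRef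
import Fermat.Agent.S33.G.GProv
import Fermat.Agent.S40.New.Pack

set_option autoImplicit false
set_option linter.unusedSectionVars false
set_option linter.unusedVariables false
set_option linter.dupNamespace false
set_option linter.style.haveILetI false

open ModularCurve AlgebraicCurve IntermediateField

noncomputable section

namespace Fermat.Agent.S40.M4.Main

open Fermat.Agent.N4.Setting Fermat.Agent.N4.Chart Fermat.Agent.N4.S18Glue Fermat.Agent.N4.BigDVR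
  Fermat.Agent.P3G.Assembly.LevelStep
  Fermat.Agent.P3G.GammaDict Fermat.Agent.P3G.GeomStep
  Fermat.Agent.P3G.Gamma Fermat.Agent.P3G.GammaAut
  Fermat.Agent.N4F.C Fermat.Agent.N4F.C.Levels Fermat.Agent.N4F.C.Galois
  Fermat.Agent.N4F.E.GaussDVR
  Fermat.Agent.N4F.Res
  Fermat.Agent.P4.FrobLevelStep
  Fermat.Agent.S33.L.Skeleton Fermat.Agent.S33.L.Contracts
  Fermat.Agent.S40.M4.Descent Fermat.Agent.S40.New.Pack
open Fermat.Agent.S14.GaloisModule (chi)
open ExtCitation (cycloExp)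

local notation "Qbar" => AlgebraicClosure ℚ
local notation "Γ" => (AlgebraicClosure ℚ ≃ₐ[ℚ] AlgebraicClosure ℚ)

/-! ### The named hypotheses at a level -/

section Hyp

variable (M p : ℕ) [NeZero M] [Fact p.Prime] (A : ValuationSubring Qbar)
  (K : IntermediateField ℚ Qbar)
  [IsDiscreteValuationRing ↥(baseRing A K)]
  (S₂ : Fermat.Agent.P3G.FibreTwo.SecondVal (Lvl K) M p (baseRing A K))
  (ϖ : ↥(baseRing A K))

/-- **(LG) at a level**: `Skeleton.LGAt` for the pair `(div f_K / e, f_K)` at every closed point of the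
special fibres of the two charts `jF`, `jF⁻¹` (the clauses `hLGp`, `hLGm` of
`Chain.exists_ord_twK_le_of_chain`). -/
def LGLevel (fK : FF (Lvl K) (M * p)) (e : ℕ) : Prop :=
  (∀ 𝔫 : Ideal (chartAlg ↥(baseRing A K) (FF (Lvl K) (M * p)) {jF (Lvl K) (M * p)}),
      𝔫.IsMaximal →
      algebraMap ↥(baseRing A K)
        (chartAlg ↥(baseRing A K) (FF (Lvl K) (M * p)) {jF (Lvl K) (M * p)}) ϖ ∈ 𝔫 →
      LGAt (Lvl K) 𝔫 (gaussVS (Lvl K) (M * p) (baseRing A K)) S₂.V (E1Div K (M * p) fK e) fK e) ∧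
  (∀ 𝔫 : Ideal (chartAlg ↥(baseRing A K) (FF (Lvl K) (M * p)) {(jF (Lvl K) (M * p))⁻¹}),
      𝔫.IsMaximal →
      algebraMap ↥(baseRing A K)
        (chartAlg ↥(baseRing A K) (FF (Lvl K) (M * p)) {(jF (Lvl K) (M * p))⁻¹}) ϖ ∈ 𝔫 →
      LGAt (Lvl K) 𝔫 (gaussVS (Lvl K) (M * p) (baseRing A K)) S₂.V (E1Div K (M * p) fK e) fK e)

/-- **The normalisation consumed by [M4]**: `ζ_p ∈ O_K`, bi-unit, exact level norms, (LG). -/
def M4Norm (fK : FF (Lvl K) (M * p)) : Prop :=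
  (∃ z : ↥(baseRing A K), IsPrimitiveRoot z p) ∧
  (gaussVS (Lvl K) (M * p) (baseRing A K)).valuation fK = 1 ∧
  S₂.V.valuation fK = 1 ∧
  (∃ a' : FF (Lvl K) M, normAlphaK K M p fK = a' ^ p) ∧
  (∃ b' : FF (Lvl K) M, normBetaK K M p fK = b' ^ p) ∧
  LGLevel M p A K S₂ ϖ fK p

/-- **`Λ = 0` in the form consumed by [M4]**: `f_K` is a `p`-th power modulo `ϖ` at both vertical
valuations (the base cases of the ping-pong `BOutBase.bOut_of_base`). -/
def M4LamZ (fK : FF (Lvl K) (M * p)) : Prop :=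
  (∃ g₁ : FF (Lvl K) (M * p), g₁ ≠ 0 ∧
    CongrMod (gaussVS (Lvl K) (M * p) (baseRing A K)) ϖ 1 (fK / g₁ ^ p) 1) ∧
  (∃ g₂ : FF (Lvl K) (M * p), g₂ ≠ 0 ∧ CongrMod S₂.V ϖ 1 (fK / g₂ ^ p) 1)

/-- All the hypotheses of [M4] at a level. -/
def M4Hyp (fK : FF (Lvl K) (M * p)) : Prop :=
  M4Norm M p A K S₂ ϖ fK ∧ M4LamZ M p A K S₂ ϖ fK

end Hyp

/-! ### [M4] at one level -/

section OneLevel

variable (M p : ℕ) [NeZero M] [NeZero p] [Fact p.Prime] (A : ValuationSubring Qbar)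
  (K : IntermediateField ℚ Qbar) (hK : IsGoodLevel A p K)
  [IsDiscreteValuationRing ↥(baseRing A K)]
  (S₂ : Fermat.Agent.P3G.FibreTwo.SecondVal (Lvl K) M p (baseRing A K))
  (ϖ : ↥(baseRing A K))

include hK in
set_option maxHeartbeats 800000 in
/-- ★ **[M4]/(FT) at one good level.**  A representative `f_K` of the `p`-torsion class `x` satisfying
`M4Hyp` (bi-unit, `ζ_p ∈ O_K`, exact level norms, (LG), `p`-th power modulo `ϖ` at both vertical
valuations): the inertia group of `A` acts on `x` through `χ_p`. -/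
theorem galTors_eq_of_level (hpM : ¬ p ∣ M) (hA : A.LiesOverPrime p) (hϖ : Irreducible ϖ)
    (x : Jtors (M * p) p) {fK : FF (Lvl K) (M * p)}
    (hrep : IsRep p (x : JZero (M * p)) (levK (M * p) K fK))
    (h : M4Hyp M p A K S₂ ϖ fK) :
    ∀ τ ∈ A.inertiaSubgroupIn ℚ,
      galTors (M * p) p τ x = ((chi p τ : (ZMod p)ˣ) : ZMod p) • x := by
  intro τ hτ
  have hp : p.Prime := Fact.out
  obtain ⟨D, hD, hf⟩ := hrep
  obtain ⟨⟨hz, hv₁, hv₂, hnα, hnβ, hLGp, hLGm⟩, hb₁, hb₂⟩ := h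
  have hfK0 : fK ≠ 0 := by
    rintro rfl
    rw [map_zero] at hf
    exact hf.1 rfl
  have hdiv : ∀ Q : Place (Lvl K) (FF (Lvl K) (M * p)), (p : ℤ) ∣ Q.ord fK :=
    Fermat.Agent.P3G.Glue.LevelDict.dvd_ord_of_dvd_ord_bar (M * p) K fK _ (fun P => by
      rw [← hf.2 P]
      exact ⟨(D : Divisor Qb (Fb (M * p))) P, by simp⟩)
  -- (B-out)
  have hB : BOut (gaussVS (Lvl K) (M * p) (baseRing A K)) S₂.V ϖ fK p :=
    Fermat.Agent.S40.M4.BOutBase.bOut_of_base M p hpM A hA K hK S₂ ϖ hϖ hp.ne_zero hfK0 hv₁ hv₂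
      hnα hnβ hb₁ hb₂
  -- (K-out)
  have hKo : ∃ k₀ : ℕ,
      KOutLevel A K (M * p) (gaussVS (Lvl K) (M * p) (baseRing A K)) S₂.V ϖ p k₀ := by
    have h1 := Fermat.Agent.S33.L.KProvRef.kProv M p hpM A hA 1 K hK S₂ ϖ hϖ
      (by rw [pow_one]; exact hz)
    rw [pow_one] at h1
    exact h1
  -- (G-out)
  have hG : GOutLevel A K (M * p) (gaussVS (Lvl K) (M * p) (baseRing A K)) S₂.V ϖ :=
    Fermat.Agent.S33.G.GProv.gProv M p hpM A hA K hK S₂ ϖ hϖ
  obtain ⟨g, hg0, hg⟩ := Fermat.Agent.S40.M4.Chain.exists_ord_twK_le_of_chain M p A K hK S₂ ϖ hpM hA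
    hϖ hτ (cycloExp p τ : ℕ) p hp.ne_zero
    (fun μ hμ => Fermat.Agent.S14.GaloisModule.apply_of_pow_eq_one p τ hμ)
    hfK0 hdiv hB hLGp hLGm hKo hG
  exact galTors_apply_eq_chi_smul_of_level (M * p) p τ x D hD hf K hK.stable rfl hg0 hg

end OneLevel

/-! ### The contract `T4Out` of `New/Pack` -/

section T4

variable {M p : ℕ} [NeZero M] [NeZero p] [Fact p.Prime] {A : ValuationSubring Qbar}

/-- The canonical `Norm` of [M4] as a `LevelPred`. -/
def m4Norm (M p : ℕ) [NeZero M] [Fact p.Prime] (A : ValuationSubring Qbar) : LevelPred M p A :=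
  fun K _ _ S₂ ϖ fK => M4Norm M p A K S₂ ϖ fK

/-- The canonical `LamZ` of [M4] as a `LevelPred`. -/
def m4LamZ (M p : ℕ) [NeZero M] [Fact p.Prime] (A : ValuationSubring Qbar) : LevelPred M p A :=
  fun K _ _ S₂ ϖ fK => M4LamZ M p A K S₂ ϖ fK

/-- ★ **`T4Out` for any pair of level predicates implying `M4Hyp`.** -/
theorem t4Out_of_imp (hpM : ¬ p ∣ M) (hA : A.LiesOverPrime p) {Norm LamZ : LevelPred M p A}
    (himp : ∀ (K : IntermediateField ℚ Qbar) (hK : IsGoodLevel A p K)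
      [IsDiscreteValuationRing ↥(baseRing A K)]
      (S₂ : Fermat.Agent.P3G.FibreTwo.SecondVal (Lvl K) M p (baseRing A K))
      (ϖ : ↥(baseRing A K)), Irreducible ϖ → ∀ fK : FF (Lvl K) (M * p),
      Norm K hK S₂ ϖ fK → LamZ K hK S₂ ϖ fK → M4Hyp M p A K S₂ ϖ fK) :
    T4Out Norm LamZ :=
  fun x _ K hK _ S₂ ϖ hϖ fK hrep hN hL =>
    galTors_eq_of_level M p A K hK S₂ ϖ hpM hA hϖ x hrep (himp K hK S₂ ϖ hϖ fK hN hL)

/-- **`T4Out` for the canonical pair.** -/
theorem t4Out (hpM : ¬ p ∣ M) (hA : A.LiesOverPrime p) : T4Out (m4Norm M p A) (m4LamZ M p A) :=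
  t4Out_of_imp hpM hA fun _ _ _ _ _ _ _ hN hL => ⟨hN, hL⟩

end T4

end Fermat.Agent.S40.M4.Main
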