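/-
S40 (`moonshots` rows 62–64), block [M4]/(FT), leaf M4-LGLEVEL (helper23): **(LG) AT A GOOD LEVEL FROM
(LG) AT THE CROSSING POINTS CARRYING ZEROS OR POLES.**

`S40/M4/Main.galTors_eq_of_level` consumes `LGLevel` = `Skeleton.LGAt` for `(div f_K / e, f_K)` at EVERY
closed point of the special fibres of the two charts.  helper18's `LGUnit.lgAt_level` proves it at every
closed point which is not a crossing point of the two components, and at the crossing points carrying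
no zero or pole of `f_K`.  This file glues: the only remaining input is

* `LGNodes` : (LG) at the closed points `𝔫` with `Through V₁ 𝔫`, `Through V₂ 𝔫` and a place `Q` centred at
  `𝔫` with `ord_Q f_K ≠ 0`   (provider: `S40/M4/LGNodeLevel`, helper12).

* `lgLevel_of_nodes` : bi-unit + `e ∣ div f_K` + rational zeros and poles + `LGNodes` ⇒ `Main.LGLevel`;
* `M4NormR` : the normalisation WITHOUT (LG) away from the nodes (`ζ_p ∈ O_K`, bi-unit, exact level norms,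
  rational zeros and poles, `LGNodes`); `m4Norm_of_m4NormR`;
* ★ `galTors_eq_of_level_nodes`, ★ `t4Out_of_imp_nodes` : [M4] at one good level / the contract
  `New/Pack.T4Out` from `M4NormR ∧ M4LamZ`.
-/
import Mathlib
import Fermat.Agent.S40.M4.Main
import Fermat.Agent.S40.M4.LGUnit

set_option autoImplicit false
set_option linter.unusedSectionVars false
set_option linter.unusedVariables false
set_option linter.dupNamespace false
set_option linter.style.haveILetI false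

open ModularCurve AlgebraicCurve IntermediateField

noncomputable section

namespace Fermat.Agent.S40.M4.LGLevel

open Fermat.Agent.N4.Setting Fermat.Agent.N4.Chart Fermat.Agent.N4.S18Glue Fermat.Agent.N4.BigDVR
  Fermat.Agent.P3G.Assembly.LevelStep Fermat.Agent.P3G.Assembly.LevelGeomOfPoints
  Fermat.Agent.P3G.GammaDict Fermat.Agent.P3G.GeomStep
  Fermat.Agent.P3G.Gamma Fermat.Agent.P3G.GammaAut
  Fermat.Agent.P3G.SecondDiff Fermat.Agent.P3G.UCrit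
  Fermat.Agent.N4F.C Fermat.Agent.N4F.C.Levels Fermat.Agent.N4F.C.Galois
  Fermat.Agent.N4F.E.GaussDVR
  Fermat.Agent.N4F.Res
  Fermat.Agent.P4.TwistRoots Fermat.Agent.P4.FrobLevelStep
  Fermat.Agent.S33.L.Skeleton Fermat.Agent.S33.L.Contracts
  Fermat.Agent.S40.M4.Descent Fermat.Agent.S40.M4.Main Fermat.Agent.S40.New.Pack
open Fermat.Agent.S14.GaloisModule (chi)
open Fermat.Agent.S24.PlaceDeriv (ResidueTrivial)

local notation "Qbar" => AlgebraicClosure ℚ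
local notation "Γ" => (AlgebraicClosure ℚ ≃ₐ[ℚ] AlgebraicClosure ℚ)

section Glue

variable (M p : ℕ) [NeZero M] [Fact p.Prime] (A : ValuationSubring Qbar)
  (K : IntermediateField ℚ Qbar)
  [IsDiscreteValuationRing ↥(baseRing A K)]
  (S₂ : Fermat.Agent.P3G.FibreTwo.SecondVal (Lvl K) M p (baseRing A K))
  (ϖ : ↥(baseRing A K))

/-- **(LG) at the crossing points carrying zeros or poles of `f_K`**, on both charts. -/
def LGNodes (fK : FF (Lvl K) (M * p)) (e : ℕ) : Prop :=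
  (∀ 𝔫 : Ideal (chartAlg ↥(baseRing A K) (FF (Lvl K) (M * p)) {jF (Lvl K) (M * p)}),
      𝔫.IsMaximal →
      algebraMap ↥(baseRing A K)
        (chartAlg ↥(baseRing A K) (FF (Lvl K) (M * p)) {jF (Lvl K) (M * p)}) ϖ ∈ 𝔫 →
      Through (gaussVS (Lvl K) (M * p) (baseRing A K)) 𝔫 → Through S₂.V 𝔫 →
      (∃ Q ∈ centredSet (F := FF (Lvl K) (M * p)) (Lvl K) 𝔫, Q.ord fK ≠ 0) →
      LGAt (Lvl K) 𝔫 (gaussVS (Lvl K) (M * p) (baseRing A K)) S₂.V (E1Div K (M * p) fK e) fK e) ∧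
  (∀ 𝔫 : Ideal (chartAlg ↥(baseRing A K) (FF (Lvl K) (M * p)) {(jF (Lvl K) (M * p))⁻¹}),
      𝔫.IsMaximal →
      algebraMap ↥(baseRing A K)
        (chartAlg ↥(baseRing A K) (FF (Lvl K) (M * p)) {(jF (Lvl K) (M * p))⁻¹}) ϖ ∈ 𝔫 →
      Through (gaussVS (Lvl K) (M * p) (baseRing A K)) 𝔫 → Through S₂.V 𝔫 →
      (∃ Q ∈ centredSet (F := FF (Lvl K) (M * p)) (Lvl K) 𝔫, Q.ord fK ≠ 0) →
      LGAt (Lvl K) 𝔫 (gaussVS (Lvl K) (M * p) (baseRing A K)) S₂.V (E1Div K (M * p) fK e) fK e)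

variable {M p A K S₂ ϖ}

set_option maxHeartbeats 1600000 in
set_option synthInstance.maxHeartbeats 400000 in
/-- **(LG) at a good level from (LG) at the crossing points carrying zeros or poles.** -/
theorem lgLevel_of_nodes (hpM : ¬ p ∣ M) (hA : A.LiesOverPrime p) (hK : IsGoodLevel A p K)
    (hϖ : Irreducible ϖ) {fK : FF (Lvl K) (M * p)} (hfK : fK ≠ 0) {e : ℕ} (he : e ≠ 0)
    (hdiv : ∀ Q : Place (Lvl K) (FF (Lvl K) (M * p)), (e : ℤ) ∣ Q.ord fK)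
    (hv₁ : (gaussVS (Lvl K) (M * p) (baseRing A K)).valuation fK = 1)
    (hv₂ : S₂.V.valuation fK = 1)
    (hrat : ∀ Q : Place (Lvl K) (FF (Lvl K) (M * p)), Q.ord fK ≠ 0 →
      Function.Bijective (algebraMap (Lvl K) Q.ResidueField))
    (hnodes : LGNodes M p A K S₂ ϖ fK e) : LGLevel M p A K S₂ ϖ fK e := by
  classical
  obtain ⟨iIC, iFR, hdata⟩ :=
    Fermat.Agent.S33.L.PointsUniform.levelData_of_secondVal M p hpM A hA K hK S₂ ϖ hϖ
  obtain ⟨hV, hPp, hPm⟩ := hdata 1 (one_mem _)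
  obtain ⟨S₀, hS₀⟩ :=
    Fermat.Agent.P3G.Glue.LevelDict.exists_finset_ord_ne_zero (M * p) K fK hfK
  set S : Finset (Place (Lvl K) (FF (Lvl K) (M * p))) := S₀.filter (fun Q => Q.ord fK ≠ 0) with hSdef
  have hS : ∀ Q : Place (Lvl K) (FF (Lvl K) (M * p)), Q.ord fK ≠ 0 → Q ∈ S := fun Q hQ =>
    Finset.mem_filter.mpr ⟨hS₀ Q hQ, hQ⟩
  have hSrat : ∀ Q ∈ S, ResidueTrivial Q := fun Q hQ =>
    Fermat.Agent.S33.L.Main.residueTrivial_of_bijective (hrat Q (Finset.mem_filter.mp hQ).2)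
  refine ⟨fun 𝔫 h𝔫 hϖ𝔫 => ?_, fun 𝔫 h𝔫 hϖ𝔫 => ?_⟩
  · by_cases hn : (Through (gaussVS (Lvl K) (M * p) (baseRing A K)) 𝔫 ∧ Through S₂.V 𝔫) ∧
        ∃ Q ∈ centredSet (F := FF (Lvl K) (M * p)) (Lvl K) 𝔫, Q.ord fK ≠ 0
    · exact hnodes.1 𝔫 h𝔫 hϖ𝔫 hn.1.1 hn.1.2 hn.2
    · refine Fermat.Agent.S40.M4.LGUnit.lgAt_level M p hpM A K S₂ ϖ hV (jF (Lvl K) (M * p))
        hV.semiP hPp hfK he hdiv hv₁ hv₂ S hS hSrat 𝔫 h𝔫 hϖ𝔫 ?_
      by_cases hth : Through (gaussVS (Lvl K) (M * p) (baseRing A K)) 𝔫 ∧ Through S₂.V 𝔫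
      · right
        intro Q hQ
        by_contra h0
        exact hn ⟨hth, Q, hQ, h0⟩
      · exact Or.inl hth
  · by_cases hn : (Through (gaussVS (Lvl K) (M * p) (baseRing A K)) 𝔫 ∧ Through S₂.V 𝔫) ∧
        ∃ Q ∈ centredSet (F := FF (Lvl K) (M * p)) (Lvl K) 𝔫, Q.ord fK ≠ 0
    · exact hnodes.2 𝔫 h𝔫 hϖ𝔫 hn.1.1 hn.1.2 hn.2
    · refine Fermat.Agent.S40.M4.LGUnit.lgAt_level M p hpM A K S₂ ϖ hV (jF (Lvl K) (M * p))⁻¹
        hV.semiM hPm hfK he hdiv hv₁ hv₂ S hS hSrat 𝔫 h𝔫 hϖ𝔫 ?_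
      by_cases hth : Through (gaussVS (Lvl K) (M * p) (baseRing A K)) 𝔫 ∧ Through S₂.V 𝔫
      · right
        intro Q hQ
        by_contra h0
        exact hn ⟨hth, Q, hQ, h0⟩
      · exact Or.inl hth

end Glue

/-! ### [M4] from the normalisation without (LG) away from the nodes -/

section Norm

variable (M p : ℕ) [NeZero M] [Fact p.Prime] (A : ValuationSubring Qbar)
  (K : IntermediateField ℚ Qbar)
  [IsDiscreteValuationRing ↥(baseRing A K)]
  (S₂ : Fermat.Agent.P3G.FibreTwo.SecondVal (Lvl K) M p (baseRing A K))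
  (ϖ : ↥(baseRing A K))

/-- **The normalisation consumed by [M4], (LG) only at the crossing points carrying zeros or poles**:
`ζ_p ∈ O_K`, bi-unit, exact level norms, rational zeros and poles, `LGNodes`. -/
def M4NormR (fK : FF (Lvl K) (M * p)) : Prop :=
  (∃ z : ↥(baseRing A K), IsPrimitiveRoot z p) ∧
  (gaussVS (Lvl K) (M * p) (baseRing A K)).valuation fK = 1 ∧
  S₂.V.valuation fK = 1 ∧
  (∃ a' : FF (Lvl K) M, normAlphaK K M p fK = a' ^ p) ∧
  (∃ b' : FF (Lvl K) M, normBetaK K M p fK = b' ^ p) ∧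
  (∀ Q : Place (Lvl K) (FF (Lvl K) (M * p)), Q.ord fK ≠ 0 →
    Function.Bijective (algebraMap (Lvl K) Q.ResidueField)) ∧
  LGNodes M p A K S₂ ϖ fK p

variable {M p A K S₂ ϖ}

/-- `M4NormR ⇒ M4Norm` (given `f_K ≠ 0` and `p ∣ div f_K`). -/
theorem m4Norm_of_m4NormR (hpM : ¬ p ∣ M) (hA : A.LiesOverPrime p) (hK : IsGoodLevel A p K)
    (hϖ : Irreducible ϖ) {fK : FF (Lvl K) (M * p)} (hfK : fK ≠ 0)
    (hdiv : ∀ Q : Place (Lvl K) (FF (Lvl K) (M * p)), (p : ℤ) ∣ Q.ord fK)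
    (h : M4NormR M p A K S₂ ϖ fK) : M4Norm M p A K S₂ ϖ fK := by
  obtain ⟨hz, hv₁, hv₂, hnα, hnβ, hrat, hnodes⟩ := h
  exact ⟨hz, hv₁, hv₂, hnα, hnβ,
    lgLevel_of_nodes hpM hA hK hϖ hfK (Fact.out : p.Prime).ne_zero hdiv hv₁ hv₂ hrat hnodes⟩

/-- `IsRep` at a level gives `f_K ≠ 0` and `p ∣ div f_K`. -/
theorem ne_zero_and_dvd_of_isRep {x : JZero (M * p)} {fK : FF (Lvl K) (M * p)}
    (hrep : IsRep p x (levK (M * p) K fK)) :
    fK ≠ 0 ∧ ∀ Q : Place (Lvl K) (FF (Lvl K) (M * p)), (p : ℤ) ∣ Q.ord fK := by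
  obtain ⟨D, -, hf⟩ := hrep
  refine ⟨?_, ?_⟩
  · rintro rfl
    rw [map_zero] at hf
    exact hf.1 rfl
  · exact Fermat.Agent.P3G.Glue.LevelDict.dvd_ord_of_dvd_ord_bar (M * p) K fK _ (fun P => by
      rw [← hf.2 P]
      exact ⟨(D : Divisor Qb (Fb (M * p))) P, by simp⟩)

variable [NeZero p]

/-- ★ **[M4]/(FT) at one good level, (LG) only at the crossing points carrying zeros or poles.** -/
theorem galTors_eq_of_level_nodes (hpM : ¬ p ∣ M) (hA : A.LiesOverPrime p)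
    (hK : IsGoodLevel A p K) (hϖ : Irreducible ϖ)
    (x : Jtors (M * p) p) {fK : FF (Lvl K) (M * p)}
    (hrep : IsRep p (x : JZero (M * p)) (levK (M * p) K fK))
    (hN : M4NormR M p A K S₂ ϖ fK) (hL : M4LamZ M p A K S₂ ϖ fK) :
    ∀ τ ∈ A.inertiaSubgroupIn ℚ,
      galTors (M * p) p τ x = ((chi p τ : (ZMod p)ˣ) : ZMod p) • x := by
  obtain ⟨hf0, hdiv⟩ := ne_zero_and_dvd_of_isRep hrep
  exact galTors_eq_of_level M p A K hK S₂ ϖ hpM hA hϖ x hrep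
    ⟨m4Norm_of_m4NormR hpM hA hK hϖ hf0 hdiv hN, hL⟩

/-- ★ **`T4Out` for any pair of level predicates implying `M4NormR ∧ M4LamZ`.** -/
theorem t4Out_of_imp_nodes (hpM : ¬ p ∣ M) (hA : A.LiesOverPrime p) {Norm LamZ : LevelPred M p A}
    (himp : ∀ (K : IntermediateField ℚ Qbar) (hK : IsGoodLevel A p K)
      [IsDiscreteValuationRing ↥(baseRing A K)]
      (S₂ : Fermat.Agent.P3G.FibreTwo.SecondVal (Lvl K) M p (baseRing A K))
      (ϖ : ↥(baseRing A K)), Irreducible ϖ → ∀ fK : FF (Lvl K) (M * p),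
      Norm K hK S₂ ϖ fK → LamZ K hK S₂ ϖ fK →
        M4NormR M p A K S₂ ϖ fK ∧ M4LamZ M p A K S₂ ϖ fK) :
    T4Out Norm LamZ :=
  fun x _ K hK _ S₂ ϖ hϖ fK hrep hN hL =>
    galTors_eq_of_level_nodes hpM hA hK hϖ x hrep (himp K hK S₂ ϖ hϖ fK hN hL).1
      (himp K hK S₂ ϖ hϖ fK hN hL).2

end Norm

end Fermat.Agent.S40.M4.LGLevel
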