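/-
S40 (row 38), [M4], leaf **M4-LGNODE** (helper12), abstract part 1: **the node lemma**.

Setting of `P3G/UCrit`, `P4/TwistRoots`, `S40/W/F4Abs`: `O` a discrete valuation ring with fraction
field `K`, `F ⊇ K` the function field, `R` a chart (noetherian integrally closed domain over `O` with
fraction field `F`), `V₁ V₂` the two vertical valuation rings (`TwistRoots.Setup R π V₁ V₂`), `𝔫` a
closed point of the special fibre through which BOTH `V₁` and `V₂` pass (a crossing point), with node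
coordinates `u v` (`NodeData`: `u ∈ 𝔫` a unit of `V₁` vanishing on `V₂`, `v` a unit of `V₂` vanishing
on `V₁`, `𝔫 = (u, v, π)` locally, residue field `O / π`, and the branch `V₁` is a discrete valuation
ring at `𝔫` with uniformiser `u`: clause `ord`).

* `mem_locAt_of_mem` : the membership criterion for the local ring `R_𝔫 ⊆ F`
  (`KrullChart.exists_mul_eq_of_valuationSubrings_at`);
* `exact_or_split_field` : the dichotomy `NodeDeform.exact_or_split` in `R_𝔫`, read in `F`;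
* `HasOrd` : "`z ≡ ε · u ^ t` modulo `𝔪_{V₁}`, `ε` a unit of `R_𝔫`" (the order of the reduction of `z`
  on the first branch at the point), with its calculus;
* `ordClause_of_dedekind` : the clause `ord` from a surjection `θ₁ : R → Rb` onto a Dedekind domain
  with kernel the centre of `V₁` and `θ₁ u ∉ (θ₁ 𝔫)²`;
* `node_sat` : **the node lemma**: if `x` is a unit of `V₁` without zero or pole centred at `𝔫`,
  `x ≡ χ ^ p` modulo `𝔪_{V₁}` and `v₂(x) = p k`, there is `y`, a unit of `V₁` without zero or pole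
  centred at `𝔫`, with `v₂(y) = k`.  No thickness, no exact node form is assumed.
-/
import Mathlib
import Fermat.Agent.P3G.NodeDeform
import Fermat.Agent.P3G.NodeLocPLoc
import Fermat.Agent.P3G.Crossing
import Fermat.Agent.P4.TwistRoots
import Fermat.Agent.S40.W.F4Abs

set_option autoImplicit false
set_option linter.unusedSectionVars false
set_option linter.style.haveILetI false

namespace Fermat.Agent.S40.M4.NodeSat

open Fermat.Agent.P4.TwistRoots Fermat.Agent.P3G.UCrit Fermat.Agent.P3G.LocalRootsAt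
open Fermat.Agent.N4.Cover.Globalize Fermat.Agent.P3G.KrullChart
open Fermat.Agent.P3G.NodeDeform
open AlgebraicCurve

section Abs

variable {O K F R : Type*}
  [CommRing O] [IsDomain O] [IsDiscreteValuationRing O]
  [Field K] [Algebra O K] [IsFractionRing O K]
  [Field F] [Algebra K F] [Algebra O F] [IsScalarTower O K F]
  [CommRing R] [IsDomain R] [IsNoetherianRing R] [IsIntegrallyClosed R]
  [Algebra R F] [IsFractionRing R F] [Algebra O R] [IsScalarTower O R F]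

/-! ### The local ring `R_𝔫 ⊆ F` -/

section LocAt

variable (𝔫 : Ideal R) [h𝔫 : 𝔫.IsPrime]

/-- Elements of `R_𝔫` lie in every valuation ring `V ⊇ R` through `𝔫`. -/
theorem mem_of_mem_locAt {V : ValuationSubring F} (hV : ∀ r : R, algebraMap R F r ∈ V)
    (ht : Through V 𝔫) {x : F} (hx : x ∈ locAt (F := F) 𝔫) : x ∈ V := by
  obtain ⟨a, b, hb, h⟩ := (mem_locAt_iff 𝔫 x).1 hx
  rw [← V.valuation_le_one_iff]
  have h1 := congrArg V.valuation h
  rw [map_mul, valuation_eq_one_of_notMem hV ht hb, mul_one] at h1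
  rw [h1]
  exact (V.valuation_le_one_iff _).2 (hV a)

/-- Units of `R_𝔫` are elements of `R_𝔫`. -/
theorem IsUnitAt.mem_locAt {x : F} (hx : IsUnitAt 𝔫 x) : x ∈ locAt (F := F) 𝔫 := by
  obtain ⟨a, r, ha, -, h⟩ := hx
  exact (mem_locAt_iff 𝔫 x).2 ⟨r, a, ha, h⟩

/-- Elements of `R_𝔫` are integral at the places centred at `𝔫`. -/
theorem ord_nonneg_of_mem_locAt {Q : Place K F} (hQ : Q ∈ centredSet K 𝔫) {x : F} (hx0 : x ≠ 0)
    (hx : x ∈ locAt (F := F) 𝔫) : 0 ≤ Q.ord x := by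
  obtain ⟨a, b, hb, h⟩ := (mem_locAt_iff 𝔫 x).1 hx
  have hb0 : algebraMap R F b ≠ 0 := algebraMap_ne_zero_of_notMem 𝔫 hb
  have ha0 : algebraMap R F a ≠ 0 := by rw [← h]; exact mul_ne_zero hx0 hb0
  have h1 := congrArg Q.ord h
  rw [Q.ord_mul hx0 hb0, ord_eq_zero_of_notMem hQ hb, add_zero] at h1
  rw [h1]
  exact (Fermat.Agent.S24.PlaceExtend.mem_iff_ord_nonneg Q ha0).1 (hQ.1 a)

/-- **Membership criterion for `R_𝔫`**: integral at `V₁`, at `V₂` and at the places centred at `𝔫`. -/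
theorem mem_locAt_of_mem {π : O} (hπ : Irreducible π) {V₁ V₂ : ValuationSubring F}
    (hS : Setup R π V₁ V₂) {x : F} (hx₁ : x ∈ V₁) (hx₂ : x ∈ V₂)
    (hC : ∀ Q ∈ centredSet K 𝔫, x ∈ Q.toValuationSubring) : x ∈ locAt (F := F) 𝔫 := by
  have hV : ∀ (b : Bool) (r : R), algebraMap R F r ∈ fam V₁ V₂ b := by
    intro b r; cases b
    · exact hS.mem₂ r
    · exact hS.mem₁ r
  obtain ⟨a, r, hr, h⟩ := exists_mul_eq_of_valuationSubrings_at (K := K) hπ (fam V₁ V₂) hV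
    (by
      intro b; cases b
      · exact hS.pi₂
      · exact hS.pi₁)
    (by
      intro r hr
      exact hS.sat r (hr true) (hr false)) 𝔫 x
    (by
      intro b _; cases b
      · exact hx₂
      · exact hx₁)
    (fun Q h1 h2 => hC Q ⟨h1, h2⟩)
  exact (mem_locAt_iff 𝔫 x).2 ⟨a, r, hr, h⟩

/-- The criterion in terms of orders, for `x ≠ 0`. -/
theorem mem_locAt_of_ord {π : O} (hπ : Irreducible π) {V₁ V₂ : ValuationSubring F}
    (hS : Setup R π V₁ V₂) {x : F} (hx0 : x ≠ 0) (hx₁ : V₁.valuation x ≤ 1)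
    (hx₂ : V₂.valuation x ≤ 1) (hC : ∀ Q ∈ centredSet K 𝔫, 0 ≤ Q.ord x) :
    x ∈ locAt (F := F) 𝔫 :=
  mem_locAt_of_mem (K := K) 𝔫 hπ hS ((V₁.valuation_le_one_iff _).1 hx₁)
    ((V₂.valuation_le_one_iff _).1 hx₂)
    (fun Q hQ => (Fermat.Agent.S24.PlaceExtend.mem_iff_ord_nonneg Q hx0).2 (hC Q hQ))

end LocAt

/-! ### The dichotomy of `NodeDeform.exact_or_split` in `R_𝔫`, read in `F` -/

section Dichotomy

variable (𝔫 : Ideal R) [h𝔫 : 𝔫.IsPrime] {π : O} {u v : R}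

/-- **Exact node or separated sheets**, inside `R_𝔫 ⊆ F`. -/
theorem exact_or_split_field (hπ : Irreducible π) (hπ𝔫 : algebraMap O R π ∈ 𝔫)
    (hgen : ∀ m ∈ 𝔫, ∃ s : R, s ∉ 𝔫 ∧ s * m ∈ Ideal.span {u, v, algebraMap O R π})
    (hres : ∀ r : R, ∃ a : O, r - algebraMap O R a ∈ 𝔫)
    {G : R} (huv : u * v = algebraMap O R π * G) :
    (∃ (u' v' : F) (c : O), c ≠ 0 ∧ c ∈ Ideal.span {π} ∧
      (∃ s ∈ locAt (F := F) 𝔫, u' - algebraMap R F u = algebraMap R F (algebraMap O R π) * s) ∧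
      (∃ t ∈ locAt (F := F) 𝔫, v' - algebraMap R F v = algebraMap R F (algebraMap O R π) * t) ∧
      u' * v' = algebraMap R F (algebraMap O R c)) ∨
    (∀ n : ℕ, ∃ u' v' : F,
      (∃ s ∈ locAt (F := F) 𝔫, u' - algebraMap R F u = algebraMap R F (algebraMap O R π) * s) ∧
      (∃ t ∈ locAt (F := F) 𝔫, v' - algebraMap R F v = algebraMap R F (algebraMap O R π) * t) ∧
      ∃ g ∈ locAt (F := F) 𝔫, u' * v' = algebraMap R F (algebraMap O R π) ^ (n + 1) * g) := by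
  haveI : IsLocalRing ↥(locAt (F := F) 𝔫) := isLocalRing_locAt 𝔫
  have hH : RatGen π (algebraMap R ↥(locAt (F := F) 𝔫) u) (algebraMap R ↥(locAt (F := F) 𝔫) v) :=
    Fermat.Agent.P3G.NodeLocPLoc.ratGen_localization 𝔫 hπ hπ𝔫 hgen hres
  have hϖS : algebraMap O ↥(locAt (F := F) 𝔫) π ∈
      IsLocalRing.maximalIdeal ↥(locAt (F := F) 𝔫) := by
    rw [IsScalarTower.algebraMap_apply O R ↥(locAt (F := F) 𝔫)]
    exact (IsLocalization.AtPrime.to_map_mem_maximal_iff ↥(locAt (F := F) 𝔫) 𝔫 _).2 hπ𝔫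
  have h : algebraMap R ↥(locAt (F := F) 𝔫) u * algebraMap R ↥(locAt (F := F) 𝔫) v =
      algebraMap O ↥(locAt (F := F) 𝔫) π * algebraMap R ↥(locAt (F := F) 𝔫) G := by
    rw [← map_mul, huv, map_mul, ← IsScalarTower.algebraMap_apply O R ↥(locAt (F := F) 𝔫)]
  have hcoeπ : ∀ c : O, ((algebraMap O ↥(locAt (F := F) 𝔫) c : ↥(locAt (F := F) 𝔫)) : F) =
      algebraMap R F (algebraMap O R c) := fun c => algebraMap_O_locAt 𝔫 c
  rcases exact_or_split hπ hϖS hH h with ⟨u', v', c, hc0, hc, hu', hv', huv'⟩ | hsplit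
  · left
    obtain ⟨s, hs⟩ := Ideal.mem_span_singleton'.1 hu'
    obtain ⟨t, ht⟩ := Ideal.mem_span_singleton'.1 hv'
    refine ⟨(u' : F), (v' : F), c, hc0, hc, ⟨(s : F), s.2, ?_⟩, ⟨(t : F), t.2, ?_⟩, ?_⟩
    · have h1 := congrArg (fun z : ↥(locAt (F := F) 𝔫) => (z : F)) hs
      simp only [MulMemClass.coe_mul, AddSubgroupClass.coe_sub, hcoeπ] at h1
      rw [mul_comm, h1]
      rfl
    · have h1 := congrArg (fun z : ↥(locAt (F := F) 𝔫) => (z : F)) ht
      simp only [MulMemClass.coe_mul, AddSubgroupClass.coe_sub, hcoeπ] at h1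
      rw [mul_comm, h1]
      rfl
    · have h1 := congrArg (fun z : ↥(locAt (F := F) 𝔫) => (z : F)) huv'
      simp only [MulMemClass.coe_mul, hcoeπ] at h1
      exact h1
  · right
    intro n
    obtain ⟨u', v', hu', hv', huv'⟩ := hsplit n
    obtain ⟨s, hs⟩ := Ideal.mem_span_singleton'.1 hu'
    obtain ⟨t, ht⟩ := Ideal.mem_span_singleton'.1 hv'
    obtain ⟨g, hg⟩ := Ideal.mem_span_singleton'.1 huv'
    refine ⟨(u' : F), (v' : F), ⟨(s : F), s.2, ?_⟩, ⟨(t : F), t.2, ?_⟩, (g : F), g.2, ?_⟩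
    · have h1 := congrArg (fun z : ↥(locAt (F := F) 𝔫) => (z : F)) hs
      simp only [MulMemClass.coe_mul, AddSubgroupClass.coe_sub, hcoeπ] at h1
      rw [mul_comm, h1]
      rfl
    · have h1 := congrArg (fun z : ↥(locAt (F := F) 𝔫) => (z : F)) ht
      simp only [MulMemClass.coe_mul, AddSubgroupClass.coe_sub, hcoeπ] at h1
      rw [mul_comm, h1]
      rfl
    · have h1 := congrArg (fun z : ↥(locAt (F := F) 𝔫) => (z : F)) hg
      simp only [MulMemClass.coe_mul, SubmonoidClass.coe_pow, hcoeπ] at h1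
      rw [← h1, mul_comm]

end Dichotomy

/-! ### Small valuation lemmas -/

section Val

variable {V : ValuationSubring F}

theorem val_mul_lt_one_left {a b : F} (ha : V.valuation a < 1) (hb : V.valuation b ≤ 1) :
    V.valuation (a * b) < 1 := by
  rw [map_mul]
  exact mul_lt_one_of_lt_of_le ha hb

theorem val_mul_lt_one_right {a b : F} (ha : V.valuation a ≤ 1) (hb : V.valuation b < 1) :
    V.valuation (a * b) < 1 := by
  rw [mul_comm]
  exact val_mul_lt_one_left hb ha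

/-- `a ≡ b` modulo `𝔪_V`, `a b ∈ V`, gives `a ^ n ≡ b ^ n`. -/
theorem val_pow_sub_pow_lt_one {a b : F} (ha : V.valuation a ≤ 1) (hb : V.valuation b ≤ 1)
    (hab : V.valuation (a - b) < 1) (n : ℕ) : V.valuation (a ^ n - b ^ n) < 1 := by
  induction n with
  | zero => simp
  | succ n ih =>
    have h1 : a ^ (n + 1) - b ^ (n + 1) = a ^ n * (a - b) + (a ^ n - b ^ n) * b := by ring
    rw [h1]
    refine Valuation.map_add_lt _ (val_mul_lt_one_right ?_ hab) (val_mul_lt_one_left ih hb)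
    rw [map_pow]
    exact pow_le_one₀ zero_le ha

/-- Injectivity of `n ↦ γ ^ n` for `0 < γ < 1`. -/
theorem pow_inj_of_lt_one {Γ : Type*} [LinearOrderedCommGroupWithZero Γ] {γ : Γ} (h0 : γ ≠ 0)
    (h1 : γ < 1) {a b : ℕ} (h : γ ^ a = γ ^ b) : a = b := by
  rcases lt_trichotomy a b with hab | hab | hab
  · exact absurd h (ne_of_gt (pow_lt_pow_right_of_lt_one₀ (zero_lt_iff.2 h0) h1 hab))
  · exact hab
  · exact absurd h (ne_of_lt (pow_lt_pow_right_of_lt_one₀ (zero_lt_iff.2 h0) h1 hab))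

end Val

/-! ### The order on the first branch at the point -/

section Ord

variable (𝔫 : Ideal R) [h𝔫 : 𝔫.IsPrime] (V₁ : ValuationSubring F) (u : R)

/-- `z ≡ ε · u ^ t` modulo `𝔪_{V₁}` with `ε` a unit of `R_𝔫`: the reduction of `z` on the first
branch has order `t` at the point `𝔫` (`u` reduces to a uniformiser there). -/
def HasOrd (z : F) (t : ℕ) : Prop :=
  ∃ ε : F, IsUnitAt 𝔫 ε ∧ V₁.valuation (z - ε * algebraMap R F u ^ t) < 1

variable {𝔫 V₁ u}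
variable (hV₁ : ∀ r : R, algebraMap R F r ∈ V₁) (ht₁ : Through V₁ 𝔫)
  (hu₁ : V₁.valuation (algebraMap R F u) = 1)

include hV₁ ht₁ hu₁ in
theorem HasOrd.valuation_eq_one {z : F} {t : ℕ} (h : HasOrd 𝔫 V₁ u z t) : V₁.valuation z = 1 := by
  obtain ⟨ε, hε, h1⟩ := h
  have h2 : V₁.valuation (ε * algebraMap R F u ^ t) = 1 := by
    rw [map_mul, map_pow, hu₁, one_pow, mul_one, hε.valuation_eq_one hV₁ ht₁]
  have h3 := valuation_add_eq_one_of_lt h1 h2
  rwa [sub_add_cancel] at h3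

include hV₁ ht₁ hu₁ in
theorem HasOrd.mul {z z' : F} {t t' : ℕ} (h : HasOrd 𝔫 V₁ u z t) (h' : HasOrd 𝔫 V₁ u z' t') :
    HasOrd 𝔫 V₁ u (z * z') (t + t') := by
  have hz' := h'.valuation_eq_one hV₁ ht₁ hu₁
  obtain ⟨ε, hε, h1⟩ := h
  obtain ⟨ε', hε', h1'⟩ := h'
  refine ⟨ε * ε', hε.mul hε', ?_⟩
  have h2 : z * z' - ε * ε' * algebraMap R F u ^ (t + t') =
      (z - ε * algebraMap R F u ^ t) * z' +
        ε * algebraMap R F u ^ t * (z' - ε' * algebraMap R F u ^ t') := by ring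
  rw [h2]
  refine Valuation.map_add_lt _ (val_mul_lt_one_left h1 hz'.le) (val_mul_lt_one_right ?_ h1')
  rw [map_mul, map_pow, hu₁, one_pow, mul_one, hε.valuation_eq_one hV₁ ht₁]

theorem hasOrd_of_isUnitAt {ε : F} (hε : IsUnitAt 𝔫 ε) : HasOrd 𝔫 V₁ u ε 0 :=
  ⟨ε, hε, by rw [pow_zero, mul_one, sub_self, map_zero]; exact zero_lt_one⟩

theorem hasOrd_one : HasOrd 𝔫 V₁ u (1 : F) 0 := hasOrd_of_isUnitAt isUnitAt_one

theorem hasOrd_self : HasOrd 𝔫 V₁ u (algebraMap R F u) 1 :=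
  ⟨1, isUnitAt_one, by rw [pow_one, one_mul, sub_self, map_zero]; exact zero_lt_one⟩

include hV₁ ht₁ hu₁ in
theorem HasOrd.pow {z : F} {t : ℕ} (h : HasOrd 𝔫 V₁ u z t) (n : ℕ) :
    HasOrd 𝔫 V₁ u (z ^ n) (n * t) := by
  induction n with
  | zero => rw [pow_zero, zero_mul]; exact hasOrd_one
  | succ n ih =>
    rw [pow_succ, Nat.succ_mul]
    exact HasOrd.mul hV₁ ht₁ hu₁ ih h

theorem HasOrd.congr {z z' : F} {t : ℕ} (h : HasOrd 𝔫 V₁ u z t)
    (hzz : V₁.valuation (z' - z) < 1) : HasOrd 𝔫 V₁ u z' t := by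
  obtain ⟨ε, hε, h1⟩ := h
  refine ⟨ε, hε, ?_⟩
  have h2 : z' - ε * algebraMap R F u ^ t = (z' - z) + (z - ε * algebraMap R F u ^ t) := by ring
  rw [h2]
  exact Valuation.map_add_lt _ hzz h1

include hV₁ ht₁ hu₁ in
theorem HasOrd.not_ord_lt (hu𝔫 : u ∈ 𝔫) {z : F} {t t' : ℕ} (h : HasOrd 𝔫 V₁ u z t)
    (h' : HasOrd 𝔫 V₁ u z t') : ¬ t < t' := by
  intro hlt
  obtain ⟨k, rfl⟩ : ∃ k, t' = t + (k + 1) := ⟨t' - t - 1, by omega⟩
  obtain ⟨ε, hε, h1⟩ := h
  obtain ⟨ε', hε', h1'⟩ := h'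
  have hut : V₁.valuation (algebraMap R F u ^ t) = 1 := by rw [map_pow, hu₁, one_pow]
  have h2 : V₁.valuation (ε - ε' * algebraMap R F u ^ (k + 1)) < 1 := by
    have h3 : (ε - ε' * algebraMap R F u ^ (k + 1)) * algebraMap R F u ^ t =
        (z - ε' * algebraMap R F u ^ (t + (k + 1))) - (z - ε * algebraMap R F u ^ t) := by ring
    have h4 := Valuation.map_sub_lt _ h1' h1
    rw [← h3, map_mul, hut, mul_one] at h4
    exact h4
  obtain ⟨a, r, ha, hr, hεa⟩ := hε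
  obtain ⟨a', r', ha', hr', hεa'⟩ := hε'
  have h5 : (ε - ε' * algebraMap R F u ^ (k + 1)) * (algebraMap R F a * algebraMap R F a') =
      algebraMap R F (r * a' - r' * a * u ^ (k + 1)) := by
    rw [map_sub, map_mul, map_mul, map_mul, map_pow, ← hεa, ← hεa']
    ring
  have h6 : V₁.valuation (algebraMap R F (r * a' - r' * a * u ^ (k + 1))) < 1 := by
    rw [← h5]
    refine val_mul_lt_one_left h2 ?_
    rw [map_mul, valuation_eq_one_of_notMem hV₁ ht₁ ha, valuation_eq_one_of_notMem hV₁ ht₁ ha',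
      mul_one]
  have h7 : r * a' - r' * a * u ^ (k + 1) ∈ 𝔫 := ht₁ _ ((V₁.mem_nonunits_iff).2 h6)
  have h8 : r * a' ∈ 𝔫 := by
    have : r * a' = (r * a' - r' * a * u ^ (k + 1)) + r' * a * u ^ (k + 1) := by ring
    rw [this]
    exact 𝔫.add_mem h7 (𝔫.mul_mem_left _ (𝔫.pow_mem_of_mem hu𝔫 _ (Nat.succ_pos k)))
  exact (h𝔫.mem_or_mem h8).elim hr ha'

include hV₁ ht₁ hu₁ in
/-- The order is unique. -/
theorem HasOrd.unique (hu𝔫 : u ∈ 𝔫) {z : F} {t t' : ℕ} (h : HasOrd 𝔫 V₁ u z t)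
    (h' : HasOrd 𝔫 V₁ u z t') : t = t' :=
  le_antisymm (not_lt.1 (HasOrd.not_ord_lt hV₁ ht₁ hu₁ hu𝔫 h' h))
    (not_lt.1 (HasOrd.not_ord_lt hV₁ ht₁ hu₁ hu𝔫 h h'))

include hV₁ ht₁ in
/-- Existence of the order for the `V₁`-units of `R_𝔫`, from the clause `ord`. -/
theorem exists_hasOrd
    (hord : ∀ a : R, algebraMap R F a ∉ V₁.nonunits → ∃ (t : ℕ) (e d : R), e ∉ 𝔫 ∧ d ∉ 𝔫 ∧
      algebraMap R F (d * a - e * u ^ t) ∈ V₁.nonunits)
    {z : F} (hz : z ∈ locAt (F := F) 𝔫) (hz₁ : V₁.valuation z = 1) :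
    ∃ t, HasOrd 𝔫 V₁ u z t := by
  obtain ⟨a, b, hb, hzb⟩ := (mem_locAt_iff 𝔫 z).1 hz
  have hvb := valuation_eq_one_of_notMem hV₁ ht₁ hb
  have hva : V₁.valuation (algebraMap R F a) = 1 := by
    rw [← hzb, map_mul, hz₁, hvb, mul_one]
  have ha : algebraMap R F a ∉ V₁.nonunits := by
    rw [V₁.mem_nonunits_iff, hva]; exact lt_irrefl _
  obtain ⟨t, e, d, he, hd, hde⟩ := hord a ha
  have hvd := valuation_eq_one_of_notMem hV₁ ht₁ hd
  have hb0 : algebraMap R F b ≠ 0 := algebraMap_ne_zero_of_notMem 𝔫 hb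
  have hd0 : algebraMap R F d ≠ 0 := algebraMap_ne_zero_of_notMem 𝔫 hd
  refine ⟨t, algebraMap R F e / (algebraMap R F d * algebraMap R F b),
    (isUnitAt_algebraMap he).div ((isUnitAt_algebraMap hd).mul (isUnitAt_algebraMap hb)), ?_⟩
  have h1 : z - algebraMap R F e / (algebraMap R F d * algebraMap R F b) * algebraMap R F u ^ t =
      algebraMap R F (d * a - e * u ^ t) / (algebraMap R F d * algebraMap R F b) := by
    rw [map_sub, map_mul, map_mul, map_pow, ← hzb]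
    field_simp
  rw [h1, map_div₀, map_mul, hvd, hvb, mul_one, div_one]
  exact (V₁.mem_nonunits_iff).1 hde

include hV₁ ht₁ in
/-- An element of `R_𝔫` of order `0` on the first branch does not vanish on the second branch. -/
theorem HasOrd.not_lt_one₂ {V₂ : ValuationSubring F} (hV₂ : ∀ r : R, algebraMap R F r ∈ V₂)
    (ht₂ : Through V₂ 𝔫) {z : F} (h : HasOrd 𝔫 V₁ u z 0) (hz : z ∈ locAt (F := F) 𝔫) :
    ¬ V₂.valuation z < 1 := by
  intro hlt
  obtain ⟨ε, hε, h1⟩ := h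
  rw [pow_zero, mul_one] at h1
  obtain ⟨a, b, hb, hzb⟩ := (mem_locAt_iff 𝔫 z).1 hz
  obtain ⟨a', r, ha', hr, hεa⟩ := hε
  have h2 : (z - ε) * (algebraMap R F b * algebraMap R F a') = algebraMap R F (a * a' - r * b) := by
    rw [map_sub, map_mul, map_mul, ← hzb, ← hεa]
    ring
  have h3 : V₁.valuation (algebraMap R F (a * a' - r * b)) < 1 := by
    rw [← h2]
    refine val_mul_lt_one_left h1 ?_
    rw [map_mul, valuation_eq_one_of_notMem hV₁ ht₁ hb, valuation_eq_one_of_notMem hV₁ ht₁ ha',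
      mul_one]
  have h4 : a * a' - r * b ∈ 𝔫 := ht₁ _ ((V₁.mem_nonunits_iff).2 h3)
  have h5 : V₂.valuation (algebraMap R F a) < 1 := by
    rw [← hzb]
    exact val_mul_lt_one_left hlt ((V₂.valuation_le_one_iff _).2 (hV₂ b))
  have h6 : a ∈ 𝔫 := ht₂ _ ((V₂.mem_nonunits_iff).2 h5)
  have h7 : r * b ∈ 𝔫 := by
    have : r * b = a * a' - (a * a' - r * b) := by ring
    rw [this]
    exact 𝔫.sub_mem (𝔫.mul_mem_right _ h6) h4
  exact (h𝔫.mem_or_mem h7).elim hr hb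

end Ord

/-! ### The clause `ord` from a Dedekind branch -/

section OrdClause

/-- In a Dedekind domain, `w ∈ P ∖ P²` (`P` maximal) is a uniformiser at `P`: every `b ≠ 0` is
`(e / d) · w ^ t` with `e d ∉ P`. -/
theorem exists_mul_eq_mul_pow {A : Type*} [CommRing A] [IsDedekindDomain A] {P : Ideal A}
    [hP : P.IsMaximal] (hP0 : P ≠ ⊥) {w : A} (hw : w ∈ P) (hw2 : w ∉ P ^ 2) {b : A} (hb : b ≠ 0) :
    ∃ (t : ℕ) (e d : A), e ∉ P ∧ d ∉ P ∧ d * b = e * w ^ t := by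
  classical
  have hprime : Prime P := Ideal.prime_of_isPrime hP0 hP.isPrime
  have hex : ∃ n, b ∉ P ^ n := by
    by_contra hall
    push Not at hall
    have h1 : b ∈ (⨅ i, P ^ i : Ideal A) := (Ideal.mem_iInf).2 hall
    rw [Ideal.iInf_pow_eq_bot_of_isDomain P hP.ne_top] at h1
    exact hb ((Submodule.mem_bot A).1 h1)
  have hn : b ∉ P ^ Nat.find hex := Nat.find_spec hex
  have hn0 : Nat.find hex ≠ 0 := by
    intro h0
    rw [h0, pow_zero, Ideal.one_eq_top] at hn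
    exact hn Submodule.mem_top
  obtain ⟨t, ht⟩ : ∃ t, Nat.find hex = t + 1 := Nat.exists_eq_succ_of_ne_zero hn0
  have hbt : b ∈ P ^ t := by
    by_contra h
    exact Nat.find_min hex (by omega : t < Nat.find hex) h
  rw [ht] at hn
  -- `(w) = P * J` with `J ⊄ P`
  have hle : Ideal.span {w} ≤ P := (Ideal.span_singleton_le_iff_mem _).2 hw
  obtain ⟨J, hJ⟩ := Ideal.dvd_iff_le.2 hle
  have hJP : ¬ J ≤ P := by
    intro h
    obtain ⟨J', hJ'⟩ := Ideal.dvd_iff_le.2 h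
    apply hw2
    have h1 : Ideal.span {w} = P ^ 2 * J' := by rw [hJ, hJ', ← mul_assoc, sq]
    have h2 : Ideal.span {w} ≤ P ^ 2 := h1 ▸ Ideal.mul_le_left
    exact h2 (Ideal.mem_span_singleton_self w)
  obtain ⟨s, hsJ, hsP⟩ := SetLike.not_le_iff_exists.1 hJP
  have hstP : s ^ t ∉ P := fun h => hsP (hP.isPrime.mem_of_pow_mem t h)
  have h3 : s ^ t * b ∈ Ideal.span {w ^ t} := by
    rw [← Ideal.span_singleton_pow, hJ, mul_pow, mul_comm (s ^ t) b]
    exact Ideal.mul_mem_mul hbt (Ideal.pow_mem_pow hsJ t)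
  obtain ⟨e, he⟩ := Ideal.mem_span_singleton'.1 h3
  refine ⟨t, e, s ^ t, ?_, hstP, he.symm⟩
  intro heP
  -- then `s ^ t * b ∈ P ^ (t + 1)`, hence `b ∈ P ^ (t + 1)`
  have h4 : s ^ t * b ∈ P ^ (t + 1) := by
    rw [← he, pow_succ']
    exact Ideal.mul_mem_mul heP (Ideal.pow_mem_pow hw t)
  have h5 : P ^ (t + 1) ∣ Ideal.span {s ^ t} * Ideal.span {b} := by
    rw [Ideal.span_singleton_mul_span_singleton, Ideal.dvd_iff_le,
      Ideal.span_singleton_le_iff_mem]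
    exact h4
  have h6 : ¬ P ∣ Ideal.span {s ^ t} := by
    rw [Ideal.dvd_iff_le, Ideal.span_singleton_le_iff_mem]
    exact hstP
  have h7 := hprime.pow_dvd_of_dvd_mul_left (t + 1) h6 h5
  rw [Ideal.dvd_iff_le, Ideal.span_singleton_le_iff_mem] at h7
  exact hn h7

/-- **The clause `ord`** at a closed point `𝔫` on the branch `V₁`, when the branch is a Dedekind
domain `Rb = R / (𝔪_{V₁} ∩ R)` and `u ∈ 𝔫` reduces to a uniformiser at the point. -/
theorem ordClause_of_dedekind {Rb : Type*} [CommRing Rb] [IsDedekindDomain Rb] (θ₁ : R →+* Rb)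
    (hsurj : Function.Surjective θ₁) {V₁ : ValuationSubring F}
    (hker₁ : ∀ r : R, θ₁ r = 0 ↔ algebraMap R F r ∈ V₁.nonunits)
    (𝔫 : Ideal R) [h𝔫 : 𝔫.IsMaximal] (hk1 : RingHom.ker θ₁ ≤ 𝔫) (hbot : 𝔫.map θ₁ ≠ ⊥)
    {u : R} (hu𝔫 : u ∈ 𝔫) (hu2 : θ₁ u ∉ (𝔫.map θ₁) ^ 2) :
    ∀ a : R, algebraMap R F a ∉ V₁.nonunits → ∃ (t : ℕ) (e d : R), e ∉ 𝔫 ∧ d ∉ 𝔫 ∧
      algebraMap R F (d * a - e * u ^ t) ∈ V₁.nonunits := by
  intro a ha
  have hb : θ₁ a ≠ 0 := fun h => ha ((hker₁ a).1 h)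
  haveI := Fermat.Agent.P3G.Crossing.isMaximal_map θ₁ hsurj 𝔫 hk1
  obtain ⟨t, e', d', he', hd', h⟩ :=
    exists_mul_eq_mul_pow hbot (Ideal.mem_map_of_mem θ₁ hu𝔫) hu2 hb
  obtain ⟨e, rfl⟩ := hsurj e'
  obtain ⟨d, rfl⟩ := hsurj d'
  refine ⟨t, e, d, fun h => he' (Ideal.mem_map_of_mem θ₁ h),
    fun h => hd' (Ideal.mem_map_of_mem θ₁ h), ?_⟩
  rw [← hker₁, map_sub, map_mul, map_mul, map_pow, h, sub_self]

end OrdClause

/-! ### The node lemma -/

section Node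

/-- **Node coordinates** at a crossing point `𝔫` of the chart: `u ∈ 𝔫` is a unit of `V₁` vanishing on
`V₂`, `v` a unit of `V₂` vanishing on `V₁`, `𝔫 = (u, v, π)` locally at `𝔫`, the residue field is
`O / π`, and `u` reduces to a uniformiser of the first branch at the point (clause `ord`). -/
structure NodeData (𝔫 : Ideal R) (π : O) (V₁ V₂ : ValuationSubring F) (u v : R) : Prop where
  u_mem : u ∈ 𝔫
  u_one : V₁.valuation (algebraMap R F u) = 1
  u_two : algebraMap R F u ∈ V₂.nonunits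
  v_one : algebraMap R F v ∈ V₁.nonunits
  v_two : V₂.valuation (algebraMap R F v) = 1
  gen : ∀ m ∈ 𝔫, ∃ s : R, s ∉ 𝔫 ∧ s * m ∈ Ideal.span {u, v, algebraMap O R π}
  res : ∀ r : R, ∃ a : O, r - algebraMap O R a ∈ 𝔫
  ord : ∀ a : R, algebraMap R F a ∉ V₁.nonunits → ∃ (t : ℕ) (e d : R), e ∉ 𝔫 ∧ d ∉ 𝔫 ∧
    algebraMap R F (d * a - e * u ^ t) ∈ V₁.nonunits

variable {π : O} {V₁ V₂ : ValuationSubring F} (𝔫 : Ideal R) [h𝔫 : 𝔫.IsPrime]

/-- **The node lemma, `v₂(x) = p k > 0`.** -/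
theorem node_sat_pos (hπ : Irreducible π) (hS : Setup R π V₁ V₂)
    (hπ𝔫 : algebraMap O R π ∈ 𝔫) (ht₁ : Through V₁ 𝔫) (ht₂ : Through V₂ 𝔫) {u v : R}
    (hN : NodeData 𝔫 π V₁ V₂ u v) {p : ℕ} (hp : 2 ≤ p) {x χ : F} (hx0 : x ≠ 0)
    (hx₁ : V₁.valuation x = 1) (hxC : ∀ Q ∈ centredSet K 𝔫, Q.ord x = 0) {k : ℕ} (hk : k ≠ 0)
    (hx₂ : V₂.valuation x = V₂.valuation (algebraMap R F (algebraMap O R π)) ^ (p * k))
    (hχ : V₁.valuation χ = 1) (hxχ : V₁.valuation (x - χ ^ p) < 1) :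
    ∃ y : F, y ≠ 0 ∧ V₁.valuation y = 1 ∧ (∀ Q ∈ centredSet K 𝔫, Q.ord y = 0) ∧
      V₂.valuation y = V₂.valuation (algebraMap R F (algebraMap O R π)) ^ k := by
  have hcF : ∀ c : O, algebraMap R F (algebraMap O R c) = algebraMap O F c := fun c =>
    (IsScalarTower.algebraMap_apply O R F c).symm
  have hcF0 : ∀ c : O, c ≠ 0 → algebraMap R F (algebraMap O R c) ≠ 0 := by
    intro c hc
    rw [hcF, IsScalarTower.algebraMap_apply O K F c]
    exact (map_ne_zero _).2 ((map_ne_zero_iff _ (IsFractionRing.injective O K)).2 hc)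
  have hconst : ∀ c : O, c ≠ 0 → ∀ Q : Place K F,
      Q.ord (algebraMap R F (algebraMap O R c)) = 0 := by
    intro c hc Q
    rw [hcF]
    exact ord_algebraMap_eq_zero Q hc
  set ϖ : F := algebraMap R F (algebraMap O R π) with hϖdef
  have hϖ0 : ϖ ≠ 0 := hcF0 π hπ.ne_zero
  have hγ1 : V₂.valuation ϖ < 1 := (V₂.mem_nonunits_iff).1 hS.pi₂
  have hγ0 : V₂.valuation ϖ ≠ 0 := (map_ne_zero _).2 hϖ0
  have hϖ1 : V₁.valuation ϖ < 1 := (V₁.mem_nonunits_iff).1 hS.pi₁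
  have hord := ordMul_place (K := K) (F := F)
  -- Step 1: `x ∈ R_𝔫`
  have hxS : x ∈ locAt (F := F) 𝔫 :=
    mem_locAt_of_ord (K := K) 𝔫 hπ hS hx0 hx₁.le
      (by rw [hx₂]; exact pow_le_one₀ zero_le hγ1.le) (fun Q hQ => (hxC Q hQ).ge)
  -- Step 2: the order of `x` on the first branch
  obtain ⟨t, hxt⟩ := exists_hasOrd hS.mem₁ ht₁ hN.ord hxS hx₁
  -- Step 3: `p ∣ t`
  have hpt : p ∣ t := by
    obtain ⟨a, d, hd, hχd⟩ := hS.loc₁ χ ((V₁.valuation_le_one_iff _).1 hχ.le)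
    have hvd : V₁.valuation (algebraMap R F d) = 1 :=
      le_antisymm ((V₁.valuation_le_one_iff _).2 (hS.mem₁ d))
        (not_lt.1 fun h => hd ((V₁.mem_nonunits_iff).2 h))
    have hva : V₁.valuation (algebraMap R F a) = 1 := by rw [← hχd, map_mul, hχ, hvd, mul_one]
    obtain ⟨ta, hta⟩ := exists_hasOrd hS.mem₁ ht₁ hN.ord
      (Fermat.Agent.P3G.Krull.algebraMap_mem_locAt 𝔫 a) hva
    obtain ⟨td, htd⟩ := exists_hasOrd hS.mem₁ ht₁ hN.ord
      (Fermat.Agent.P3G.Krull.algebraMap_mem_locAt 𝔫 d) hvd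
    have h1 : HasOrd 𝔫 V₁ u (x * algebraMap R F d ^ p) (t + p * td) :=
      HasOrd.mul hS.mem₁ ht₁ hN.u_one hxt (htd.pow hS.mem₁ ht₁ hN.u_one p)
    have h2 : HasOrd 𝔫 V₁ u (algebraMap R F a ^ p) (p * ta) := hta.pow hS.mem₁ ht₁ hN.u_one p
    have h3 : HasOrd 𝔫 V₁ u (x * algebraMap R F d ^ p) (p * ta) := by
      refine h2.congr ?_
      have h4 : x * algebraMap R F d ^ p - algebraMap R F a ^ p =
          (x - χ ^ p) * algebraMap R F d ^ p := by rw [← hχd]; ring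
      rw [h4]
      exact val_mul_lt_one_left hxχ (by rw [map_pow, hvd, one_pow])
    have h5 := HasOrd.unique hS.mem₁ ht₁ hN.u_one hN.u_mem h1 h3
    exact (Nat.dvd_add_left (dvd_mul_right p td)).1 (h5 ▸ dvd_mul_right p ta)
  -- Step 4: the dichotomy
  obtain ⟨G, hG⟩ : ∃ G, u * v = algebraMap O R π * G := by
    have h1 : algebraMap R F (u * v) ∈ V₁.nonunits := by
      rw [map_mul, mul_comm]; exact nonunits_mul_mem hN.v_one (hS.mem₁ u)
    have h2 : algebraMap R F (u * v) ∈ V₂.nonunits := by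
      rw [map_mul]; exact nonunits_mul_mem hN.u_two (hS.mem₂ v)
    exact hS.sat _ h1 h2
  have hϖS : ϖ ∈ locAt (F := F) 𝔫 := Fermat.Agent.P3G.Krull.algebraMap_mem_locAt 𝔫 _
  have hcommon : ∀ u' v' : F,
      (∃ s ∈ locAt (F := F) 𝔫, u' - algebraMap R F u = ϖ * s) →
      (∃ s ∈ locAt (F := F) 𝔫, v' - algebraMap R F v = ϖ * s) →
      u' ∈ locAt (F := F) 𝔫 ∧ v' ∈ locAt (F := F) 𝔫 ∧
        V₁.valuation (u' - algebraMap R F u) < 1 ∧ V₁.valuation u' = 1 ∧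
        V₂.valuation v' = 1 := by
    rintro u' v' ⟨s, hs, hus⟩ ⟨s', hs', hvs⟩
    have hu'e : u' = ϖ * s + algebraMap R F u := by rw [← hus]; ring
    have hv'e : v' = ϖ * s' + algebraMap R F v := by rw [← hvs]; ring
    have h1 : V₁.valuation (ϖ * s) < 1 :=
      val_mul_lt_one_left hϖ1 ((V₁.valuation_le_one_iff _).2 (mem_of_mem_locAt 𝔫 hS.mem₁ ht₁ hs))
    have h2 : V₂.valuation (ϖ * s') < 1 :=
      val_mul_lt_one_left hγ1 ((V₂.valuation_le_one_iff _).2 (mem_of_mem_locAt 𝔫 hS.mem₂ ht₂ hs'))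
    refine ⟨?_, ?_, ?_, ?_, ?_⟩
    · rw [hu'e]
      exact add_mem (mul_mem hϖS hs) (Fermat.Agent.P3G.Krull.algebraMap_mem_locAt 𝔫 u)
    · rw [hv'e]
      exact add_mem (mul_mem hϖS hs') (Fermat.Agent.P3G.Krull.algebraMap_mem_locAt 𝔫 v)
    · rw [hus]; exact h1
    · rw [hu'e]; exact valuation_add_eq_one_of_lt h1 hN.u_one
    · rw [hv'e]; exact valuation_add_eq_one_of_lt h2 hN.v_two
  rcases exact_or_split_field (F := F) 𝔫 hπ hπ𝔫 hN.gen hN.res hG with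
    ⟨u', v', c, hc0, -, hu', hv', huv'⟩ | hsplit
  · -- exact node `u' v' = c`
    obtain ⟨hu'S, hv'S, hu'u, hu'1, hv'2⟩ := hcommon u' v' hu' hv'
    obtain ⟨m, ε, hcε⟩ := IsDiscreteValuationRing.eq_unit_mul_pow_irreducible hc0 hπ
    have hεn : algebraMap O R (ε : O) ∉ 𝔫 := fun h =>
      h𝔫.ne_top (Ideal.eq_top_of_isUnit_mem _ h (ε.isUnit.map _))
    have hvc : V₂.valuation (algebraMap R F (algebraMap O R c)) = V₂.valuation ϖ ^ m := by
      rw [hcε, map_mul, map_mul, map_pow, map_pow, map_mul, map_pow,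
        valuation_eq_one_of_notMem hS.mem₂ ht₂ hεn, one_mul]
    have hc0F := hcF0 c hc0
    have hu'0 : u' ≠ 0 := left_ne_zero_of_mul (huv' ▸ hc0F)
    have hv'0 : v' ≠ 0 := right_ne_zero_of_mul (huv' ▸ hc0F)
    have hvu' : V₂.valuation u' = V₂.valuation ϖ ^ m := by
      have h1 := congrArg V₂.valuation huv'
      rwa [map_mul, hv'2, mul_one, hvc] at h1
    have hordu' : ∀ Q ∈ centredSet K 𝔫, Q.ord u' = 0 := by
      intro Q hQ
      have h1 := ord_nonneg_of_mem_locAt (K := K) 𝔫 hQ hu'0 hu'S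
      have h2 := ord_nonneg_of_mem_locAt (K := K) 𝔫 hQ hv'0 hv'S
      have h3 := congrArg Q.ord huv'
      rw [Q.ord_mul hu'0 hv'0, hconst c hc0 Q] at h3
      omega
    have hut0 : u' ^ t ≠ 0 := pow_ne_zero _ hu'0
    have hw0 : x / u' ^ t ≠ 0 := div_ne_zero hx0 hut0
    have hw1 : V₁.valuation (x / u' ^ t) = 1 := by
      rw [map_div₀, map_pow, hu'1, one_pow, div_one, hx₁]
    have hwC : ∀ Q ∈ centredSet K 𝔫, Q.ord (x / u' ^ t) = 0 := by
      intro Q hQ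
      rw [hord.div Q hx0 hut0, hord.pow Q hu'0 t, hxC Q hQ, hordu' Q hQ]
      ring
    obtain ⟨ε', hε', hxε⟩ := hxt
    have hε'1 := hε'.valuation_eq_one hS.mem₁ ht₁
    have hwε : V₁.valuation (x / u' ^ t - ε') < 1 := by
      have h2 : x / u' ^ t - ε' = ((x - ε' * algebraMap R F u ^ t) -
          ε' * (u' ^ t - algebraMap R F u ^ t)) / u' ^ t := by
        field_simp
        ring
      rw [h2, map_div₀, map_pow, hu'1, one_pow, div_one]
      refine Valuation.map_sub_lt _ hxε (val_mul_lt_one_right hε'1.le ?_)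
      exact val_pow_sub_pow_lt_one hu'1.le hN.u_one.le hu'u t
    have hw2 : V₂.valuation (x / u' ^ t) = 1 := by
      rcases lt_trichotomy (V₂.valuation (x / u' ^ t)) 1 with hlt | heq | hgt
      · exfalso
        have hwS : x / u' ^ t ∈ locAt (F := F) 𝔫 :=
          mem_locAt_of_ord (K := K) 𝔫 hπ hS hw0 hw1.le hlt.le (fun Q hQ => (hwC Q hQ).ge)
        have hw0ord : HasOrd 𝔫 V₁ u (x / u' ^ t) 0 := ⟨ε', hε', by rwa [pow_zero, mul_one]⟩
        exact HasOrd.not_lt_one₂ hS.mem₁ ht₁ hS.mem₂ ht₂ hw0ord hwS hlt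
      · exact heq
      · exfalso
        have hlt : V₂.valuation (x / u' ^ t)⁻¹ < 1 := by
          rw [map_inv₀]
          exact inv_lt_one_of_one_lt₀ hgt
        have hwS : (x / u' ^ t)⁻¹ ∈ locAt (F := F) 𝔫 :=
          mem_locAt_of_ord (K := K) 𝔫 hπ hS (inv_ne_zero hw0)
            (by rw [map_inv₀, hw1, inv_one]) hlt.le
            (fun Q hQ => by rw [hord.inv Q hw0, hwC Q hQ, neg_zero])
        have hε'0 := hε'.ne_zero
        have hw0ord : HasOrd 𝔫 V₁ u (x / u' ^ t)⁻¹ 0 := by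
          refine ⟨ε'⁻¹, hε'.inv, ?_⟩
          rw [pow_zero, mul_one]
          have h3 : (x / u' ^ t)⁻¹ - ε'⁻¹ = -(x / u' ^ t - ε') / (x / u' ^ t * ε') := by
            field_simp
            ring
          rw [h3, map_div₀, Valuation.map_neg, map_mul, hw1, hε'1, mul_one, div_one]
          exact hwε
        exact HasOrd.not_lt_one₂ hS.mem₁ ht₁ hS.mem₂ ht₂ hw0ord hwS hlt
    have hexp : p * k = m * t := by
      have h1 : V₂.valuation (x / u' ^ t) =
          V₂.valuation ϖ ^ (p * k) / V₂.valuation ϖ ^ (m * t) := by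
        rw [map_div₀, map_pow, hvu', hx₂, ← pow_mul]
      rw [hw2] at h1
      have h3 : V₂.valuation ϖ ^ (m * t) ≠ 0 := pow_ne_zero _ hγ0
      exact pow_inj_of_lt_one hγ0 hγ1 ((div_eq_one_iff_eq h3).1 h1.symm)
    obtain ⟨t', rfl⟩ := hpt
    have hk' : k = m * t' := by
      have h1 : p * k = p * (m * t') := by rw [hexp]; ring
      exact Nat.eq_of_mul_eq_mul_left (by omega) h1
    refine ⟨u' ^ t', pow_ne_zero _ hu'0, by rw [map_pow, hu'1, one_pow], ?_,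
      by rw [map_pow, hvu', ← pow_mul, hk']⟩
    intro Q hQ
    rw [hord.pow Q hu'0 t', hordu' Q hQ, mul_zero]
  · -- separated sheets: impossible
    exfalso
    obtain ⟨u', v', hu', hv', g, hgS, huv'⟩ := hsplit (p * k)
    obtain ⟨hu'S, hv'S, hu'u, hu'1, hv'2⟩ := hcommon u' v' hu' hv'
    have hu'0 : u' ≠ 0 := by
      intro h
      rw [h, map_zero] at hu'1
      exact zero_ne_one hu'1
    have hvu' : V₂.valuation u' ≤ V₂.valuation ϖ ^ (p * k + 1) := by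
      have h1 := congrArg V₂.valuation huv'
      rw [map_mul, hv'2, mul_one, map_mul, map_pow] at h1
      rw [h1]
      calc V₂.valuation ϖ ^ (p * k + 1) * V₂.valuation g
          ≤ V₂.valuation ϖ ^ (p * k + 1) * 1 := by
            gcongr
            exact (V₂.valuation_le_one_iff _).2 (mem_of_mem_locAt 𝔫 hS.mem₂ ht₂ hgS)
        _ = V₂.valuation ϖ ^ (p * k + 1) := mul_one _
    have hw0 : u' / x ≠ 0 := div_ne_zero hu'0 hx0
    have hw1 : V₁.valuation (u' / x) = 1 := by rw [map_div₀, hu'1, hx₁, div_one]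
    have hw2 : V₂.valuation (u' / x) < 1 := by
      have h3 : V₂.valuation ϖ ^ (p * k) ≠ 0 := pow_ne_zero _ hγ0
      rw [map_div₀, hx₂, div_lt_one₀ (zero_lt_iff.2 h3)]
      calc V₂.valuation u' ≤ V₂.valuation ϖ ^ (p * k + 1) := hvu'
        _ < V₂.valuation ϖ ^ (p * k) :=
          pow_lt_pow_right_of_lt_one₀ (zero_lt_iff.2 hγ0) hγ1 (Nat.lt_succ_self _)
    have hwC : ∀ Q ∈ centredSet K 𝔫, 0 ≤ Q.ord (u' / x) := by
      intro Q hQ
      rw [hord.div Q hu'0 hx0, hxC Q hQ, sub_zero]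
      exact ord_nonneg_of_mem_locAt (K := K) 𝔫 hQ hu'0 hu'S
    have hwS : u' / x ∈ locAt (F := F) 𝔫 :=
      mem_locAt_of_ord (K := K) 𝔫 hπ hS hw0 hw1.le hw2.le hwC
    obtain ⟨tw, htw⟩ := exists_hasOrd hS.mem₁ ht₁ hN.ord hwS hw1
    have hu'ord : HasOrd 𝔫 V₁ u u' 1 := (hasOrd_self (𝔫 := 𝔫) (V₁ := V₁) (u := u)).congr hu'u
    have hu'ord2 : HasOrd 𝔫 V₁ u u' (tw + t) := by
      have h1 := HasOrd.mul hS.mem₁ ht₁ hN.u_one htw hxt
      have h2 : u' / x * x = u' := by field_simp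
      rwa [h2] at h1
    have hsum := HasOrd.unique hS.mem₁ ht₁ hN.u_one hN.u_mem hu'ord hu'ord2
    have ht0 : t = 0 := by
      obtain ⟨t', rfl⟩ := hpt
      rcases Nat.eq_zero_or_pos t' with h | h
      · rw [h, mul_zero]
      · exfalso
        have h1 : 2 ≤ p * t' := le_trans hp (Nat.le_mul_of_pos_right p h)
        omega
    rw [ht0] at hxt
    refine HasOrd.not_lt_one₂ hS.mem₁ ht₁ hS.mem₂ ht₂ hxt hxS ?_
    rw [hx₂]
    exact pow_lt_one₀ zero_le hγ1 (Nat.mul_ne_zero (by omega) hk)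

/-- **The node lemma.**  `𝔫` a crossing point with node coordinates; `x` a unit of `V₁` without zero
or pole centred at `𝔫`, congruent to a `p`-th power modulo `𝔪_{V₁}`, with `v₂(x) = p k`.  Then there
is `y`, a unit of `V₁` without zero or pole centred at `𝔫`, with `v₂(y) = k`. -/
theorem node_sat (hπ : Irreducible π) (hS : Setup R π V₁ V₂)
    (hπ𝔫 : algebraMap O R π ∈ 𝔫) (ht₁ : Through V₁ 𝔫) (ht₂ : Through V₂ 𝔫) {u v : R}
    (hN : NodeData 𝔫 π V₁ V₂ u v) {p : ℕ} (hp : 2 ≤ p) {x χ : F} (hx0 : x ≠ 0)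
    (hx₁ : V₁.valuation x = 1) (hxC : ∀ Q ∈ centredSet K 𝔫, Q.ord x = 0) {k : ℤ}
    (hx₂ : V₂.valuation x = V₂.valuation (algebraMap R F (algebraMap O R π)) ^ ((p : ℤ) * k))
    (hχ : V₁.valuation χ = 1) (hxχ : V₁.valuation (x - χ ^ p) < 1) :
    ∃ y : F, y ≠ 0 ∧ V₁.valuation y = 1 ∧ (∀ Q ∈ centredSet K 𝔫, Q.ord y = 0) ∧
      V₂.valuation y = V₂.valuation (algebraMap R F (algebraMap O R π)) ^ k := by
  have hord := ordMul_place (K := K) (F := F)
  rcases lt_trichotomy k 0 with hk | hk | hk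
  · obtain ⟨m, hm⟩ := Int.eq_ofNat_of_zero_le (neg_nonneg.2 hk.le)
    have hm0 : m ≠ 0 := by
      rintro rfl
      simp at hm
      omega
    have hχ0 : χ ≠ 0 := by
      intro h
      rw [h, map_zero] at hχ
      exact zero_ne_one hχ
    have hx₂' : V₂.valuation x⁻¹ =
        V₂.valuation (algebraMap R F (algebraMap O R π)) ^ (p * m) := by
      rw [map_inv₀, hx₂, ← zpow_neg, ← zpow_natCast]
      congr 1
      push_cast
      rw [← hm]
      ring
    have hxχ' : V₁.valuation (x⁻¹ - χ⁻¹ ^ p) < 1 := by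
      have h1 : x⁻¹ - χ⁻¹ ^ p = -(x - χ ^ p) / (x * χ ^ p) := by
        rw [inv_pow]
        field_simp
        ring
      rw [h1, map_div₀, Valuation.map_neg, map_mul, map_pow, hx₁, hχ, one_pow, mul_one, div_one]
      exact hxχ
    obtain ⟨y, hy0, hy1, hyC, hy2⟩ := node_sat_pos (K := K) 𝔫 hπ hS hπ𝔫 ht₁ ht₂ hN hp
      (inv_ne_zero hx0) (by rw [map_inv₀, hx₁, inv_one])
      (fun Q hQ => by rw [hord.inv Q hx0, hxC Q hQ, neg_zero]) hm0 hx₂'
      (by rw [map_inv₀, hχ, inv_one]) hxχ'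
    refine ⟨y⁻¹, inv_ne_zero hy0, by rw [map_inv₀, hy1, inv_one],
      fun Q hQ => by rw [hord.inv Q hy0, hyC Q hQ, neg_zero], ?_⟩
    rw [map_inv₀, hy2, ← zpow_natCast, ← zpow_neg, ← hm, neg_neg]
  · exact ⟨1, one_ne_zero, map_one _, fun Q _ => hord.one Q, by rw [hk, zpow_zero, map_one]⟩
  · obtain ⟨m, rfl⟩ := Int.eq_ofNat_of_zero_le hk.le
    have hm0 : m ≠ 0 := by
      rintro rfl
      simp at hk
    have hx₂' : V₂.valuation x =
        V₂.valuation (algebraMap R F (algebraMap O R π)) ^ (p * m) := by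
      rw [hx₂, ← zpow_natCast, Nat.cast_mul]
    obtain ⟨y, hy0, hy1, hyC, hy2⟩ := node_sat_pos (K := K) 𝔫 hπ hS hπ𝔫 ht₁ ht₂ hN hp hx0 hx₁
      hxC hm0 hx₂' hχ hxχ
    exact ⟨y, hy0, hy1, hyC, by rw [hy2, zpow_natCast]⟩

end Node

end Abs

end Fermat.Agent.S40.M4.NodeSat
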