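/-
S40 (row 38), [M4], leaf **M4-LGNODE** (helper12), abstract part 2: **(LG) at a crossing point.**

Setting of `S40/M4/NodeSat`: a chart `R` with the two vertical valuation rings `V₁ V₂`
(`TwistRoots.Setup R π V₁ V₂`), a closed point `𝔫` of the special fibre through which both pass, with
node coordinates (`NodeSat.NodeData`).

* `lgAt_node` : `f ≠ 0` a unit of `V₁` and `V₂` with `p ∣ ord_Q f` at the places centred at `𝔫`,
  (Loc-P) on its support there, and the base case at `V₁` only (`f / g₁ ^ p ≡ 1` modulo `𝔪_{V₁}`):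
  then `Skeleton.LGAt K 𝔫 V₁ V₂ (fun Q => Q.ord f / p) f p`, i.e. `f = (unit of R_𝔫) · β ^ p` with `β`
  a unit of `V₁` and `V₂` and `ord_Q β = ord_Q f / p` at the places centred at `𝔫`.
  (`TwistRoots.exists_generator` for the horizontal part, `NodeSat.node_sat` for the vertical
  normalisation on the second branch, `F4Abs.isUnitAt_of_node` for the unit.)
-/
import Mathlib
import Fermat.Agent.S40.M4.NodeSat
import Fermat.Agent.S40.W.F4LG

set_option autoImplicit false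
set_option linter.unusedSectionVars false
set_option linter.style.haveILetI false

namespace Fermat.Agent.S40.M4.LGNode

open Fermat.Agent.P4.TwistRoots Fermat.Agent.P3G.UCrit Fermat.Agent.S33.L.Skeleton
open Fermat.Agent.S40.W.F4Abs Fermat.Agent.S40.W.F4LG Fermat.Agent.S40.M4.NodeSat
open AlgebraicCurve

section Abs

variable {O K F R : Type*}
  [CommRing O] [IsDomain O] [IsDiscreteValuationRing O]
  [Field K] [Algebra O K] [IsFractionRing O K]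
  [Field F] [Algebra K F] [Algebra O F] [IsScalarTower O K F]
  [CommRing R] [IsDomain R] [IsNoetherianRing R] [IsIntegrallyClosed R]
  [Algebra R F] [IsFractionRing R F] [Algebra O R] [IsScalarTower O R F]

/-- **(LG) at a crossing point of the two components.** -/
theorem lgAt_node {π : O} (hπ : Irreducible π) {V₁ V₂ : ValuationSubring F}
    (hS : Setup R π V₁ V₂) (𝔫 : Ideal R) [h𝔫 : 𝔫.IsPrime] (hπ𝔫 : algebraMap O R π ∈ 𝔫)
    (ht₁ : Through V₁ 𝔫) (ht₂ : Through V₂ 𝔫) {u v : R} (hN : NodeData 𝔫 π V₁ V₂ u v)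
    {f : F} (hf0 : f ≠ 0) (hf₁ : V₁.valuation f = 1) (hf₂ : V₂.valuation f = 1)
    {p : ℕ} (hp : 2 ≤ p) (hdiv : ∀ Q ∈ centredSet K 𝔫, (p : ℤ) ∣ Q.ord f)
    (S₀ : Finset (Place K F)) (hS₀ : ∀ Q : Place K F, Q.ord f ≠ 0 → Q ∈ S₀)
    (hLocP : ∀ Q ∈ centredSet K 𝔫, Q.ord f ≠ 0 →
      ∃ b : F, b ≠ 0 ∧ Q.ord b = 1 ∧ ∀ Q' ∈ centredSet K 𝔫, Q' ≠ Q → Q'.ord b = 0)
    {g₁ : F} (hg₁ : g₁ ≠ 0) (hbase : V₁.valuation (f / g₁ ^ p - 1) < 1) :
    LGAt K 𝔫 V₁ V₂ (fun Q => Q.ord f / (p : ℤ)) f p := by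
  have hord := ordMul_place (K := K) (F := F)
  have hp0 : p ≠ 0 := by omega
  have hϖ0 : algebraMap R F (algebraMap O R π) ≠ 0 := by
    have h1 : algebraMap R F (algebraMap O R π) = algebraMap O F π :=
      (IsScalarTower.algebraMap_apply O R F π).symm
    rw [h1, IsScalarTower.algebraMap_apply O K F π]
    exact (map_ne_zero _).2 ((map_ne_zero_iff _ (IsFractionRing.injective O K)).2 hπ.ne_zero)
  have hconst : ∀ Q : Place K F, Q.ord (algebraMap R F (algebraMap O R π)) = 0 := fun Q => by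
    have h1 : algebraMap R F (algebraMap O R π) = algebraMap O F π :=
      (IsScalarTower.algebraMap_apply O R F π).symm
    rw [h1]
    exact ord_algebraMap_eq_zero Q hπ.ne_zero
  set ϖ : F := algebraMap R F (algebraMap O R π) with hϖdef
  have hv₁ϖ : V₁.valuation ϖ ≠ 0 := (map_ne_zero _).2 hϖ0
  have hv₂ϖ : V₂.valuation ϖ ≠ 0 := (map_ne_zero _).2 hϖ0
  -- the horizontal generator, normalised at `V₁`
  obtain ⟨β₀, hβ₀0, hβ₀⟩ := exists_generator (K := K) (h := f) (e := p) S₀ hS₀ 𝔫 hLocP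
  obtain ⟨n₁, hn₁⟩ := hS.disc₁ β₀ hβ₀0
  have hy₀0 : β₀ * ϖ ^ (-n₁) ≠ 0 := mul_ne_zero hβ₀0 (zpow_ne_zero _ hϖ0)
  have hy₀1 : V₁.valuation (β₀ * ϖ ^ (-n₁)) = 1 := by
    rw [map_mul, map_zpow₀, hn₁, ← zpow_add₀ hv₁ϖ, add_neg_cancel, zpow_zero]
  have hy₀C : ∀ Q ∈ centredSet K 𝔫, Q.ord (β₀ * ϖ ^ (-n₁)) = Q.ord f / (p : ℤ) := by
    intro Q hQ
    rw [Q.ord_mul hβ₀0 (zpow_ne_zero _ hϖ0), Q.ord_zpow, hconst Q, mul_zero, add_zero, hβ₀ Q hQ]
  obtain ⟨n₂, hn₂⟩ := hS.disc₂ _ hy₀0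
  set y₀ : F := β₀ * ϖ ^ (-n₁) with hy₀def
  have hy₀p0 : y₀ ^ p ≠ 0 := pow_ne_zero _ hy₀0
  -- `x := f / y₀ ^ p`
  have hx0 : f / y₀ ^ p ≠ 0 := div_ne_zero hf0 hy₀p0
  have hx1 : V₁.valuation (f / y₀ ^ p) = 1 := by
    rw [map_div₀, map_pow, hy₀1, one_pow, div_one, hf₁]
  have hxC : ∀ Q ∈ centredSet K 𝔫, Q.ord (f / y₀ ^ p) = 0 := by
    intro Q hQ
    rw [hord.div Q hf0 hy₀p0, hord.pow Q hy₀0 p, hy₀C Q hQ, Int.mul_ediv_cancel' (hdiv Q hQ),
      sub_self]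
  have hx2 : V₂.valuation (f / y₀ ^ p) = V₂.valuation ϖ ^ ((p : ℤ) * (-n₂)) := by
    rw [map_div₀, hf₂, map_pow, hn₂, one_div, ← zpow_natCast, ← zpow_mul, ← zpow_neg]
    congr 1
    ring
  -- the base case
  have hfg1 : V₁.valuation (f / g₁ ^ p) = 1 := by
    have h1 := valuation_add_eq_one_of_lt hbase (map_one V₁.valuation)
    rwa [sub_add_cancel] at h1
  have hg₁1 : V₁.valuation g₁ = 1 := by
    rw [map_div₀, hf₁, map_pow, one_div, inv_eq_one] at hfg1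
    rcases lt_trichotomy (V₁.valuation g₁) 1 with h | h | h
    · exact absurd hfg1 (ne_of_lt (pow_lt_one₀ zero_le h hp0))
    · exact h
    · exact absurd hfg1 (ne_of_gt (one_lt_pow₀ h hp0))
  have hχ : V₁.valuation (g₁ / y₀) = 1 := by rw [map_div₀, hg₁1, hy₀1, div_one]
  have hxχ : V₁.valuation (f / y₀ ^ p - (g₁ / y₀) ^ p) < 1 := by
    have h1 : f / y₀ ^ p - (g₁ / y₀) ^ p = (f / g₁ ^ p - 1) * (g₁ ^ p / y₀ ^ p) := by
      rw [div_pow]
      field_simp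
    rw [h1]
    refine val_mul_lt_one_left hbase (le_of_eq ?_)
    rw [map_div₀, map_pow, map_pow, hg₁1, hy₀1, one_pow, div_one]
  -- the vertical normalisation on the second branch
  obtain ⟨y, hy0, hy1, hyC, hy2⟩ := node_sat (K := K) 𝔫 hπ hS hπ𝔫 ht₁ ht₂ hN hp hx0 hx1 hxC hx2
    hχ hxχ
  have hβ0 : y₀ * y ≠ 0 := mul_ne_zero hy₀0 hy0
  have hβp0 : (y₀ * y) ^ p ≠ 0 := pow_ne_zero _ hβ0
  have hβ1 : V₁.valuation (y₀ * y) = 1 := by rw [map_mul, hy₀1, hy1, mul_one]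
  have hβ2 : V₂.valuation (y₀ * y) = 1 := by
    rw [map_mul, hn₂, hy2, ← zpow_add₀ hv₂ϖ, add_neg_cancel, zpow_zero]
  have hβC : ∀ Q ∈ centredSet K 𝔫, (p : ℤ) * Q.ord (y₀ * y) = Q.ord f := by
    intro Q hQ
    rw [Q.ord_mul hy₀0 hy0, hyC Q hQ, add_zero, hy₀C Q hQ, Int.mul_ediv_cancel' (hdiv Q hQ)]
  refine lgAt_of_unit_mul_pow (K := K) hp0 ⟨y₀ * y, f / (y₀ * y) ^ p, hβ0, hβ1, hβ2, hβC, ?_, ?_⟩
  · refine isUnitAt_of_node (K := K) hπ hS 𝔫 (div_ne_zero hf0 hβp0) ?_ ?_ ?_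
    · rw [map_div₀, map_pow, hβ1, one_pow, div_one, hf₁]
    · rw [map_div₀, map_pow, hβ2, one_pow, div_one, hf₂]
    · intro Q hQ
      rw [hord.div Q hf0 hβp0, hord.pow Q hβ0 p, hβC Q hQ, sub_self]
  · field_simp

end Abs

end Fermat.Agent.S40.M4.LGNode
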