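/-
S40 (row 38), [M4], leaf **M4-LGNODE** (helper12), level part: **(LG) at the crossing points of the
special fibre, both charts, at a level / at a good level** = the hypothesis `LGNodes` of
`S40/M4/LGLevel` (helper23).

* `nodeData_of_crossingData` : the node coordinates `NodeSat.NodeData` at a crossing point of a chart
  carrying `Crossing.CrossingData` (`crossingData_fin/inf`), with (V) `ker θ₁ ⊓ ker θ₂ = (ϖ)`, the
  identification of the kernels with the centres of `V₁ V₂` and rational closed points;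
* `lgAt_fin₁₂`, `lgAt_inf₁₂` : `Skeleton.LGAt` at a crossing point of the finite chart / the chart at
  infinity of level `N ℓ`, at a level `(K, O)` with algebraically closed residue field: `f` a unit of
  `V₁ = gaussVS` and `V₂ = S₂.V`, `p ∣ ord_Q f` at the places centred at `𝔫` with `K`-rational support
  there, base case at `V₁` only;
* `lgNodes_good` : **`LGLevel.LGNodes M p A K S₂ ϖ fK p` at a good level**, from `fK ≠ 0`,
  `p ∣ div fK`, bi-unit, rational zeros and poles and the base case at `V₁`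
  (`∃ g₁ ≠ 0, CongrMod gaussVS ϖ 1 (fK / g₁ ^ p) 1`).  No thickness, no exact node form, all `p`.
-/
import Mathlib
import Fermat.Agent.S40.M4.LGNode
import Fermat.Agent.S40.M4.LGLevel
import Fermat.Agent.P3G.ResidueRational

set_option autoImplicit false
set_option linter.unusedSectionVars false
set_option linter.dupNamespace false
set_option linter.style.haveILetI false

open ModularCurve AlgebraicCurve IntermediateField

noncomputable section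

namespace Fermat.Agent.S40.M4.LGNodeLevel

open Fermat.Agent.P4.TwistRoots Fermat.Agent.P3G.UCrit Fermat.Agent.S33.L.Skeleton
open Fermat.Agent.S40.M4.NodeSat Fermat.Agent.S40.M4.LGNode

/-! ### Node coordinates from the crossing data -/

section Abs

open Fermat.Agent.P3G.Crossing

variable {O K F R : Type*}
  [CommRing O] [IsDomain O] [IsDiscreteValuationRing O]
  [Field K] [Algebra O K] [IsFractionRing O K]
  [Field F] [Algebra K F] [Algebra O F] [IsScalarTower O K F]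
  [CommRing R] [IsDomain R] [IsNoetherianRing R] [IsIntegrallyClosed R]
  [Algebra R F] [IsFractionRing R F] [Algebra O R] [IsScalarTower O R F]

/-- **Node coordinates at a crossing point of a chart carrying `Crossing.CrossingData`.** -/
theorem nodeData_of_crossingData {RM Rb : Type*} [CommRing RM] [CommRing Rb] [IsDedekindDomain Rb]
    (hfield : ¬ IsField Rb) {ℓ : ℕ} {α β : RM → R} {θ : RM →+* Rb} {θ₁ θ₂ : R →+* Rb}
    {ψ : Rb ≃+* Rb} (D : CrossingData ℓ α β θ θ₁ θ₂ ψ) {V₁ V₂ : ValuationSubring F}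
    (hV₁ : ∀ r : R, algebraMap R F r ∈ V₁) (hV₂ : ∀ r : R, algebraMap R F r ∈ V₂)
    (hker₁ : ∀ r : R, θ₁ r = 0 ↔ algebraMap R F r ∈ V₁.nonunits)
    (hker₂ : ∀ r : R, θ₂ r = 0 ↔ algebraMap R F r ∈ V₂.nonunits) {π : O}
    (hV : RingHom.ker θ₁ ⊓ RingHom.ker θ₂ = Ideal.span {algebraMap O R π})
    (𝔫 : Ideal R) [hmax : 𝔫.IsMaximal] (ht₁ : Through V₁ 𝔫) (ht₂ : Through V₂ 𝔫)
    (hres : ∀ r : R, ∃ a : O, r - algebraMap O R a ∈ 𝔫) :
    ∃ u v : R, NodeData 𝔫 π V₁ V₂ u v := by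
  have hk1 : RingHom.ker θ₁ ≤ 𝔫 := fun r hr => ht₁ r ((hker₁ r).1 hr)
  have hk2 : RingHom.ker θ₂ ≤ 𝔫 := fun r hr => ht₂ r ((hker₂ r).1 hr)
  have hbot : 𝔫.map θ₁ ≠ ⊥ := by
    haveI := isMaximal_map θ₁ D.surj₁ 𝔫 hk1
    exact Ring.ne_bot_of_isMaximal_of_not_isField inferInstance hfield
  obtain ⟨z₁, -, z₂, -, z₁', -, z₂', -, u, v, -, -, hu𝔫, -, hu2, hv1, hu1, hv2, hu1sq, -, -,
      hgen⟩ := exists_crossing_coordinates D 𝔫 hk1 hk2 ⊤
    (fun y => by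
      obtain ⟨z, hz⟩ := D.surj y
      exact ⟨z, trivial, hz⟩) hbot hV.le
  refine ⟨u, v, ⟨hu𝔫, ?_, (hker₂ u).1 hu2, (hker₁ v).1 hv1, ?_, hgen, hres, ?_⟩⟩
  · exact le_antisymm ((V₁.valuation_le_one_iff _).2 (hV₁ u))
      (not_lt.1 fun h => hu1 (RingHom.mem_ker.2 ((hker₁ u).2 ((V₁.mem_nonunits_iff).2 h))))
  · exact le_antisymm ((V₂.valuation_le_one_iff _).2 (hV₂ v))
      (not_lt.1 fun h => hv2 (RingHom.mem_ker.2 ((hker₂ v).2 ((V₂.mem_nonunits_iff).2 h))))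
  · exact ordClause_of_dedekind θ₁ D.surj₁ hker₁ 𝔫 hk1 hbot hu𝔫 hu1sq

end Abs

/-! ### Both charts of level `N ℓ` at a level `(K, O)` -/

section Level

open Fermat.Agent.S28.Gauss Fermat.Agent.N4.Setting Fermat.Agent.N4.FibreEmbedding
open Fermat.Agent.N4.Chart
open Fermat.Agent.N4F.E.DegreeLevelRaise Fermat.Agent.N4F.E.GaussDVR Polynomial
open Fermat.Agent.N4F.E IsLocalRing Fermat.Agent.P3G.RbarFin Fermat.Agent.P3G.TwoComponents
open Fermat.Agent.P3G.RbarInf Fermat.Agent.P3G.TwoComponentsInf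
open Fermat.Agent.P3G.TwoComponentsFinal Fermat.Agent.P3G.TwoComponentsInfFinal
open Fermat.Agent.P3G Fermat.Agent.P4

variable (K : Type) [Field K] [CharZero K] (N : ℕ) [NeZero N] (ℓ : ℕ) [Fact ℓ.Prime]
  (O : Subring K) [IsDiscreteValuationRing ↥O] [IsFractionRing ↥O K]
  [CharP (IsLocalRing.ResidueField ↥O) ℓ] [PerfectRing (IsLocalRing.ResidueField ↥O) ℓ]
  [IsAlgClosed (IsLocalRing.ResidueField ↥O)]

set_option synthInstance.maxHeartbeats 400000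

variable (hN : IsUnit ((N : ℕ) : ↥O)) (ι : K →+* ℂ) (hℓN : ¬ ℓ ∣ N)
  (hprime : (fibreIdeal K N O (Rfin K N O)).IsPrime)
  (hsmooth : IsDedekindDomain (↥(Rfin K N O) ⧸ fibreIdeal K N O (Rfin K N O)))
  (hprimeInf : (fibreIdeal K N O (Rinf K N O)).IsPrime)
  (hsmoothInf : IsDedekindDomain (↥(Rinf K N O) ⧸ fibreIdeal K N O (Rinf K N O)))
  (hA2 : ∀ x : ↥(gaussSubalgebra K N O),
    theta K N O x ∈ modularFunctionFieldFullC (IsLocalRing.ResidueField ↥O) N)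
  (S₂ : FibreTwo.SecondVal K N ℓ O)
  {ϖ : ↥O} (hϖ : Irreducible ϖ)

include hN ι hℓN hprime hsmooth hA2 hϖ in
/-- **(LG) at a crossing point of the finite chart of level `N ℓ`.** -/
theorem lgAt_fin₁₂ (𝔫 : Ideal ↥(Rfin K (N * ℓ) O)) [h𝔫 : 𝔫.IsMaximal]
    (hϖ𝔫 : algebraMap ↥O ↥(Rfin K (N * ℓ) O) ϖ ∈ 𝔫)
    (ht₁ : Through (gaussVS K (N * ℓ) O) 𝔫) (ht₂ : Through S₂.V 𝔫)
    {f : FF K (N * ℓ)} (hf0 : f ≠ 0) (hf₁ : (gaussVS K (N * ℓ) O).valuation f = 1)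
    (hf₂ : S₂.V.valuation f = 1) {p : ℕ} (hp : 2 ≤ p)
    (hdiv : ∀ Q ∈ centredSet (F := FF K (N * ℓ)) K 𝔫, (p : ℤ) ∣ Q.ord f)
    (S₀ : Finset (Place K (FF K (N * ℓ))))
    (hS₀ : ∀ Q : Place K (FF K (N * ℓ)), Q.ord f ≠ 0 → Q ∈ S₀)
    (hrat : ∀ Q ∈ centredSet (F := FF K (N * ℓ)) K 𝔫, Q.ord f ≠ 0 →
      Function.Bijective (algebraMap K Q.ResidueField))
    {g₁ : FF K (N * ℓ)} (hg₁ : g₁ ≠ 0)
    (hbase : (gaussVS K (N * ℓ) O).valuation (f / g₁ ^ p - 1) < 1) :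
    LGAt K 𝔫 (gaussVS K (N * ℓ) O) S₂.V (fun Q => Q.ord f / (p : ℤ)) f p := by
  haveI := Fermat.Agent.N4.ModPolySetting.finiteDimensional_FF K (N * ℓ)
  have hj := Fermat.Agent.N4.FFAlgebraic.transcendental_jF K (N * ℓ)
  haveI : IsNoetherianRing ↥(Rfin K (N * ℓ) O) :=
    Fermat.Agent.N4.IntClosure.isNoetherianRing_chartAlg (K := K) (jF K (N * ℓ)) hj
  haveI : IsFractionRing ↥(Rfin K (N * ℓ) O) (FF K (N * ℓ)) :=
    Fermat.Agent.N4.Cover.Main.isFractionRing_chartAlg (O := ↥O) (K₀ := K) (jF K (N * ℓ)) hj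
  haveI : IsIntegrallyClosed ↥(Rfin K (N * ℓ) O) :=
    Fermat.Agent.N4.Cover.Main.isIntegrallyClosed_chartAlg (O := ↥O) (K₀ := K) (jF K (N * ℓ)) hj
  haveI : IsDedekindDomain ↥(RbarFin K N O) := isDedekindDomain_RbarFin K N O hprime hsmooth
  haveI : 𝔫.IsPrime := h𝔫.isPrime
  have hS := BranchNormalLevel.setup_fin K N ℓ O hN ι hℓN hprime hsmooth hA2 S₂ hϖ
  have hLocP := locPRat_fin K N ℓ O hN ι hℓN hprime hsmooth hA2 hϖ
  have hD := crossingData_fin K N ℓ O hN ι hℓN hprime hsmooth hA2 S₂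
  have hker₁ := BranchNormalLevel.res_thetaFin_eq_zero_iff K N ℓ O hN ι hℓN hprime hsmooth hA2 S₂
  have hker₂ := BranchNormalLevel.res_theta2S_eq_zero_iff K N ℓ O hN hprime hsmooth hA2 S₂
  have hres : ∀ r : ↥(Rfin K (N * ℓ) O), ∃ a : ↥O,
      r - algebraMap ↥O ↥(Rfin K (N * ℓ) O) a ∈ 𝔫 :=
    Fermat.Agent.P3G.ResidueRational.exists_sub_algebraMap_mem_chart_of_irreducible hϖ
      (jF K (N * ℓ)) 𝔫 hϖ𝔫
  obtain ⟨u, v, hNd⟩ := nodeData_of_crossingData (not_isField_RbarFin K N O hprime) hD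
    hS.mem₁ hS.mem₂ hker₁ hker₂
    (ker_inf_ker_eq_fin K N ℓ O hN ι hℓN hprime hsmooth hA2 S₂ hϖ) 𝔫 ht₁ ht₂ hres
  exact lgAt_node (K := K) hϖ hS 𝔫 hϖ𝔫 ht₁ ht₂ hNd hf0 hf₁ hf₂ hp hdiv S₀ hS₀
    (fun Q hQ hQf => hLocP 𝔫 h𝔫 hϖ𝔫 Q hQ (hrat Q hQ hQf)) hg₁ hbase

include hN ι hℓN hprime hprimeInf hsmoothInf hA2 hϖ in
/-- **(LG) at a crossing point of the chart at infinity of level `N ℓ`.** -/
theorem lgAt_inf₁₂ (𝔫 : Ideal ↥(Rinf K (N * ℓ) O)) [h𝔫 : 𝔫.IsMaximal]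
    (hϖ𝔫 : algebraMap ↥O ↥(Rinf K (N * ℓ) O) ϖ ∈ 𝔫)
    (ht₁ : Through (gaussVS K (N * ℓ) O) 𝔫) (ht₂ : Through S₂.V 𝔫)
    {f : FF K (N * ℓ)} (hf0 : f ≠ 0) (hf₁ : (gaussVS K (N * ℓ) O).valuation f = 1)
    (hf₂ : S₂.V.valuation f = 1) {p : ℕ} (hp : 2 ≤ p)
    (hdiv : ∀ Q ∈ centredSet (F := FF K (N * ℓ)) K 𝔫, (p : ℤ) ∣ Q.ord f)
    (S₀ : Finset (Place K (FF K (N * ℓ))))
    (hS₀ : ∀ Q : Place K (FF K (N * ℓ)), Q.ord f ≠ 0 → Q ∈ S₀)
    (hrat : ∀ Q ∈ centredSet (F := FF K (N * ℓ)) K 𝔫, Q.ord f ≠ 0 →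
      Function.Bijective (algebraMap K Q.ResidueField))
    {g₁ : FF K (N * ℓ)} (hg₁ : g₁ ≠ 0)
    (hbase : (gaussVS K (N * ℓ) O).valuation (f / g₁ ^ p - 1) < 1) :
    LGAt K 𝔫 (gaussVS K (N * ℓ) O) S₂.V (fun Q => Q.ord f / (p : ℤ)) f p := by
  haveI := Fermat.Agent.N4.ModPolySetting.finiteDimensional_FF K (N * ℓ)
  have hj := Fermat.Agent.N4.FFAlgebraic.transcendental_jF K (N * ℓ)
  have hjinv : Transcendental K (jF K (N * ℓ))⁻¹ := fun h => hj (by simpa using h.inv)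
  haveI : FiniteDimensional K⟮(jF K (N * ℓ))⁻¹⟯ (FF K (N * ℓ)) := by
    rw [Fermat.Agent.N4.Cover.Main.adjoin_inv_eq]; infer_instance
  haveI : IsNoetherianRing ↥(Rinf K (N * ℓ) O) :=
    Fermat.Agent.N4.IntClosure.isNoetherianRing_chartAlg (K := K) (jF K (N * ℓ))⁻¹ hjinv
  haveI : IsFractionRing ↥(Rinf K (N * ℓ) O) (FF K (N * ℓ)) :=
    Fermat.Agent.N4.Cover.Main.isFractionRing_chartAlg (O := ↥O) (K₀ := K) (jF K (N * ℓ))⁻¹ hjinv
  haveI : IsIntegrallyClosed ↥(Rinf K (N * ℓ) O) :=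
    Fermat.Agent.N4.Cover.Main.isIntegrallyClosed_chartAlg (O := ↥O) (K₀ := K)
      (jF K (N * ℓ))⁻¹ hjinv
  haveI : IsDedekindDomain ↥(RbarInf K N O) :=
    isDedekindDomain_RbarInf K N O hprimeInf hsmoothInf
  haveI : 𝔫.IsPrime := h𝔫.isPrime
  have hS := BranchNormalLevelInf.setup_inf K N ℓ O hN ι hℓN hprime hprimeInf hsmoothInf hA2 S₂ hϖ
  have hLocP := locPRat_inf K N ℓ O hN ι hℓN hprime hprimeInf hsmoothInf hA2 hϖ
  have hD := crossingData_inf K N ℓ O hN ι hℓN hprime hprimeInf hsmoothInf hA2 S₂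
  have hker₁ :=
    BranchNormalLevelInf.res_thetaInf_eq_zero_iff K N ℓ O hN ι hℓN hprimeInf hsmoothInf hA2 S₂
  have hker₂ :=
    BranchNormalLevelInf.res_theta2InfS_eq_zero_iff K N ℓ O hN hprimeInf hsmoothInf hA2 S₂
  have hres : ∀ r : ↥(Rinf K (N * ℓ) O), ∃ a : ↥O,
      r - algebraMap ↥O ↥(Rinf K (N * ℓ) O) a ∈ 𝔫 :=
    Fermat.Agent.P3G.ResidueRational.exists_sub_algebraMap_mem_chart_of_irreducible hϖ
      (jF K (N * ℓ))⁻¹ 𝔫 hϖ𝔫
  obtain ⟨u, v, hNd⟩ := nodeData_of_crossingData (not_isField_RbarInf K N O hprimeInf) hD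
    hS.mem₁ hS.mem₂ hker₁ hker₂
    (ker_inf_ker_eq_inf K N ℓ O hN ι hℓN hprime hprimeInf hsmoothInf hA2 S₂ hϖ) 𝔫 ht₁ ht₂ hres
  exact lgAt_node (K := K) hϖ hS 𝔫 hϖ𝔫 ht₁ ht₂ hNd hf0 hf₁ hf₂ hp hdiv S₀ hS₀
    (fun Q hQ hQf => hLocP 𝔫 h𝔫 hϖ𝔫 Q hQ (hrat Q hQ hQf)) hg₁ hbase

end Level

/-! ### Both charts at a good level -/

section Good

open Fermat.Agent.N4.Setting Fermat.Agent.N4.Chart Fermat.Agent.N4.S18Glue Fermat.Agent.N4.BigDVR
  Fermat.Agent.P3G.Assembly.StepOfLevel Fermat.Agent.P3G.Assembly.LevelStep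
  Fermat.Agent.N4F.C Fermat.Agent.N4F.C.Levels Fermat.Agent.N4F.C.Galois
  Fermat.Agent.N4F.E.GaussDVR Fermat.Agent.S33.L.Contracts
  Fermat.Agent.S40.M4.Descent Fermat.Agent.S40.M4.LGLevel

local notation "Qbar" => AlgebraicClosure ℚ

set_option maxHeartbeats 1600000 in
set_option synthInstance.maxHeartbeats 400000 in
/-- **(LG) at the crossing points, both charts, at a good level** = `LGLevel.LGNodes`. -/
theorem lgNodes_good (M p : ℕ) [NeZero M] [Fact p.Prime] (hpM : ¬ p ∣ M)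
    (A : ValuationSubring Qbar) (hA : A.LiesOverPrime p)
    (K : IntermediateField ℚ Qbar) (hK : IsGoodLevel A p K)
    [IsDiscreteValuationRing ↥(baseRing A K)]
    (S₂ : Fermat.Agent.P3G.FibreTwo.SecondVal (Lvl K) M p (baseRing A K))
    (ϖ : ↥(baseRing A K)) (hϖ : Irreducible ϖ)
    {fK : FF (Lvl K) (M * p)} (hfK : fK ≠ 0)
    (hdiv : ∀ Q : Place (Lvl K) (FF (Lvl K) (M * p)), (p : ℤ) ∣ Q.ord fK)
    (hv₁ : (gaussVS (Lvl K) (M * p) (baseRing A K)).valuation fK = 1)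
    (hv₂ : S₂.V.valuation fK = 1)
    (hrat : ∀ Q : Place (Lvl K) (FF (Lvl K) (M * p)), Q.ord fK ≠ 0 →
      Function.Bijective (algebraMap (Lvl K) Q.ResidueField))
    (hb₁ : ∃ g₁ : FF (Lvl K) (M * p), g₁ ≠ 0 ∧
      CongrMod (gaussVS (Lvl K) (M * p) (baseRing A K)) ϖ 1 (fK / g₁ ^ p) 1) :
    LGNodes M p A K S₂ ϖ fK p := by
  have hq : p.Prime := Fact.out
  haveI : IsAlgClosed (IsLocalRing.ResidueField ↥(baseRing A K)) := hK.algClosed
  have hGB : GoodBase (Lvl K) M (baseRing A K) p := ⟨hq, hpM, inferInstance, hK.not_unit⟩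
  haveI : CharP (IsLocalRing.ResidueField ↥(baseRing A K)) p :=
    Fermat.Agent.N4F.E.GaussResidue.charP_residueField (Lvl K) M (baseRing A K) hGB
  haveI : PerfectRing (IsLocalRing.ResidueField ↥(baseRing A K)) p := inferInstance
  have hstar := LevelStatements.starStatement_lvl hq hA K hGB hK.roots
  have hsmooth := LevelStatements.smoothStatement_lvl hq hA hpM K hGB hK.roots
  have hprime := hstar.1.isPrime
  have hprimeInf := hstar.2.isPrime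
  have hred : PGI.RedMem (Lvl K) M (baseRing A K) := fun s hs =>
    ChartReduction.red_mem_full (Lvl K) M (baseRing A K) hGB hstar s hs
  have hA2 := Fermat.Agent.N4F.E.NormReduction.theta_mem_full (Lvl K) M (baseRing A K) hred
  have hN : IsUnit ((M : ℕ) : ↥(baseRing A K)) :=
    Fermat.Agent.P3G.GammaUnits.isUnit_natCast_baseRing K hq hA hpM
  obtain ⟨S₀, hS₀⟩ := Fermat.Agent.P3G.Glue.LevelDict.exists_finset_ord_ne_zero (M * p) K fK hfK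
  obtain ⟨g₁, hg₁, d, hd, hde⟩ := hb₁
  -- the base case in valuation form
  have hbase : (gaussVS (Lvl K) (M * p) (baseRing A K)).valuation (fK / g₁ ^ p - 1) < 1 := by
    have hS := Fermat.Agent.P4.BranchNormalLevel.setup_fin (Lvl K) M p (baseRing A K) hN
      (Fermat.Agent.P3G.GammaV2.lvlToComplex K) hpM hprime hsmooth.1 hA2 S₂ hϖ
    have h1 := (ValuationSubring.mem_nonunits_iff _).1 hS.pi₁
    rw [← IsScalarTower.algebraMap_apply] at h1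
    rw [hde, pow_one, map_mul]
    exact mul_lt_one_of_lt_of_le h1 ((ValuationSubring.valuation_le_one_iff _ _).2 hd)
  refine ⟨fun 𝔫 h𝔫 hϖ𝔫 ht₁ ht₂ _ => ?_, fun 𝔫 h𝔫 hϖ𝔫 ht₁ ht₂ _ => ?_⟩
  · haveI := h𝔫
    exact lgAt_fin₁₂ (Lvl K) M p (baseRing A K) hN (Fermat.Agent.P3G.GammaV2.lvlToComplex K)
      hpM hprime hsmooth.1 hA2 S₂ hϖ 𝔫 hϖ𝔫 ht₁ ht₂ hfK hv₁ hv₂ hq.two_le (fun Q _ => hdiv Q) S₀ hS₀
      (fun Q _ => hrat Q) hg₁ hbase
  · haveI := h𝔫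
    exact lgAt_inf₁₂ (Lvl K) M p (baseRing A K) hN (Fermat.Agent.P3G.GammaV2.lvlToComplex K)
      hpM hprime hprimeInf hsmooth.2 hA2 S₂ hϖ 𝔫 hϖ𝔫 ht₁ ht₂ hfK hv₁ hv₂ hq.two_le
      (fun Q _ => hdiv Q) S₀ hS₀ (fun Q _ => hrat Q) hg₁ hbase

end Good

end Fermat.Agent.S40.M4.LGNodeLevel
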