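/-
S40 (`moonshots` row 62 §M4 / row 63 T4′), leaf (M4-B), one-sided form (helper18): **the base case at
ONE vertical valuation suffices.**

`S40/M4/BOutBase.bOut_of_base` asks for the base case (`h` is an `e`-th power modulo `ϖ`) at both
vertical valuation rings `V₁ = gaussVS`, `V₂ = S₂.V`.  Since the norms of `h` along `α` and `β` are
exact `e`-th powers, one half-step of the ping-pong (`S33/L/PingPongAbs.step`) transports the base case
from one side to the other (even to order `ϖ ^ 2`): from `h / g₁ ^ e ≡ 1 (mod ϖ V₁)` and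
`N_β h = b' ^ e`, `g₂ := g₁ · β (b' / N_β g₁)` satisfies `h / g₂ ^ e ≡ 1 (mod ϖ ^ 2 V₂)` (NRβ);
symmetrically from `V₂` to `V₁` with `N_α`.

So in S40 the predicate `LamZ` may be the vanishing of `Λ` on ONE component only.
-/
import Mathlib
import Fermat.Agent.S40.M4.BOutBase

set_option autoImplicit false
set_option linter.unusedSectionVars false
set_option linter.dupNamespace false
set_option linter.style.haveILetI false
set_option linter.style.longLine false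

open ModularCurve AlgebraicCurve IntermediateField

noncomputable section

namespace Fermat.Agent.S40.M4.BOutOneSided

open Fermat.Agent.N4.Setting Fermat.Agent.N4.BigDVR
  Fermat.Agent.P3G.Assembly.LevelStep
  Fermat.Agent.P3G.Gamma Fermat.Agent.P3G.GammaAut
  Fermat.Agent.N4F.C Fermat.Agent.N4F.C.Levels Fermat.Agent.N4F.C.Galois
  Fermat.Agent.N4F.E.GaussDVR Fermat.Agent.N4F.E.DegreeLevelRaise
  Fermat.Agent.P4.FrobLevelStep Fermat.Agent.P4.TwoValApprox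
  Fermat.Agent.S33.L.Skeleton Fermat.Agent.N4.FibreEmbedding
  Fermat.Agent.S28.Gauss

local notation "Qbar" => AlgebraicClosure ℚ
local notation "Γ" => (AlgebraicClosure ℚ ≃ₐ[ℚ] AlgebraicClosure ℚ)

variable (M q : ℕ) [NeZero M] [Fact q.Prime] (hqM : ¬ q ∣ M)
  (A : ValuationSubring Qbar) (hA : A.LiesOverPrime q)
  (K : IntermediateField ℚ Qbar) (hK : IsGoodLevel A q K)
  [IsDiscreteValuationRing ↥(baseRing A K)] [IsFractionRing ↥(baseRing A K) (Lvl K)]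
  (S₂ : Fermat.Agent.P3G.FibreTwo.SecondVal (Lvl K) M q (baseRing A K))
  (ϖ : ↥(baseRing A K)) (hϖ : Irreducible ϖ)

include hqM hA hK hϖ in
/-- **From `V₁` to `V₂`**: the base case at `V₁ = gaussVS` and `N_β h` an `e`-th power give the base
case at `V₂ = S₂.V` (even modulo `ϖ ^ 2`). -/
theorem base₂_of_base₁ {e : ℕ} (he : e ≠ 0) {h : FF (Lvl K) (M * q)} (hh : h ≠ 0)
    (hnβ : ∃ b' : FF (Lvl K) M, normBetaK K M q h = b' ^ e)
    (hb₁ : ∃ g₁ : FF (Lvl K) (M * q), g₁ ≠ 0 ∧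
      CongrMod (gaussVS (Lvl K) (M * q) (baseRing A K)) ϖ 1 (h / g₁ ^ e) 1) :
    ∃ g₂ : FF (Lvl K) (M * q), g₂ ≠ 0 ∧ CongrMod S₂.V ϖ 2 (h / g₂ ^ e) 1 := by
  have hq : q.Prime := Fact.out
  haveI : NeZero q := ⟨hq.ne_zero⟩
  obtain ⟨b', hb'⟩ := hnβ
  obtain ⟨g₁, hg₁, hc₁⟩ := hb₁
  exact Fermat.Agent.S33.L.PingPongAbs.step (V := S₂.V)
    (V' := gaussVS (Lvl K) (M * q) (baseRing A K))
    (ι := (betaF (Lvl K) M q : FF (Lvl K) M →+* FF (Lvl K) (M * q)))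
    (Nι := normBetaK K M q) ϖ e
    (Fermat.Agent.P3G.GammaV2.unif_mem_nonunits_secondVal K M q S₂ hϖ)
    (Fermat.Agent.S33.L.BOutGood.nrBeta_level M q hqM A hA K hK S₂ ϖ hϖ) he hh hb' le_rfl hg₁ hc₁

include hqM hA hK hϖ in
/-- **From `V₂` to `V₁`**: the base case at `V₂ = S₂.V` and `N_α h` an `e`-th power give the base case
at `V₁ = gaussVS` (even modulo `ϖ ^ 2`). -/
theorem base₁_of_base₂ {e : ℕ} (he : e ≠ 0) {h : FF (Lvl K) (M * q)} (hh : h ≠ 0)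
    (hnα : ∃ a' : FF (Lvl K) M, normAlphaK K M q h = a' ^ e)
    (hb₂ : ∃ g₂ : FF (Lvl K) (M * q), g₂ ≠ 0 ∧ CongrMod S₂.V ϖ 1 (h / g₂ ^ e) 1) :
    ∃ g₁ : FF (Lvl K) (M * q), g₁ ≠ 0 ∧
      CongrMod (gaussVS (Lvl K) (M * q) (baseRing A K)) ϖ 2 (h / g₁ ^ e) 1 := by
  have hq : q.Prime := Fact.out
  haveI : NeZero q := ⟨hq.ne_zero⟩
  obtain ⟨a', ha'⟩ := hnα
  obtain ⟨g₂, hg₂, hc₂⟩ := hb₂
  exact Fermat.Agent.S33.L.PingPongAbs.step (V := gaussVS (Lvl K) (M * q) (baseRing A K))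
    (V' := S₂.V)
    (ι := (alphaF (Lvl K) M q : FF (Lvl K) M →+* FF (Lvl K) (M * q)))
    (Nι := normAlphaK K M q) ϖ e
    (Fermat.Agent.P3G.GammaVert.unif_mem_nonunits_gaussVS K A (M * q) hϖ)
    (Fermat.Agent.S33.L.BOutGood.nrAlpha_level M q hqM A hA K hK S₂ ϖ hϖ) he hh ha' le_rfl hg₂ hc₂

include hqM hA hK hϖ in
/-- **(B-out) at a good level from the base case at `V₁ = gaussVS` only.** -/
theorem bOut_of_base₁ {e : ℕ} (he : e ≠ 0) {h : FF (Lvl K) (M * q)} (hh : h ≠ 0)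
    (hv₁ : (gaussVS (Lvl K) (M * q) (baseRing A K)).valuation h = 1)
    (hv₂ : S₂.V.valuation h = 1)
    (hnα : ∃ a' : FF (Lvl K) M, normAlphaK K M q h = a' ^ e)
    (hnβ : ∃ b' : FF (Lvl K) M, normBetaK K M q h = b' ^ e)
    (hb₁ : ∃ g₁ : FF (Lvl K) (M * q), g₁ ≠ 0 ∧
      CongrMod (gaussVS (Lvl K) (M * q) (baseRing A K)) ϖ 1 (h / g₁ ^ e) 1) :
    BOut (gaussVS (Lvl K) (M * q) (baseRing A K)) S₂.V ϖ h e := by
  obtain ⟨g₂, hg₂, hc₂⟩ := base₂_of_base₁ M q hqM A hA K hK S₂ ϖ hϖ he hh hnβ hb₁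
  exact Fermat.Agent.S40.M4.BOutBase.bOut_of_base M q hqM A hA K hK S₂ ϖ hϖ he hh hv₁ hv₂ hnα hnβ hb₁
    ⟨g₂, hg₂, hc₂.mono (by norm_num)
      (S₂.V.nonunits_subset (Fermat.Agent.P3G.GammaV2.unif_mem_nonunits_secondVal K M q S₂ hϖ))⟩

include hqM hA hK hϖ in
/-- **(B-out) at a good level from the base case at `V₂ = S₂.V` only.** -/
theorem bOut_of_base₂ {e : ℕ} (he : e ≠ 0) {h : FF (Lvl K) (M * q)} (hh : h ≠ 0)
    (hv₁ : (gaussVS (Lvl K) (M * q) (baseRing A K)).valuation h = 1)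
    (hv₂ : S₂.V.valuation h = 1)
    (hnα : ∃ a' : FF (Lvl K) M, normAlphaK K M q h = a' ^ e)
    (hnβ : ∃ b' : FF (Lvl K) M, normBetaK K M q h = b' ^ e)
    (hb₂ : ∃ g₂ : FF (Lvl K) (M * q), g₂ ≠ 0 ∧ CongrMod S₂.V ϖ 1 (h / g₂ ^ e) 1) :
    BOut (gaussVS (Lvl K) (M * q) (baseRing A K)) S₂.V ϖ h e := by
  obtain ⟨g₁, hg₁, hc₁⟩ := base₁_of_base₂ M q hqM A hA K hK S₂ ϖ hϖ he hh hnα hb₂
  exact Fermat.Agent.S40.M4.BOutBase.bOut_of_base M q hqM A hA K hK S₂ ϖ hϖ he hh hv₁ hv₂ hnα hnβ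
    ⟨g₁, hg₁, hc₁.mono (by norm_num)
      ((gaussVS (Lvl K) (M * q) (baseRing A K)).nonunits_subset
        (Fermat.Agent.P3G.GammaVert.unif_mem_nonunits_gaussVS K A (M * q) hϖ))⟩ hb₂

end Fermat.Agent.S40.M4.BOutOneSided
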