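/-
S40 (`moonshots` rows 62–64), block [M4]/(FT), leaf M4-ONESIDED (helper23): **[M4] WITH `Λ = 0` ON ONE
COMPONENT ONLY.**

helper18's `BOutOneSided.base₂_of_base₁` / `base₁_of_base₂` transport the base case of the ping-pong
(`f_K` is a `p`-th power modulo `ϖ`) from one vertical valuation to the other, using the EXACT level
norms.  So the predicate `LamZ` of `New/Pack` may be the base case at ONE vertical valuation:

* `M4LamZ₁` / `M4LamZ₂` : the base case at `V₁ = gaussVS` / at `V₂ = S₂.V` only;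
* `m4LamZ_of_base₁`, `m4LamZ_of_base₂` : `… ⇒ Main.M4LamZ` (given `N_β f_K` resp. `N_α f_K` a `p`-th power);
* ★ `galTors_eq_of_level_nodes₁`, `t4Out_of_imp_nodes₁` (and `…₂`) : [M4] at one good level / the contract
  `New/Pack.T4Out` from `LGLevel.M4NormR ∧ M4LamZ₁` (resp. `M4LamZ₂`).
-/
import Mathlib
import Fermat.Agent.S40.M4.LGLevel
import Fermat.Agent.S40.M4.BOutOneSided

set_option autoImplicit false
set_option linter.unusedSectionVars false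
set_option linter.unusedVariables false
set_option linter.dupNamespace false
set_option linter.style.haveILetI false

open ModularCurve AlgebraicCurve IntermediateField

noncomputable section

namespace Fermat.Agent.S40.M4.OneSided

open Fermat.Agent.N4.Setting Fermat.Agent.N4.BigDVR
  Fermat.Agent.P3G.Assembly.LevelStep
  Fermat.Agent.P3G.GammaDict Fermat.Agent.P3G.GeomStep
  Fermat.Agent.P3G.Gamma Fermat.Agent.P3G.GammaAut
  Fermat.Agent.N4F.C Fermat.Agent.N4F.C.Levels Fermat.Agent.N4F.C.Galois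
  Fermat.Agent.N4F.E.GaussDVR
  Fermat.Agent.N4F.Res
  Fermat.Agent.P4.FrobLevelStep
  Fermat.Agent.S33.L.Skeleton Fermat.Agent.S33.L.Contracts
  Fermat.Agent.S40.M4.Descent Fermat.Agent.S40.M4.Main Fermat.Agent.S40.M4.LGLevel
  Fermat.Agent.S40.New.Pack
open Fermat.Agent.S14.GaloisModule (chi)

local notation "Qbar" => AlgebraicClosure ℚ
local notation "Γ" => (AlgebraicClosure ℚ ≃ₐ[ℚ] AlgebraicClosure ℚ)

section Defs

variable (M p : ℕ) [NeZero M] [Fact p.Prime] (A : ValuationSubring Qbar)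
  (K : IntermediateField ℚ Qbar)
  [IsDiscreteValuationRing ↥(baseRing A K)]
  (S₂ : Fermat.Agent.P3G.FibreTwo.SecondVal (Lvl K) M p (baseRing A K))
  (ϖ : ↥(baseRing A K))

/-- `Λ_∞ = 0`: `f_K` is a `p`-th power modulo `ϖ` at `V₁ = gaussVS`.  (`S₂` is a dummy argument, for
uniformity with `M4LamZ₂` and `New/Pack.LevelPred`.) -/
def M4LamZ₁ (M p : ℕ) [NeZero M] [Fact p.Prime] (A : ValuationSubring Qbar)
    (K : IntermediateField ℚ Qbar) [IsDiscreteValuationRing ↥(baseRing A K)]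
    (_S₂ : Fermat.Agent.P3G.FibreTwo.SecondVal (Lvl K) M p (baseRing A K))
    (ϖ : ↥(baseRing A K)) (fK : FF (Lvl K) (M * p)) : Prop :=
  ∃ g₁ : FF (Lvl K) (M * p), g₁ ≠ 0 ∧
    CongrMod (gaussVS (Lvl K) (M * p) (baseRing A K)) ϖ 1 (fK / g₁ ^ p) 1

/-- `Λ_0 = 0`: `f_K` is a `p`-th power modulo `ϖ` at `V₂ = S₂.V`. -/
def M4LamZ₂ (fK : FF (Lvl K) (M * p)) : Prop :=
  ∃ g₂ : FF (Lvl K) (M * p), g₂ ≠ 0 ∧ CongrMod S₂.V ϖ 1 (fK / g₂ ^ p) 1

variable {M p A K S₂ ϖ}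

/-- The base case at `V₁` and `N_β f_K = b' ^ p` give both base cases. -/
theorem m4LamZ_of_base₁ (hpM : ¬ p ∣ M) (hA : A.LiesOverPrime p) (hK : IsGoodLevel A p K)
    (hϖ : Irreducible ϖ) {fK : FF (Lvl K) (M * p)} (hfK : fK ≠ 0)
    (hnβ : ∃ b' : FF (Lvl K) M, normBetaK K M p fK = b' ^ p)
    (h : M4LamZ₁ M p A K S₂ ϖ fK) : M4LamZ M p A K S₂ ϖ fK := by
  obtain ⟨g₂, hg₂, hc₂⟩ := Fermat.Agent.S40.M4.BOutOneSided.base₂_of_base₁ M p hpM A hA K hK S₂ ϖ hϖ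
    (Fact.out : p.Prime).ne_zero hfK hnβ h
  exact ⟨h, g₂, hg₂, hc₂.mono (by norm_num)
    (S₂.V.nonunits_subset (Fermat.Agent.P3G.GammaV2.unif_mem_nonunits_secondVal K M p S₂ hϖ))⟩

/-- The base case at `V₂` and `N_α f_K = a' ^ p` give both base cases. -/
theorem m4LamZ_of_base₂ (hpM : ¬ p ∣ M) (hA : A.LiesOverPrime p) (hK : IsGoodLevel A p K)
    (hϖ : Irreducible ϖ) {fK : FF (Lvl K) (M * p)} (hfK : fK ≠ 0)
    (hnα : ∃ a' : FF (Lvl K) M, normAlphaK K M p fK = a' ^ p)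
    (h : M4LamZ₂ M p A K S₂ ϖ fK) : M4LamZ M p A K S₂ ϖ fK := by
  obtain ⟨g₁, hg₁, hc₁⟩ := Fermat.Agent.S40.M4.BOutOneSided.base₁_of_base₂ M p hpM A hA K hK S₂ ϖ hϖ
    (Fact.out : p.Prime).ne_zero hfK hnα h
  exact ⟨⟨g₁, hg₁, hc₁.mono (by norm_num)
    ((gaussVS (Lvl K) (M * p) (baseRing A K)).nonunits_subset
      (Fermat.Agent.P3G.GammaVert.unif_mem_nonunits_gaussVS K A (M * p) hϖ))⟩, h⟩

end Defs

section Main

variable {M p : ℕ} [NeZero M] [NeZero p] [Fact p.Prime] {A : ValuationSubring Qbar}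
  {K : IntermediateField ℚ Qbar}
  [IsDiscreteValuationRing ↥(baseRing A K)]
  {S₂ : Fermat.Agent.P3G.FibreTwo.SecondVal (Lvl K) M p (baseRing A K)}
  {ϖ : ↥(baseRing A K)}

/-- ★ **[M4]/(FT) at one good level, `Λ = 0` on the component `V₁ = gaussVS` only.** -/
theorem galTors_eq_of_level_nodes₁ (hpM : ¬ p ∣ M) (hA : A.LiesOverPrime p)
    (hK : IsGoodLevel A p K) (hϖ : Irreducible ϖ)
    (x : Jtors (M * p) p) {fK : FF (Lvl K) (M * p)}
    (hrep : IsRep p (x : JZero (M * p)) (levK (M * p) K fK))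
    (hN : M4NormR M p A K S₂ ϖ fK) (hL : M4LamZ₁ M p A K S₂ ϖ fK) :
    ∀ τ ∈ A.inertiaSubgroupIn ℚ,
      galTors (M * p) p τ x = ((chi p τ : (ZMod p)ˣ) : ZMod p) • x :=
  galTors_eq_of_level_nodes hpM hA hK hϖ x hrep hN
    (m4LamZ_of_base₁ hpM hA hK hϖ (ne_zero_and_dvd_of_isRep hrep).1 hN.2.2.2.2.1 hL)

/-- ★ **[M4]/(FT) at one good level, `Λ = 0` on the component `V₂ = S₂.V` only.** -/
theorem galTors_eq_of_level_nodes₂ (hpM : ¬ p ∣ M) (hA : A.LiesOverPrime p)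
    (hK : IsGoodLevel A p K) (hϖ : Irreducible ϖ)
    (x : Jtors (M * p) p) {fK : FF (Lvl K) (M * p)}
    (hrep : IsRep p (x : JZero (M * p)) (levK (M * p) K fK))
    (hN : M4NormR M p A K S₂ ϖ fK) (hL : M4LamZ₂ M p A K S₂ ϖ fK) :
    ∀ τ ∈ A.inertiaSubgroupIn ℚ,
      galTors (M * p) p τ x = ((chi p τ : (ZMod p)ˣ) : ZMod p) • x :=
  galTors_eq_of_level_nodes hpM hA hK hϖ x hrep hN
    (m4LamZ_of_base₂ hpM hA hK hϖ (ne_zero_and_dvd_of_isRep hrep).1 hN.2.2.2.1 hL)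

end Main

section T4

variable {M p : ℕ} [NeZero M] [NeZero p] [Fact p.Prime] {A : ValuationSubring Qbar}

/-- ★ **`T4Out` for any pair of level predicates implying `M4NormR ∧ M4LamZ₁`.** -/
theorem t4Out_of_imp_nodes₁ (hpM : ¬ p ∣ M) (hA : A.LiesOverPrime p) {Norm LamZ : LevelPred M p A}
    (himp : ∀ (K : IntermediateField ℚ Qbar) (hK : IsGoodLevel A p K)
      [IsDiscreteValuationRing ↥(baseRing A K)]
      (S₂ : Fermat.Agent.P3G.FibreTwo.SecondVal (Lvl K) M p (baseRing A K))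
      (ϖ : ↥(baseRing A K)), Irreducible ϖ → ∀ fK : FF (Lvl K) (M * p),
      Norm K hK S₂ ϖ fK → LamZ K hK S₂ ϖ fK →
        M4NormR M p A K S₂ ϖ fK ∧ M4LamZ₁ M p A K S₂ ϖ fK) :
    T4Out Norm LamZ :=
  fun x _ K hK _ S₂ ϖ hϖ fK hrep hN hL =>
    galTors_eq_of_level_nodes₁ hpM hA hK hϖ x hrep (himp K hK S₂ ϖ hϖ fK hN hL).1
      (himp K hK S₂ ϖ hϖ fK hN hL).2

/-- ★ **`T4Out` for any pair of level predicates implying `M4NormR ∧ M4LamZ₂`.** -/
theorem t4Out_of_imp_nodes₂ (hpM : ¬ p ∣ M) (hA : A.LiesOverPrime p) {Norm LamZ : LevelPred M p A}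
    (himp : ∀ (K : IntermediateField ℚ Qbar) (hK : IsGoodLevel A p K)
      [IsDiscreteValuationRing ↥(baseRing A K)]
      (S₂ : Fermat.Agent.P3G.FibreTwo.SecondVal (Lvl K) M p (baseRing A K))
      (ϖ : ↥(baseRing A K)), Irreducible ϖ → ∀ fK : FF (Lvl K) (M * p),
      Norm K hK S₂ ϖ fK → LamZ K hK S₂ ϖ fK →
        M4NormR M p A K S₂ ϖ fK ∧ M4LamZ₂ M p A K S₂ ϖ fK) :
    T4Out Norm LamZ :=
  fun x _ K hK _ S₂ ϖ hϖ fK hrep hN hL =>
    galTors_eq_of_level_nodes₂ hpM hA hK hϖ x hrep (himp K hK S₂ ϖ hϖ fK hN hL).1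
      (himp K hK S₂ ϖ hϖ fK hN hL).2

end T4

end Fermat.Agent.S40.M4.OneSided
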