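/-
S40 (`moonshots` rows 62–64), block [M4]/(FT), leaf M4-LAMBASE (helper23): **THE SEAM W-LAMBDA → [M4]:
`Λ_∞(f) = 0` GIVES THE BASE CASE OF THE PING-PONG AT `V₁ = gaussVS`.**

`S40/W/Lambda.lamInf f = θ f̄_∞ / f̄_∞` (`f̄_∞ = acInf f` the Gauss angular component, `θ = q d/dq`).
For a Gauss unit `f` of level `N ℓ` (`ℓ = char κ ∤ N`, `κ` perfect):

  `Λ_∞(f) = 0`  ⟹  `θ f̄_∞ = 0`  ⟹  `f̄_∞ = ē ^ ℓ`, `ē ∈ FF κ N`   (`W/SepLaurent` + `W/Sep`: the kernel of `θ`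
  on `FF κ N = FF κ N ^ ℓ (j)` is `FF κ N ^ ℓ`)  ⟹  lift `ē = θ_N(Y)` (`GaussResidue.theta_surjective`),
  `g := α(Y)`, `θ_{Nℓ}(g) = ē` (`theta_alphaF`)  ⟹  `f / g ^ ℓ ≡ 1` modulo `ker θ = ϖ · G_{Nℓ}`.

* `exists_pow_eq_of_thetaD_eq_zero` : the function-field statement over `κ`;
* `exists_sub_one_eq_unif_mul_of_lamInf_eq_zero` : level `(K, O)` (Setting language);
* ★ `m4LamZ₁_of_lamInf_eq_zero` : at a good level, `lamInf f_K = 0` (for a `gaussVS`-unit `f_K`) ⇒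
  `OneSided.M4LamZ₁` (`∃ g₁ ≠ 0, CongrMod gaussVS ϖ 1 (f_K / g₁ ^ p) 1`).
-/
import Mathlib
import Fermat.Agent.S40.M4.OneSided
import Fermat.Agent.S40.W.Lambda
import Fermat.Agent.S40.W.Sep
import Fermat.Agent.P3G.SecondValBridge
import Fermat.Agent.S40.W.F4LG

set_option autoImplicit false
set_option linter.unusedSectionVars false
set_option linter.unusedVariables false
set_option linter.dupNamespace false
set_option linter.style.haveILetI false

open ModularCurve AlgebraicCurve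

noncomputable section

namespace Fermat.Agent.S40.M4.LamBase

open Fermat.Agent.S28.Gauss Fermat.Agent.N4.Setting Fermat.Agent.N4.FibreEmbedding
open Fermat.Agent.N4F.E.DegreeLevelRaise Fermat.Agent.N4F.E.GaussDVR
open Fermat.Agent.N4F.E
open Fermat.Agent.S40.W Fermat.Agent.S40.W.Lambda Fermat.Agent.S40.W.ThetaLog

/-! ### The function-field statement over `κ` -/

section Kappa

open scoped Fermat.Agent.S40.W.FFSetting

/-- **`θ g = 0` for `g ∈ FF κ N` (`κ` perfect of characteristic `ℓ`) ⟹ `g` is an `ℓ`-th power in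
`FF κ N`.** -/
theorem exists_pow_eq_of_thetaD_eq_zero (κ : Type) [Field κ] (ℓ : ℕ) [Fact ℓ.Prime] [CharP κ ℓ]
    [PerfectField κ] (N : ℕ) [NeZero N] (g : FF κ N)
    (h : thetaD κ ((g : FF κ N) : LaurentSeries κ) = 0) : ∃ y : FF κ N, y ^ ℓ = g := by
  haveI := Sep.isSeparable_ratFunc κ N
  haveI : CharP (FF κ N) ℓ := charP_of_injective_algebraMap (algebraMap κ (FF κ N)).injective ℓ
  haveI : CharP (LaurentSeries κ) ℓ :=
    charP_of_injective_algebraMap (algebraMap κ (LaurentSeries κ)).injective ℓ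
  have hgen := SepLaurent.closure_frobenius_range_union (k := κ) (F := RatFunc κ) (E := FF κ N) ℓ
    RatFunc.X RatFunc.adjoin_X
  rw [FFSetting.algebraMap_ratFunc_X] at hgen
  refine SepLaurent.exists_pow_eq_of_derivation_eq_zero ℓ
    ((modularFunctionFieldFullC κ N).val : FF κ N →+* LaurentSeries κ) (Sep.thetaDer κ) (jF κ N)
    hgen ?_ ?_
  · rw [Sep.thetaDer_apply]
    exact Sep.thetaD_jqModC_ne_zero κ
  · rw [Sep.thetaDer_apply]
    exact h

end Kappa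

/-! ### Level `(K, O)` -/

section Level

open Fermat.Agent.P3G.FibreComp Fermat.Agent.P3G.SecondValuation

variable (K : Type) [Field K] [CharZero K] (N : ℕ) [NeZero N] (ℓ : ℕ) [hℓ : Fact ℓ.Prime]
  (O : Subring K) [IsDiscreteValuationRing ↥O] [IsFractionRing ↥O K]
  [CharP (IsLocalRing.ResidueField ↥O) ℓ] [PerfectField (IsLocalRing.ResidueField ↥O)]
  (S : SecondVal K N ℓ O)
  (ι : K →+* ℂ) (hℓN : ¬ ℓ ∣ N)
  (hA2 : ∀ x : ↥(gaussSubalgebra K N O),
    theta K N O x ∈ modularFunctionFieldFullC (IsLocalRing.ResidueField ↥O) N)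

set_option quotPrecheck false in
local notation "κ" => IsLocalRing.ResidueField ↥O

variable {ϖ : ↥O} (hϖ : Irreducible ϖ)

include S ι hℓN hA2 in
/-- **`Λ_∞(f) = 0` for a Gauss unit `f` of level `N ℓ` ⟹ `f / g ^ ℓ ≡ 1` modulo `ϖ G_{Nℓ}` for some
`g ≠ 0`.** -/
theorem exists_sub_one_eq_unif_mul_of_lamInf_eq_zero {f : FF K (N * ℓ)}
    (hf : f ∈ gaussSubalgebra K (N * ℓ) O) (hθ : theta K (N * ℓ) O ⟨f, hf⟩ ≠ 0)
    (h : lamInf K N ℓ O hϖ f = 0) :
    ∃ g : FF K (N * ℓ), g ≠ 0 ∧ ∃ d ∈ gaussSubalgebra K (N * ℓ) O,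
      f / g ^ ℓ - 1 = algebraMap ↥O (FF K (N * ℓ)) ϖ * d := by
  have hℓ0 : ℓ ≠ 0 := hℓ.out.ne_zero
  -- `θ f̄_∞ = 0`
  have hac : acInf K N ℓ O hϖ f = theta K (N * ℓ) O ⟨f, hf⟩ :=
    acG_of_theta_ne_zero K (N * ℓ) O hϖ hf hθ
  have hth : thetaD κ (theta K (N * ℓ) O ⟨f, hf⟩) = 0 := by
    rw [lamInf_def, hac] at h
    exact (dlog_eq_zero_iff κ hθ).1 h
  -- `f̄_∞ = ē ^ ℓ` in `FF κ N`
  have hmem : theta K (N * ℓ) O ⟨f, hf⟩ ∈ modularFunctionFieldFullC κ N :=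
    theta_mem_full K N ℓ O S ι hℓN hA2 f hf
  obtain ⟨y, hy⟩ := exists_pow_eq_of_thetaD_eq_zero κ ℓ N
    (⟨theta K (N * ℓ) O ⟨f, hf⟩, hmem⟩ : FF κ N) hth
  have hy' : ((y : FF κ N) : LaurentSeries κ) ^ ℓ = theta K (N * ℓ) O ⟨f, hf⟩ := by
    have := congrArg (fun z : FF κ N => (z : LaurentSeries κ)) hy
    simpa using this
  have hy0 : ((y : FF κ N) : LaurentSeries κ) ≠ 0 := by
    intro h0
    rw [h0, zero_pow hℓ0] at hy'
    exact hθ hy'.symm
  -- lift `ē`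
  obtain ⟨Y, hY⟩ := Fermat.Agent.N4F.E.GaussResidue.theta_surjective K N O y.2
  set G : gaussSubalgebra K (N * ℓ) O :=
    ⟨alphaF K N ℓ (Y : FF K N), alphaF_mem K O N ℓ Y.2⟩ with hG
  have hθG : theta K (N * ℓ) O G = (y : LaurentSeries κ) := by
    rw [hG, theta_alphaF K O N ℓ Y, hY]
  have hθG0 : theta K (N * ℓ) O G ≠ 0 := by rw [hθG]; exact hy0
  have hG0 : (G : FF K (N * ℓ)) ≠ 0 := by
    intro h0
    apply hθG0
    have : G = 0 := Subtype.ext h0
    rw [this, map_zero]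
  set Ginv : gaussSubalgebra K (N * ℓ) O :=
    ⟨(G : FF K (N * ℓ))⁻¹, inv_mem_of_theta_ne_zero K (N * ℓ) O G hθG0⟩ with hGinv
  have hGG : G * Ginv = 1 := Subtype.ext (mul_inv_cancel₀ hG0)
  have hθGinv : theta K (N * ℓ) O Ginv = ((y : FF κ N) : LaurentSeries κ)⁻¹ := by
    have h2 := congrArg (theta K (N * ℓ) O) hGG
    rw [map_mul, map_one, hθG] at h2
    exact eq_inv_of_mul_eq_one_right h2
  -- the difference is killed by the reduction
  set x : gaussSubalgebra K (N * ℓ) O := ⟨f, hf⟩ * Ginv ^ ℓ - 1 with hx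
  have hθx : theta K (N * ℓ) O x = 0 := by
    rw [hx, map_sub, map_mul, map_pow, map_one, hθGinv, inv_pow, hy',
      mul_inv_cancel₀ hθ, sub_self]
  obtain ⟨d, hd⟩ := exists_eq_unif_mul K (N * ℓ) O hϖ x hθx
  refine ⟨(G : FF K (N * ℓ)), hG0, (d : FF K (N * ℓ)), d.2, ?_⟩
  have h3 := congrArg (fun z : gaussSubalgebra K (N * ℓ) O => (z : FF K (N * ℓ))) hd
  simp only [hx, hGinv] at h3
  rw [div_eq_mul_inv, ← inv_pow]
  exact h3

end Level

/-! ### At a good level -/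

section Good

open IntermediateField
open Fermat.Agent.N4F.C Fermat.Agent.N4F.C.Levels Fermat.Agent.N4F.C.Galois
  Fermat.Agent.P3G.Assembly.LevelStep Fermat.Agent.P3G.Gamma Fermat.Agent.P3G.GammaAut
  Fermat.Agent.S33.L.Skeleton Fermat.Agent.S40.M4.OneSided

local notation "Qbar" => AlgebraicClosure ℚ

set_option maxHeartbeats 1600000 in
set_option synthInstance.maxHeartbeats 400000 in
/-- ★ **`Λ_∞(f_K) = 0` for a `gaussVS`-unit `f_K` at a good level ⟹ the base case of the ping-pong at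
`V₁ = gaussVS`** (`OneSided.M4LamZ₁`). -/
theorem m4LamZ₁_of_lamInf_eq_zero (M p : ℕ) [NeZero M] [Fact p.Prime] (hpM : ¬ p ∣ M)
    (A : ValuationSubring Qbar) (hA : A.LiesOverPrime p)
    (K : IntermediateField ℚ Qbar) (hK : IsGoodLevel A p K)
    [IsDiscreteValuationRing ↥(baseRing A K)]
    (S₂ : Fermat.Agent.P3G.FibreTwo.SecondVal (Lvl K) M p (baseRing A K))
    (ϖ : ↥(baseRing A K)) (hϖ : Irreducible ϖ)
    [CharP (IsLocalRing.ResidueField ↥(baseRing A K)) p]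
    {fK : FF (Lvl K) (M * p)}
    (hv₁ : (gaussVS (Lvl K) (M * p) (baseRing A K)).valuation fK = 1)
    (h : lamInf (Lvl K) M p (baseRing A K) hϖ fK = 0) :
    M4LamZ₁ M p A K S₂ ϖ fK := by
  have hq : p.Prime := Fact.out
  haveI : IsAlgClosed (IsLocalRing.ResidueField ↥(baseRing A K)) := hK.algClosed
  have hGB : GoodBase (Lvl K) M (baseRing A K) p := ⟨hq, hpM, inferInstance, hK.not_unit⟩
  have hstar := LevelStatements.starStatement_lvl hq hA K hGB hK.roots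
  have hred : PGI.RedMem (Lvl K) M (baseRing A K) := fun s hs =>
    ChartReduction.red_mem_full (Lvl K) M (baseRing A K) hGB hstar s hs
  have hA2 := Fermat.Agent.N4F.E.NormReduction.theta_mem_full (Lvl K) M (baseRing A K) hred
  -- `f_K` is a Gauss unit
  have hmem : fK ∈ gaussSubalgebra (Lvl K) (M * p) (baseRing A K) :=
    (gaussVS (Lvl K) (M * p) (baseRing A K)).valuation_le_one_iff fK |>.1 (le_of_eq hv₁)
  have hθ : theta (Lvl K) (M * p) (baseRing A K) ⟨fK, hmem⟩ ≠ 0 := by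
    intro h0
    have hnon : fK ∈ (gaussVS (Lvl K) (M * p) (baseRing A K)).nonunits :=
      (Fermat.Agent.P3G.FibreTwo.mem_nonunits_gaussVS_iff (Lvl K) (M * p) (baseRing A K) hmem).2 h0
    rw [ValuationSubring.mem_nonunits_iff] at hnon
    rw [hv₁] at hnon
    exact lt_irrefl _ hnon
  obtain ⟨g, hg0, d, hd, hgd⟩ := exists_sub_one_eq_unif_mul_of_lamInf_eq_zero (Lvl K) M p
    (baseRing A K) (Fermat.Agent.P3G.SecondValBridge.ofTwo S₂)
    (Fermat.Agent.P3G.GammaV2.lvlToComplex K) hpM hA2 hϖ hmem hθ h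
  exact ⟨g, hg0, d, hd, by rw [pow_one]; exact hgd⟩

end Good

end Fermat.Agent.S40.M4.LamBase
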