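/-
S40/S44 (`moonshots` rows 62–64), block [M4]/(FT), leaf M4-FINAL (helper23): **[M4] WITH NO GEOMETRIC
HYPOTHESIS LEFT.**

All the local generators (LG) are now theorems: away from the crossing points and at the crossing
points without zeros or poles `S40/M4/LGUnit` (helper18), at the crossing points carrying zeros or poles
`S40/M4/LGNodeLevel.lgNodes_good` (helper12, from the base case at `V₁`).  So at ONE good level `K`
(place `A ∣ p`, level `M p`, `p ∤ M`), a representative `f_K` of the `p`-torsion class `x` with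

* `M4NormF` : (n1) `ζ_p ∈ O_K`, (n2) unit of `V₁ = gaussVS` and of `V₂ = S₂.V`, (n3) EXACT level norms
  `N_α f_K = a' ^ p`, `N_β f_K = b' ^ p`, (n4) zeros and poles `K`-rational;
* `OneSided.M4LamZ₁` : `f_K` is a `p`-th power modulo `ϖ` at `V₁` (`Λ_∞ = 0`)
  — or `W/Lambda.lamInf f_K = 0` (`LamBase.m4LamZ₁_of_lamInf_eq_zero`);

satisfies `τ x = χ_p(τ) x` for all `τ` in the inertia group of `A`.

* ★ `galTors_eq_final`, `galTors_eq_final_lam` : the statement;
* ★ `t4Out_final` : `New/Pack.T4Out Norm LamZ` for ANY pair of level predicates with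
  `Norm ⇒ M4NormF`, `LamZ ⇒ M4LamZ₁`;  `t4Out_final_lam` : the same with `LamZ ⇒ (lamInf f_K = 0)`;
* `m4NormF`, `m4LamZ₁`, `lamInfZ` : the canonical `LevelPred`s; `t4Out_canonical`, `t4Out_canonical_lam`.
-/
import Mathlib
import Fermat.Agent.S40.M4.LGNodeLevel
import Fermat.Agent.S40.M4.LamBase

set_option autoImplicit false
set_option linter.unusedSectionVars false
set_option linter.unusedVariables false
set_option linter.dupNamespace false
set_option linter.style.haveILetI false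

open ModularCurve AlgebraicCurve IntermediateField

noncomputable section

namespace Fermat.Agent.S40.M4.Final

open Fermat.Agent.N4.Setting Fermat.Agent.N4.BigDVR
  Fermat.Agent.P3G.Assembly.LevelStep
  Fermat.Agent.P3G.GammaDict Fermat.Agent.P3G.GeomStep
  Fermat.Agent.P3G.Gamma Fermat.Agent.P3G.GammaAut
  Fermat.Agent.N4F.C Fermat.Agent.N4F.C.Levels Fermat.Agent.N4F.C.Galois
  Fermat.Agent.N4F.E.GaussDVR
  Fermat.Agent.N4F.Res
  Fermat.Agent.P4.FrobLevelStep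
  Fermat.Agent.S33.L.Skeleton Fermat.Agent.S33.L.Contracts
  Fermat.Agent.S40.M4.Descent Fermat.Agent.S40.M4.Main Fermat.Agent.S40.M4.LGLevel
  Fermat.Agent.S40.M4.OneSided Fermat.Agent.S40.New.Pack
open Fermat.Agent.S14.GaloisModule (chi)
open Fermat.Agent.S40.W.Lambda (lamInf)

local notation "Qbar" => AlgebraicClosure ℚ
local notation "Γ" => (AlgebraicClosure ℚ ≃ₐ[ℚ] AlgebraicClosure ℚ)

section Defs

variable (M p : ℕ) [NeZero M] [Fact p.Prime] (A : ValuationSubring Qbar)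
  (K : IntermediateField ℚ Qbar)
  [IsDiscreteValuationRing ↥(baseRing A K)]
  (S₂ : Fermat.Agent.P3G.FibreTwo.SecondVal (Lvl K) M p (baseRing A K))

/-- **The normalisation consumed by [M4], final form**: (n1) `ζ_p ∈ O_K`, (n2) bi-unit, (n3) exact
level norms, (n4) `K`-rational zeros and poles.  (No uniformiser, no (LG).) -/
def M4NormF (fK : FF (Lvl K) (M * p)) : Prop :=
  (∃ z : ↥(baseRing A K), IsPrimitiveRoot z p) ∧
  (gaussVS (Lvl K) (M * p) (baseRing A K)).valuation fK = 1 ∧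
  S₂.V.valuation fK = 1 ∧
  (∃ a' : FF (Lvl K) M, normAlphaK K M p fK = a' ^ p) ∧
  (∃ b' : FF (Lvl K) M, normBetaK K M p fK = b' ^ p) ∧
  (∀ Q : Place (Lvl K) (FF (Lvl K) (M * p)), Q.ord fK ≠ 0 →
    Function.Bijective (algebraMap (Lvl K) Q.ResidueField))

variable {M p A K S₂} {ϖ : ↥(baseRing A K)}

/-- `M4NormF` + the base case at `V₁` give `LGLevel.M4NormR` (the (LG) at the crossing points is
helper12's `LGNodeLevel.lgNodes_good`). -/
theorem m4NormR_of_m4NormF (hpM : ¬ p ∣ M) (hA : A.LiesOverPrime p) (hK : IsGoodLevel A p K)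
    (hϖ : Irreducible ϖ) {fK : FF (Lvl K) (M * p)} (hfK : fK ≠ 0)
    (hdiv : ∀ Q : Place (Lvl K) (FF (Lvl K) (M * p)), (p : ℤ) ∣ Q.ord fK)
    (hN : M4NormF M p A K S₂ fK) (hL : M4LamZ₁ M p A K S₂ ϖ fK) :
    M4NormR M p A K S₂ ϖ fK := by
  obtain ⟨hz, hv₁, hv₂, hnα, hnβ, hrat⟩ := hN
  exact ⟨hz, hv₁, hv₂, hnα, hnβ, hrat,
    Fermat.Agent.S40.M4.LGNodeLevel.lgNodes_good M p hpM A hA K hK S₂ ϖ hϖ hfK hdiv hv₁ hv₂ hrat hL⟩

end Defs

section Main

variable {M p : ℕ} [NeZero M] [NeZero p] [Fact p.Prime] {A : ValuationSubring Qbar}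
  {K : IntermediateField ℚ Qbar}
  [IsDiscreteValuationRing ↥(baseRing A K)]
  {S₂ : Fermat.Agent.P3G.FibreTwo.SecondVal (Lvl K) M p (baseRing A K)}
  {ϖ : ↥(baseRing A K)}

/-- ★ **[M4]/(FT) at one good level, final form.** -/
theorem galTors_eq_final (hpM : ¬ p ∣ M) (hA : A.LiesOverPrime p)
    (hK : IsGoodLevel A p K) (hϖ : Irreducible ϖ)
    (x : Jtors (M * p) p) {fK : FF (Lvl K) (M * p)}
    (hrep : IsRep p (x : JZero (M * p)) (levK (M * p) K fK))
    (hN : M4NormF M p A K S₂ fK) (hL : M4LamZ₁ M p A K S₂ ϖ fK) :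
    ∀ τ ∈ A.inertiaSubgroupIn ℚ,
      galTors (M * p) p τ x = ((chi p τ : (ZMod p)ˣ) : ZMod p) • x := by
  obtain ⟨hf0, hdiv⟩ := ne_zero_and_dvd_of_isRep hrep
  exact galTors_eq_of_level_nodes₁ hpM hA hK hϖ x hrep
    (m4NormR_of_m4NormF hpM hA hK hϖ hf0 hdiv hN hL) hL

/-- ★ **[M4]/(FT) at one good level, final form with `Λ_∞ = 0`** (`W/Lambda.lamInf`). -/
theorem galTors_eq_final_lam (hpM : ¬ p ∣ M) (hA : A.LiesOverPrime p)
    (hK : IsGoodLevel A p K) (hϖ : Irreducible ϖ)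
    [CharP (IsLocalRing.ResidueField ↥(baseRing A K)) p]
    (x : Jtors (M * p) p) {fK : FF (Lvl K) (M * p)}
    (hrep : IsRep p (x : JZero (M * p)) (levK (M * p) K fK))
    (hN : M4NormF M p A K S₂ fK)
    (hL : lamInf (Lvl K) M p (baseRing A K) hϖ fK = 0) :
    ∀ τ ∈ A.inertiaSubgroupIn ℚ,
      galTors (M * p) p τ x = ((chi p τ : (ZMod p)ˣ) : ZMod p) • x :=
  galTors_eq_final hpM hA hK hϖ x hrep hN
    (Fermat.Agent.S40.M4.LamBase.m4LamZ₁_of_lamInf_eq_zero M p hpM A hA K hK S₂ ϖ hϖ hN.2.1 hL)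

end Main

/-! ### The contract `T4Out` of `New/Pack` -/

section T4

variable {M p : ℕ} [NeZero M] [NeZero p] [Fact p.Prime] {A : ValuationSubring Qbar}

/-- ★ **`T4Out` for any pair of level predicates with `Norm ⇒ M4NormF` and `LamZ ⇒ M4LamZ₁`.** -/
theorem t4Out_final (hpM : ¬ p ∣ M) (hA : A.LiesOverPrime p) {Norm LamZ : LevelPred M p A}
    (hnorm : ∀ (K : IntermediateField ℚ Qbar) (hK : IsGoodLevel A p K)
      [IsDiscreteValuationRing ↥(baseRing A K)]
      (S₂ : Fermat.Agent.P3G.FibreTwo.SecondVal (Lvl K) M p (baseRing A K))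
      (ϖ : ↥(baseRing A K)), Irreducible ϖ → ∀ fK : FF (Lvl K) (M * p),
      Norm K hK S₂ ϖ fK → M4NormF M p A K S₂ fK)
    (hlam : ∀ (K : IntermediateField ℚ Qbar) (hK : IsGoodLevel A p K)
      [IsDiscreteValuationRing ↥(baseRing A K)]
      (S₂ : Fermat.Agent.P3G.FibreTwo.SecondVal (Lvl K) M p (baseRing A K))
      (ϖ : ↥(baseRing A K)), Irreducible ϖ → ∀ fK : FF (Lvl K) (M * p),
      Norm K hK S₂ ϖ fK → LamZ K hK S₂ ϖ fK → M4LamZ₁ M p A K S₂ ϖ fK) :
    T4Out Norm LamZ :=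
  fun x _ K hK _ S₂ ϖ hϖ fK hrep hN hL =>
    galTors_eq_final hpM hA hK hϖ x hrep (hnorm K hK S₂ ϖ hϖ fK hN) (hlam K hK S₂ ϖ hϖ fK hN hL)

/-- ★ **`T4Out` for any pair of level predicates with `Norm ⇒ M4NormF` and
`LamZ ⇒ (lamInf f_K = 0)`** (for the uniformiser at hand and any `CharP` instance). -/
theorem t4Out_final_lam (hpM : ¬ p ∣ M) (hA : A.LiesOverPrime p) {Norm LamZ : LevelPred M p A}
    (hnorm : ∀ (K : IntermediateField ℚ Qbar) (hK : IsGoodLevel A p K)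
      [IsDiscreteValuationRing ↥(baseRing A K)]
      (S₂ : Fermat.Agent.P3G.FibreTwo.SecondVal (Lvl K) M p (baseRing A K))
      (ϖ : ↥(baseRing A K)), Irreducible ϖ → ∀ fK : FF (Lvl K) (M * p),
      Norm K hK S₂ ϖ fK → M4NormF M p A K S₂ fK)
    (hlam : ∀ (K : IntermediateField ℚ Qbar) (hK : IsGoodLevel A p K)
      [IsDiscreteValuationRing ↥(baseRing A K)]
      (S₂ : Fermat.Agent.P3G.FibreTwo.SecondVal (Lvl K) M p (baseRing A K))
      (ϖ : ↥(baseRing A K)) (hϖ : Irreducible ϖ)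
      [CharP (IsLocalRing.ResidueField ↥(baseRing A K)) p] (fK : FF (Lvl K) (M * p)),
      Norm K hK S₂ ϖ fK → LamZ K hK S₂ ϖ fK →
        lamInf (Lvl K) M p (baseRing A K) hϖ fK = 0) :
    T4Out Norm LamZ := by
  intro x _ K hK _ S₂ ϖ hϖ fK hrep hN hL
  have hq : p.Prime := Fact.out
  haveI : IsAlgClosed (IsLocalRing.ResidueField ↥(baseRing A K)) := hK.algClosed
  have hGB : GoodBase (Lvl K) M (baseRing A K) p := ⟨hq, hpM, inferInstance, hK.not_unit⟩
  haveI : CharP (IsLocalRing.ResidueField ↥(baseRing A K)) p :=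
    Fermat.Agent.N4F.E.GaussResidue.charP_residueField (Lvl K) M (baseRing A K) hGB
  exact galTors_eq_final_lam hpM hA hK hϖ x hrep (hnorm K hK S₂ ϖ hϖ fK hN)
    (hlam K hK S₂ ϖ hϖ fK hN hL)

/-- The canonical `Norm` of [M4] (final form) as a `LevelPred`. -/
def m4NormF (M p : ℕ) [NeZero M] [Fact p.Prime] (A : ValuationSubring Qbar) : LevelPred M p A :=
  fun K _ _ S₂ _ fK => M4NormF M p A K S₂ fK

/-- The canonical one-sided `LamZ` of [M4] as a `LevelPred`: the base case at `V₁ = gaussVS`. -/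
def m4LamZ₁ (M p : ℕ) [NeZero M] [Fact p.Prime] (A : ValuationSubring Qbar) : LevelPred M p A :=
  fun K _ _ S₂ ϖ fK => M4LamZ₁ M p A K S₂ ϖ fK

/-- `Λ_∞ = 0` (`W/Lambda.lamInf`) as a `LevelPred` (for every proof of irreducibility of the
uniformiser and every `CharP` instance: both are propositions). -/
def lamInfZ (M p : ℕ) [NeZero M] [Fact p.Prime] (A : ValuationSubring Qbar) : LevelPred M p A :=
  fun K _ _ _ ϖ fK => ∀ (hϖ : Irreducible ϖ)
    (_ : CharP (IsLocalRing.ResidueField ↥(baseRing A K)) p),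
    lamInf (Lvl K) M p (baseRing A K) hϖ fK = 0

/-- **`T4Out` for the canonical pair `(m4NormF, m4LamZ₁)`.** -/
theorem t4Out_canonical (hpM : ¬ p ∣ M) (hA : A.LiesOverPrime p) :
    T4Out (m4NormF M p A) (m4LamZ₁ M p A) :=
  t4Out_final hpM hA (fun _ _ _ _ _ _ _ hN => hN) (fun _ _ _ _ _ _ _ _ hL => hL)

/-- **`T4Out` for the canonical pair `(m4NormF, lamInfZ)`.** -/
theorem t4Out_canonical_lam (hpM : ¬ p ∣ M) (hA : A.LiesOverPrime p) :
    T4Out (m4NormF M p A) (lamInfZ M p A) :=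
  t4Out_final_lam hpM hA (fun _ _ _ _ _ _ _ hN => hN)
    (fun _ _ _ _ _ hϖ inst _ _ hL => hL hϖ inst)

end T4

end Fermat.Agent.S40.M4.Final
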